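import Fermat.Agent.LT.Quat.Transport

/-!
# The algebra generated by the Brandt matrices
-/

set_option autoImplicit false

namespace Fermat.Agent.LT.Quat

variable (p : Params)

/-- The Brandt matrices at the primes not dividing the level. -/
def brandtGens : Set (Matrix (Cls p) (Cls p) ℤ) :=
  {B | ∃ l : ℕ, l.Prime ∧ ¬ l ∣ p.level ∧ B = brandt p l}

/-- The algebra generated by the Brandt matrices at the primes not dividing the level. -/
noncomputable def heckeAlg : Subalgebra ℤ (Matrix (Cls p) (Cls p) ℤ) :=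
  Algebra.adjoin ℤ (brandtGens p)

theorem brandt_mem_heckeAlg {l : ℕ} (hl : l.Prime) (hlv : ¬ l ∣ p.level) :
    brandt p l ∈ heckeAlg p :=
  Algebra.subset_adjoin ⟨l, hl, hlv, rfl⟩

/-- The Hecke operator at `l` in the algebra. -/
noncomputable def heckeAlg.t {l : ℕ} (hl : l.Prime) (hlv : ¬ l ∣ p.level) : heckeAlg p :=
  ⟨brandt p l, brandt_mem_heckeAlg p hl hlv⟩

end Fermat.Agent.LT.Quat
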