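import Fermat.Agent.LT.Quat.Smith
import Fermat.Agent.LT.Theta.Bridge.Descend

/-!
# The values of the homomorphism; descent to the functions of sum zero
-/

set_option autoImplicit false

namespace Fermat.Agent.LT.Quat

variable {p : Params} {A : Type*} [CommRing A] [IsDedekindDomain A] [Module.Free ℤ A]
  [Module.Finite ℤ A] (e : A ≃+* p.OK) {R : Type*} [CommRing R]
  [∀ l, Fintype {P : Ideal A // Ideal.absNorm P = l}] (χ : ClassGroup A →* R)

/-- At a split prime the value is the sum of the values at the two primes. -/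
theorem chiSum_eq_of_split {l : ℕ} (hl : l.Prime) (P : {P : Ideal A // Ideal.absNorm P = l})
    (hne : P.1.map (cjA e : A →+* A) ≠ P.1) :
    chiSum χ hl.ne_zero = χ (ClassGroup.mk0 (normPrime P hl.ne_zero)) +
      χ (ClassGroup.mk0 (normPrime P hl.ne_zero))⁻¹ := by
  classical
  let P' : {P : Ideal A // Ideal.absNorm P = l} :=
    ⟨P.1.map (cjA e : A →+* A), (absNorm_map_cjA e P.1).trans P.2⟩
  have huniv : (Finset.univ : Finset {P : Ideal A // Ideal.absNorm P = l}) = {P, P'} := by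
    ext Q
    simp only [Finset.mem_univ, Finset.mem_insert, Finset.mem_singleton, true_iff]
    have hP0 : P.1 ≠ ⊥ := fun h => hl.ne_zero (by rw [← P.2, h, Ideal.absNorm_bot])
    have hQ : Q.1.IsPrime := Ideal.isPrime_of_irreducible_absNorm (by rw [Q.2]; exact hl)
    have hle : P.1.map (cjA e : A →+* A) * P.1 ≤ Q.1 := by
      rw [map_cjA_mul_eq e hP0, P.2]
      exact (congrArg (fun n : ℕ => Ideal.span {(n : A)}) Q.2.symm).trans_le
        (Ideal.span_singleton_absNorm_le Q.1)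
    have hQ0 : Q.1 ≠ ⊥ := fun h => hl.ne_zero (by rw [← Q.2, h, Ideal.absNorm_bot])
    rcases hQ.mul_le.mp hle with h | h
    · exact Or.inr (Subtype.ext (eq_of_le_of_absNorm_eq h hQ0 (P'.2.trans Q.2.symm)).symm)
    · exact Or.inl (Subtype.ext (eq_of_le_of_absNorm_eq h hQ0 (P.2.trans Q.2.symm)).symm)
  rw [chiSum, huniv, Finset.sum_pair (fun h => hne (congrArg Subtype.val h).symm)]
  congr 2
  exact mk0_map_cjA e (normPrime P hl.ne_zero) (normPrime P' hl.ne_zero).2

variable [Fintype (ClassGroup A)]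

include e in
/-- **The homomorphism from the Hecke ring on functions of sum zero.** -/
theorem exists_cuspPi [IsLocalRing R] (hd : 2 ∣ p.d) (h2 : (2 : R) = 0)
    (hχ : ∃ g, IsUnit (χ g - 1))
    (hu : ∃ (l : ℕ) (hl : l.Prime), ¬ l ∣ p.level ∧ IsUnit (chiSum χ hl.ne_zero)) :
    ∃ π₀ : p.CuspHecke →+* R, ∀ (l : ℕ) (hl : l.Prime), ¬ l ∣ p.level →
      π₀ (p.tCusp l) = chiSum χ hl.ne_zero := by
  obtain ⟨C₀, hC₀⟩ := exists_separating e χ h2 hχ
  obtain ⟨π, hπ, hker⟩ := exists_pi e χ hd h2 C₀ fun _ => hC₀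
  obtain ⟨l, hl, hlv, hu⟩ := hu
  obtain ⟨π₀, h₀⟩ := p.exists_cuspHom π hker ⟨l, hl, hlv, by
    obtain ⟨m, hm⟩ := hl.odd_of_ne_two fun h => hlv (h ▸ dvd_mul_of_dvd_left hd p.P)
    rw [hπ l hl hlv, show ((l : R) + 1) = 2 * (m + 1) by rw [hm]; push_cast; ring, h2, zero_mul,
      sub_zero]
    exact hu⟩
  exact ⟨π₀, fun l hl hlv => (h₀ l hl hlv).trans (hπ l hl hlv)⟩

end Fermat.Agent.LT.Quat
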