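import Fermat.Agent.LT.Quat.Defs
import Mathlib.Data.Nat.ChineseRemainder
import Mathlib.NumberTheory.LSeries.PrimesInAP

/-!
# Existence of the data

`exists_params`: for squarefree `d`, `1` or `2` modulo `4`, and a finite set `T` of primes inert
in `ℚ(√-d)` there are parameters of a quaternion order of level `d ∏ T`, given two distinct odd
prime divisors of `d`, one of them `≡ 1 (mod 12)`.
A prime `r` with prescribed Legendre symbols at the primes of `d` and prescribed class modulo `8`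
exists by Dirichlet; by quadratic reciprocity `-d` is a square modulo `r` exactly when the number
of ramified primes is odd. It is used in `LT/Compose/Main`.
-/

set_option autoImplicit false

namespace Fermat.Agent.LT.Quat

open scoped NumberTheorySymbols

theorem jacobiSym_prod_right (a : ℤ) (s : Finset ℕ) (hs : ∀ v ∈ s, v ≠ 0) :
    J(a | ∏ v ∈ s, v) = ∏ v ∈ s, J(a | v) := by
  induction s using Finset.induction_on with
  | empty => simp
  | @insert v t hv ih =>
    rw [Finset.prod_insert hv, Finset.prod_insert hv,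
      jacobiSym.mul_right' a (hs v (Finset.mem_insert_self _ _))
        (Finset.prod_ne_zero_iff.mpr fun w hw => hs w (Finset.mem_insert_of_mem hw)),
      ih fun w hw => hs w (Finset.mem_insert_of_mem hw)]

/-- A natural number with prescribed Legendre symbol. -/
theorem exists_legendre {v : ℕ} (hv : v.Prime) (hv2 : v ≠ 2) {e : ℤ} (he : e = 1 ∨ e = -1) :
    ∃ a : ℕ, a.Coprime v ∧ J((a : ℤ) | v) = e := by
  have : Fact v.Prime := ⟨hv⟩
  rcases he with rfl | rfl
  · exact ⟨1, Nat.coprime_one_left v, by simp⟩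
  · obtain ⟨x, hx⟩ := quadraticChar_exists_neg_one (F := ZMod v) (by rwa [ZMod.ringChar_zmod_n])
    have hx0 : x ≠ 0 := fun h => by simp [h] at hx
    refine ⟨x.val, (hv.coprime_iff_not_dvd.mpr fun hd => hx0 ?_).symm, ?_⟩
    · exact (ZMod.val_eq_zero x).mp (Nat.eq_zero_of_dvd_of_lt hd x.val_lt)
    · rw [← jacobiSym.legendreSym.to_jacobiSym, legendreSym]
      simpa using hx

/-- Quadratic reciprocity against a number `3` mod `4`. -/
theorem jacobiSym_eq_neg {m s : ℕ} (hm : Odd m) (hs : s % 4 = 3) :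
    J((m : ℤ) | s) = J(-(s : ℤ) | m) := by
  have hs' : Odd s := Nat.odd_iff.mpr (by omega)
  rw [neg_eq_neg_one_mul (s : ℤ), jacobiSym.mul_left, jacobiSym.at_neg_one hm]
  rcases Nat.odd_mod_four_iff.mp (Nat.odd_iff.mp hm) with h | h
  · rw [jacobiSym.quadratic_reciprocity_one_mod_four h hs', ZMod.χ₄_nat_one_mod_four h, one_mul]
  · rw [jacobiSym.quadratic_reciprocity_three_mod_four h hs, ZMod.χ₄_nat_three_mod_four h,
      neg_one_mul]

/-- The odd prime divisors. -/
theorem exists_odd_part {d : ℕ} (hsq : Squarefree d) :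
    ∃ e : ℕ, (e = 0 ∨ e = 1) ∧ d = 2 ^ e * ∏ v ∈ d.primeFactors.erase 2, v ∧
      (d.primeFactors.erase 2).card + e = d.primeFactors.card := by
  have hprod := Nat.prod_primeFactors_of_squarefree hsq
  by_cases h2 : 2 ∈ d.primeFactors
  · refine ⟨1, Or.inr rfl, ?_, ?_⟩
    · rw [pow_one]
      exact hprod.symm.trans (Finset.mul_prod_erase _ _ h2).symm
    · rw [Finset.card_erase_of_mem h2]
      have := Finset.card_pos.mpr ⟨2, h2⟩
      omega
  · refine ⟨0, Or.inl rfl, ?_, ?_⟩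
    · rw [pow_zero, one_mul, Finset.erase_eq_of_notMem h2, hprod]
    · rw [Finset.erase_eq_of_notMem h2, add_zero]

/-- Dirichlet with the Chinese remainder theorem: beyond any bound there is a prime in a given
odd class modulo `8` and in given invertible classes modulo finitely many odd primes. -/
theorem exists_prime_classes (S : Finset ℕ) (hS : ∀ v ∈ S, v.Prime ∧ v ≠ 2) {c : ℕ}
    (hc : c % 2 = 1) {a : ℕ → ℕ} (ha : ∀ v ∈ S, (a v).Coprime v) (n : ℕ) :
    ∃ r, n < r ∧ r.Prime ∧ r ≡ c [MOD 8] ∧ ∀ v ∈ S, r ≡ a v [MOD v] := by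
  classical
  let mods : ℕ → ℕ := fun v => if v = 2 then 8 else v
  let val : ℕ → ℕ := fun v => if v = 2 then c else a v
  have hmods0 : ∀ i ∈ insert 2 S, mods i ≠ 0 := fun i hi => by
    rcases Finset.mem_insert.mp hi with rfl | h
    · simp [mods]
    · simp [mods, (hS i h).2, (hS i h).1.ne_zero]
  have hpair : Set.Pairwise (insert 2 S : Finset ℕ) (Function.onFun Nat.Coprime mods) := by
    intro i hi j hj hij
    have h8 : ∀ j ∈ S, Nat.Coprime 8 j := fun j hj =>
      Nat.Coprime.pow_left 3 ((Nat.coprime_primes Nat.prime_two (hS j hj).1).mpr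
        (Ne.symm (hS j hj).2))
    rcases Finset.mem_insert.mp hi with rfl | hi' <;> rcases Finset.mem_insert.mp hj with rfl | hj'
    · exact absurd rfl hij
    · simpa [Function.onFun, mods, (hS j hj').2] using h8 j hj'
    · simpa [Function.onFun, mods, (hS i hi').2] using (h8 i hi').symm
    · simpa [Function.onFun, mods, (hS i hi').2, (hS j hj').2] using
        (Nat.coprime_primes (hS i hi').1 (hS j hj').1).mpr hij
  obtain ⟨A, hA⟩ := Nat.chineseRemainderOfFinset val mods (insert 2 S) hmods0 hpair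
  have hA2 : A ≡ c [MOD 8] := by
    simpa [mods, val] using hA 2 (Finset.mem_insert_self _ _)
  have hAS : ∀ v ∈ S, A ≡ a v [MOD v] := fun v hv => by
    simpa [mods, val, (hS v hv).2] using hA v (Finset.mem_insert_of_mem hv)
  have hAcop : A.Coprime (∏ i ∈ insert 2 S, mods i) := by
    refine Nat.Coprime.prod_right fun i hi => ?_
    rcases Finset.mem_insert.mp hi with rfl | hi
    · have : A % 2 = 1 := by
        have h := hA2
        unfold Nat.ModEq at h
        omega
      simpa [mods] using (Nat.coprime_two_right.mpr (Nat.odd_iff.mpr this)).pow_right 3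
    · simp only [mods, if_neg (hS i hi).2]
      exact ((hAS i hi).gcd_eq).trans (ha i hi)
  obtain ⟨r, hrgt, hr, hrA⟩ :=
    Nat.forall_exists_prime_gt_and_modEq n (Finset.prod_ne_zero_iff.mpr hmods0) hAcop
  refine ⟨r, hrgt, hr, (hrA.of_dvd ?_).trans hA2, fun v hv => (hrA.of_dvd ?_).trans (hAS v hv)⟩
  · simpa [mods] using Finset.dvd_prod_of_mem mods (Finset.mem_insert_self 2 S)
  · simpa [mods, (hS v hv).2] using Finset.dvd_prod_of_mem mods (Finset.mem_insert_of_mem hv)

/-- A residue `a` prime to `v` with prescribed symbol of `-(a P)` modulo `v`. -/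
private theorem exists_residue_mul {v P : ℕ} (hv : v.Prime) (hv2 : v ≠ 2) (hP : P.Coprime v)
    {ε : ℤ} (hε : ε = 1 ∨ ε = -1) : ∃ a : ℕ, a.Coprime v ∧ J(-((a * P : ℕ) : ℤ) | v) = ε := by
  have hPv : Int.gcd (-(P : ℤ)) v = 1 := by rwa [Int.neg_gcd, Int.gcd_natCast_natCast]
  have hJP := jacobiSym.eq_one_or_neg_one hPv
  obtain ⟨a, ha, hJ⟩ := exists_legendre hv hv2 (e := ε * J(-(P : ℤ) | v))
    (by rcases hε with rfl | rfl <;> rcases hJP with h | h <;> simp [h])
  refine ⟨a, ha, ?_⟩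
  rw [Nat.cast_mul, ← mul_neg, jacobiSym.mul_left, hJ, mul_assoc]
  rcases hJP with h | h <;> simp [h]

/-- If `r ≡ 3 P` modulo `8` and `P` is odd, then `r P ≡ 3` and `r + P = 4 M` with `M` odd. -/
private theorem mul_mod_eight {r P : ℕ} (hP : Odd P) (hr : r ≡ 3 * P [MOD 8]) :
    r * P % 8 = 3 ∧ ∃ M : ℕ, r + P = 4 * M ∧ M % 2 = 1 := by
  have hP' := Nat.odd_iff.mp hP
  constructor
  · have h := hr.mul_right P
    have hPP : P * P % 8 = 1 := by
      rw [Nat.mul_mod]
      have : P % 8 = 1 ∨ P % 8 = 3 ∨ P % 8 = 5 ∨ P % 8 = 7 := by omega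
      rcases this with h | h | h | h <;> rw [h]
    have h3 : 3 * P * P % 8 = 3 := by rw [mul_assoc, Nat.mul_mod, hPP]
    unfold Nat.ModEq at h
    omega
  · refine ⟨(r + P) / 4, ?_, ?_⟩ <;>
    · unfold Nat.ModEq at hr
      omega

/-- Reciprocity against a number `s ≡ 3` modulo `8` for `-(2 ^ e ∏ S)`. -/
private theorem jacobiSym_neg_two_pow_mul_prod {s : ℕ} (hs8 : s % 8 = 3) (e : ℕ) (S : Finset ℕ)
    (hS : ∀ v ∈ S, v.Prime ∧ v ≠ 2) :
    J(-((2 ^ e * ∏ v ∈ S, v : ℕ) : ℤ) | s) = -1 * (-1) ^ e * ∏ v ∈ S, J(-(s : ℤ) | v) := by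
  have hsodd : Odd s := Nat.odd_iff.mpr (by omega)
  have hSodd : Odd (∏ v ∈ S, v) :=
    Finset.prod_induction _ Odd (fun _ _ => Odd.mul) odd_one
      fun v hv => (hS v hv).1.odd_of_ne_two (hS v hv).2
  rw [Nat.cast_mul, neg_eq_neg_one_mul, jacobiSym.mul_left, jacobiSym.mul_left,
    jacobiSym.at_neg_one hsodd, ZMod.χ₄_nat_three_mod_four (by omega), Nat.cast_pow,
    jacobiSym.pow_left, Nat.cast_ofNat, jacobiSym.at_two hsodd,
    show ZMod.χ₈ (s : ZMod 8) = -1 by
      rw [← ZMod.natCast_mod s 8, hs8]; rfl,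
    jacobiSym_eq_neg hSodd (by omega), jacobiSym_prod_right _ _ fun v hv => (hS v hv).1.ne_zero,
    mul_assoc]

/-- Adding the prime `l` of `S` to the count exactly when the count is even makes it odd. -/
private theorem odd_add_of_choice {S : Finset ℕ} {l n : ℕ} (h0 : 0 ∉ S) (hl : l ∈ S) :
    Odd (n + if (if Odd n then 0 else l) ∈ S then 1 else 0) := by
  by_cases h : Odd n
  · rwa [if_pos h, if_neg h0, add_zero]
  · rw [if_neg h, if_pos hl]
    exact (Nat.not_odd_iff_even.mp h).add_one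

/-- A square root of `-d` modulo an odd prime with even lift. -/
private theorem exists_even_sqrt {d r : ℕ} (hr : r.Prime) (hr2 : r ≠ 2) (hJ : J(-(d : ℤ) | r) = 1) :
    ∃ c h : ℤ, Even c ∧ c ^ 2 + d = r * h := by
  have : Fact r.Prime := ⟨hr⟩
  obtain ⟨z, hz⟩ := ZMod.isSquare_of_jacobiSym_eq_one hJ
  obtain ⟨c, hc, hcz⟩ : ∃ c : ℤ, Even c ∧ (c : ZMod r) = z := by
    rcases Int.even_or_odd (z.val : ℤ) with hev | hod
    · exact ⟨z.val, hev, by simp⟩
    · exact ⟨z.val + r, hod.add_odd (by exact_mod_cast hr.odd_of_ne_two hr2), by simp⟩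
  obtain ⟨h, hh⟩ : (r : ℤ) ∣ c ^ 2 + d := by
    rw [← ZMod.intCast_zmod_eq_zero_iff_dvd]
    push_cast at hz ⊢
    rw [hcz, pow_two, ← hz, neg_add_cancel]
  exact ⟨c, h, hc, hh⟩

/-- **Existence of the data**: `v₀` is `0` or the given auxiliary prime `l₂`, whichever makes the
number of ramified primes odd. -/
theorem exists_params {d : ℕ} (hsq : Squarefree d) (hmod : d % 4 = 1 ∨ d % 4 = 2) (T : Finset ℕ)
    (hT : ∀ q ∈ T, q.Prime ∧ q ≠ 2 ∧ ¬ q ∣ d ∧ jacobiSym (-(d : ℤ)) q = -1)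
    {l₁ l₂ : ℕ} (hl₁ : l₁.Prime) (hl₁d : l₁ ∣ d) (hl₁m : l₁ % 12 = 1) (hl₂ : l₂.Prime)
    (hl₂d : l₂ ∣ d) (hl₂2 : l₂ ≠ 2) (hne : l₁ ≠ l₂) :
    ∃ p : Params, p.d = d ∧ p.T = T ∧ p.l₁ = l₁ ∧ (p.v₀ = 0 ∨ p.v₀ = l₂) := by
  classical
  obtain ⟨e, he, hd, hcard⟩ := exists_odd_part hsq
  set S := d.primeFactors.erase 2 with hS
  have hS' : ∀ v ∈ S, v.Prime ∧ v ≠ 2 ∧ v ∣ d := fun v hv => by
    obtain ⟨h2, h⟩ := Finset.mem_erase.mp hv
    exact ⟨(Nat.mem_primeFactors.mp h).1, h2, (Nat.mem_primeFactors.mp h).2.1⟩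
  have hmemS : ∀ v : ℕ, v.Prime → v ≠ 2 → v ∣ d → v ∈ S := fun v hv h2 hvd =>
    Finset.mem_erase.mpr ⟨h2, Nat.mem_primeFactors.mpr ⟨hv, hvd, hsq.ne_zero⟩⟩
  set v₀ := if Odd (T.card + d.primeFactors.card) then 0 else l₂ with hv₀
  set P := ∏ q ∈ T, q with hPdef
  have hPodd : Odd P := by
    refine Finset.prod_induction _ Odd (fun _ _ => Odd.mul) odd_one fun q hq => ?_
    exact (hT q hq).1.odd_of_ne_two (hT q hq).2.1
  -- the residues
  have hres : ∀ v : ℕ, ∃ a : ℕ, v ∈ S → a.Coprime v ∧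
      J(-((a * P : ℕ) : ℤ) | v) = if v = v₀ then 1 else -1 := by
    intro v
    by_cases hv : v ∈ S
    · obtain ⟨hvp, hv2, hvd⟩ := hS' v hv
      obtain ⟨a, ha⟩ := exists_residue_mul hvp hv2 (ε := if v = v₀ then 1 else -1)
        (Nat.Coprime.prod_left fun q hq => (Nat.coprime_primes (hT q hq).1 hvp).mpr
          fun h => (hT q hq).2.2.1 (h ▸ hvd))
        (by split_ifs <;> simp)
      exact ⟨a, fun _ => ha⟩
    · exact ⟨1, fun h => absurd h hv⟩
  choose a haS using hres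
  -- the prime: `3 P` modulo `8`, in the chosen residues, larger than `d` and `P`
  obtain ⟨r, hrgt, hr, hr8, hrcl⟩ := exists_prime_classes S
    (fun v hv => ⟨(hS' v hv).1, (hS' v hv).2.1⟩) (c := 3 * P)
    (by have := Nat.odd_iff.mp hPodd; omega) (fun v hv => (haS v hv).1) (d + P + 2)
  have hrS : ∀ v ∈ S, J(-((r * P : ℕ) : ℤ) | v) = if v = v₀ then 1 else -1 := fun v hv => by
    have h : r ≡ a v [MOD v] := hrcl v hv
    rw [← (haS v hv).2]
    refine jacobiSym.mod_left' ?_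
    have h' : ((r * P : ℕ) : ℤ) ≡ ((a v * P : ℕ) : ℤ) [ZMOD v] :=
      Int.natCast_modEq_iff.mpr (h.mul_right P)
    exact h'.neg
  -- `-d` is a square modulo `r`
  have hd0 : 0 < d := Nat.pos_of_ne_zero hsq.ne_zero
  have hP0 : 0 < P := hPodd.pos
  have hrd : ¬ r ∣ d := fun h => by have := Nat.le_of_dvd hd0 h; omega
  have hr2 : r ≠ 2 := by omega
  set s := r * P with hsdef
  obtain ⟨hs8, M, hM, hMo⟩ := mul_mod_eight hPodd hr8
  have hJr : J(-(d : ℤ) | r) = 1 := by
    have hJs : J(-(d : ℤ) | s) = J(-(d : ℤ) | r) * (-1) ^ T.card := by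
      rw [hsdef, jacobiSym.mul_right' _ hr.ne_zero hP0.ne', hPdef,
        jacobiSym_prod_right _ _ fun q hq => (hT q hq).1.ne_zero,
        Finset.prod_congr rfl fun q hq => (hT q hq).2.2.2, Finset.prod_const]
    -- reciprocity turns the symbol modulo `s = r P` into those of `-s` at the primes of `d`
    have hsign : ∀ v ∈ S, J(-(s : ℤ) | v) = -1 * (if v = v₀ then -1 else 1) := fun v hv => by
      rw [hrS v hv]
      split_ifs <;> norm_num
    have h2 : J(-(d : ℤ) | s) =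
        (-1) * (-1) ^ e * ((-1) ^ S.card * if v₀ ∈ S then -1 else 1) := by
      rw [hd, jacobiSym_neg_two_pow_mul_prod hs8 e S fun v hv => ⟨(hS' v hv).1, (hS' v hv).2.1⟩,
        Finset.prod_congr rfl hsign, Finset.prod_mul_distrib, Finset.prod_const,
        Finset.prod_ite_eq' S v₀ fun _ => (-1 : ℤ)]
    -- the exponent of `-1` is odd by the choice of `v₀`
    have hpar : Odd (T.card + e + S.card + if v₀ ∈ S then 1 else 0) := by
      rw [add_assoc T.card, add_comm e, hcard]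
      exact odd_add_of_choice (fun h => (hS' 0 h).1.ne_zero rfl) (hmemS l₂ hl₂ hl₂2 hl₂d)
    have h3 := hJs.symm.trans h2
    have hT2 : ((-1 : ℤ) ^ T.card) * (-1) ^ T.card = 1 := by
      rw [← mul_pow, neg_one_mul, neg_neg, one_pow]
    have hδ : (if v₀ ∈ S then (-1 : ℤ) else 1) = (-1) ^ (if v₀ ∈ S then 1 else 0) := by
      split_ifs <;> simp
    calc J(-(d : ℤ) | r) = J(-(d : ℤ) | r) * (-1) ^ T.card * (-1) ^ T.card := by
          rw [mul_assoc, hT2, mul_one]
      _ = -(-1) ^ (T.card + e + S.card + if v₀ ∈ S then 1 else 0) := by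
          rw [h3, hδ, pow_add, pow_add, pow_add]; ring
      _ = 1 := by rw [hpar.neg_one_pow, neg_neg]
  -- the constants
  obtain ⟨c, h, hc, hh⟩ := exists_even_sqrt hr hr2 hJr
  refine ⟨⟨d, T, r, M, c, h, l₁, v₀, hsq, hmod, hT, hr, hr2, hrd, fun h => ?_, hM, hMo, hc, hh,
    fun v hv h2 hvd => hrS v (hmemS v hv h2 hvd), hl₁, hl₁d, hl₁m, ?_⟩, rfl, rfl, rfl, ?_⟩
  · have := Nat.le_of_dvd hP0 (Finset.dvd_prod_of_mem _ h : r ∣ P)
    omega
  · simp only [hv₀]
    split_ifs
    · exact hl₁.ne_zero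
    · exact hne
  · simp only [hv₀]
    split_ifs <;> simp

end Fermat.Agent.LT.Quat
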