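import Fermat.Agent.LT.Quat.Iota

/-!
# The element `j` and the prime above `r`
-/

set_option autoImplicit false

open scoped nonZeroDivisors

namespace Fermat.Agent.LT.Quat

variable {p : Params}

theorem eJ_ne_zero : (Elt.eJ : p.O) ≠ 0 := fun h => by simpa [Elt.eJ] using congrArg Elt.x h

variable {A : Type*} [CommRing A] (e : A ≃+* p.OK)

/-- `j x = x̄ j` for `x` in the quadratic order. -/
theorem eJ_mul_jA (x : A) : Elt.eJ * jA e x = jA e (cjA e x) * Elt.eJ := by
  refine Elt.ext ?_ ?_ ?_ ?_ <;>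
    simp [Elt.mul_a, Elt.mul_b, Elt.mul_x, Elt.mul_y, Elt.eJ, jA_a, jA_b, jA_x, jA_y, e_cjA] <;>
    ring

/-- An element of the quaternion order without `x, y` coordinates lies in the quadratic order. -/
theorem exists_jA_eq {z : p.O} (hx : z.x = 0) (hy : z.y = 0) : ∃ t : A, jA e t = z := by
  refine ⟨e.symm ⟨z.a, z.b⟩, Elt.ext ?_ ?_ ?_ ?_⟩
  · rw [jA_a, e.apply_symm_apply]
  · rw [jA_b, e.apply_symm_apply]
  · rw [jA_x, hx]
  · rw [jA_y, hy]

/-- The residue map at the prime `(r, c - √-d)`. -/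
noncomputable def phiR : A →+* ZMod p.r :=
  (Zsqrtd.lift ⟨(p.c : ZMod p.r), by
    have h := congrArg (fun t : ℤ => (t : ZMod p.r)) p.c_sq
    push_cast at h ⊢
    rw [ZMod.natCast_self, zero_mul] at h
    linear_combination h⟩).comp e.toRingHom

theorem phiR_apply (x : A) : phiR e x = (e x).re + (e x).im * (p.c : ZMod p.r) := rfl

/-- The prime `(r, c - √-d)`. -/
noncomputable def rbar : Ideal A := RingHom.ker (phiR e)

theorem mem_rbar {x : A} : x ∈ rbar e ↔ (p.r : ℤ) ∣ (e x).re + (e x).im * p.c := by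
  rw [rbar, RingHom.mem_ker, phiR_apply, ← Int.cast_mul, ← Int.cast_add,
    ZMod.intCast_zmod_eq_zero_iff_dvd]

/-- The prime `(r, c + √-d)`. -/
noncomputable def frakr : Ideal A := (rbar e).map (cjA e : A →+* A)

theorem map_cjA_frakr : (frakr e).map (cjA e : A →+* A) = rbar e := by
  rw [frakr, Ideal.map_map]
  convert Ideal.map_id (rbar e)
  exact RingHom.ext (cjA_cjA e)

theorem phiR_surjective : Function.Surjective (phiR e) := fun x => by
  obtain ⟨n, rfl⟩ := ZMod.intCast_surjective x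
  exact ⟨n, map_intCast _ n⟩

/-- An element negated by `σ` is, up to a factor `r`, a multiple of `j` by an element of `rbar`. -/
theorem exists_sigma_neg {z : p.O} (hz : Elt.sigma z = -z) :
    ∃ β : A, β ∈ rbar e ∧ (p.r : ℤ) • z = jA e β * Elt.eJ := by
  have h1 : z.a + p.r * z.x + p.c * z.y = -z.a := by simpa using congrArg Elt.a hz
  have h2 : z.b - z.y = -z.b := by simpa using congrArg Elt.b hz
  -- `x = 2 x'` and `y = 2 b`, as `r` is odd
  obtain ⟨x', hx'⟩ : ∃ x' : ℤ, z.x = 2 * x' := by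
    have hr : p.r % 2 = 1 := Nat.odd_iff.mp (p.r_prime.odd_of_ne_two p.r_ne_two)
    have h3 : (2 : ℤ) ∣ (p.r : ℤ) * z.x := ⟨-z.a - p.c * z.b, by
      linear_combination h1 + p.c * h2⟩
    exact (Int.prime_two.dvd_or_dvd h3).resolve_left fun h => by
      omega
  have hy : z.y = 2 * z.b := by linear_combination -h2
  have ha : z.a = -(p.r : ℤ) * x' - p.c * z.b := by
    refine mul_left_cancel₀ (two_ne_zero' ℤ) ?_
    linear_combination h1 - (p.r : ℤ) * hx' - p.c * hy
  refine ⟨e.symm ⟨p.r * x' + z.b * p.c, -z.b⟩, ?_, ?_⟩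
  · rw [mem_rbar, e.apply_symm_apply]
    exact ⟨x', by ring⟩
  · refine Elt.ext ?_ ?_ ?_ ?_ <;>
      simp [Elt.mul_a, Elt.mul_b, Elt.mul_x, Elt.mul_y, Elt.eJ, jA_a, jA_b, jA_x, jA_y,
        e.apply_symm_apply, hx', hy, ha] <;>
      ring

variable [IsDedekindDomain A] [Module.Free ℤ A] [Module.Finite ℤ A]

omit [Module.Finite ℤ A] in
theorem absNorm_rbar : Ideal.absNorm (rbar e) = p.r := by
  rw [Ideal.absNorm_apply, Submodule.cardQuot_apply]
  exact (Nat.card_congr
    (RingHom.quotientKerEquivOfSurjective (phiR_surjective e)).toEquiv).trans (Nat.card_zmod _)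

omit [Module.Finite ℤ A] in
theorem absNorm_frakr : Ideal.absNorm (frakr e) = p.r := by
  rw [frakr, absNorm_map_cjA, absNorm_rbar]

omit [Module.Finite ℤ A] in
/-- An ideal of nonzero norm is invertible in the monoid of nonzero ideals. -/
theorem mem_nonZeroDivisors_of_absNorm_ne_zero {I : Ideal A} (h : Ideal.absNorm I ≠ 0) :
    I ∈ (Ideal A)⁰ :=
  mem_nonZeroDivisors_of_ne_zero fun h0 => h (by rw [h0, Ideal.zero_eq_bot, Ideal.absNorm_bot])

omit [Module.Finite ℤ A] in
theorem rbar_mem : rbar e ∈ (Ideal A)⁰ :=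
  mem_nonZeroDivisors_of_absNorm_ne_zero (by rw [absNorm_rbar]; exact p.r_pos.ne')

omit [Module.Finite ℤ A] in
theorem frakr_mem : frakr e ∈ (Ideal A)⁰ :=
  mem_nonZeroDivisors_of_absNorm_ne_zero (by rw [absNorm_frakr]; exact p.r_pos.ne')

/-- The class of `(r, c + √-d)`. -/
noncomputable def frakrClass : ClassGroup A := ClassGroup.mk0 ⟨frakr e, frakr_mem e⟩

theorem mk0_rbar : ClassGroup.mk0 ⟨rbar e, rbar_mem e⟩ = (frakrClass e)⁻¹ := by
  have h : (⟨rbar e, rbar_mem e⟩ : (Ideal A)⁰) = ⟨(frakr e).map (cjA e : A →+* A),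
      by rw [map_cjA_frakr]; exact rbar_mem e⟩ := Subtype.ext (map_cjA_frakr e).symm
  rw [h]
  exact mk0_map_cjA e ⟨frakr e, frakr_mem e⟩ _

/-- An anti-invariant element of `b O` comes from `b (r, c - √-d)`. -/
theorem mem_mul_rbar_of_anti {b : (Ideal A)⁰} {w : p.O} (hw : w ∈ (iota e b).carrier)
    (hs : Elt.sigma w = -w) {γ : A} (hγr : γ ∈ rbar e)
    (hγ : (p.r : ℤ) • w = jA e γ * Elt.eJ) : γ ∈ (b : Ideal A) * rbar e := by
  obtain ⟨x, hx, k, hk, hcop⟩ := exists_coprime_mem e (nonZeroDivisors.coe_ne_zero b)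
    (Ideal.absNorm_pos_of_nonZeroDivisors b)
  obtain ⟨o, ho⟩ := (iota e b).dvd _ (jA_mem_iota hx) _ hw
  rw [iota_n, conj_jA] at ho
  set n := Ideal.absNorm (b : Ideal A)
  have hn : (n : ℤ) ≠ 0 := by exact_mod_cast (Ideal.absNorm_pos_of_nonZeroDivisors b).ne'
  have hso : Elt.sigma o = -o := smul_injective_O hn <| by
    rw [← Elt.sigma_smul, ← ho, Elt.sigma_mul, sigma_jA, hs, mul_neg, ho, smul_neg]
  obtain ⟨γ', hγ'r, hγ'⟩ := exists_sigma_neg e hso
  have h1 : cjA e x * γ = (n : A) * γ' := by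
    refine jA_injective e (mul_right_cancel₀ eJ_ne_zero ?_)
    rw [map_mul, mul_assoc, ← hγ, mul_smul_comm, ho, smul_comm, hγ', map_mul, map_natCast,
      natCast_mul_eq_smul, smul_mul_assoc]
  -- `k γ = x γ'` and `n γ` lie in `b (r, c - √-d)`, and `k` is prime to `n`
  have hky : (k : A) * γ ∈ (b : Ideal A) * rbar e := by
    have e1 : (k : A) * γ = x * γ' := by
      refine mul_left_cancel₀ (natCast_ne_zero_A e (by exact_mod_cast hn)) ?_
      have h2 : x * (cjA e x * γ) = x * ((n : A) * γ') := by rw [h1]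
      rw [← mul_assoc, mul_comm x (cjA e x), cjA_mul_self, hk] at h2
      push_cast at h2
      linear_combination h2
    rw [e1]
    exact Ideal.mul_mem_mul hx hγ'r
  exact mem_of_coprime_mul_mem hcop hky
    (Ideal.mul_mem_mul (Ideal.absNorm_mem (b : Ideal A)) hγr)

end Fermat.Agent.LT.Quat
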