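import Fermat.Agent.LT.Quat.Defs

/-!
# Identities in the quaternion order
-/

set_option autoImplicit false

namespace Fermat.Agent.LT.Quat

namespace Elt

variable {k : Cst} {R : Type*} [CommRing R] (p q : Elt k R)

/-- The first coordinate of a scalar is the scalar. -/
@[simp] theorem algebraMap_a (t : R) : (algebraMap R (Elt k R) t).a = t := rfl
@[simp] theorem algebraMap_b (t : R) : (algebraMap R (Elt k R) t).b = 0 := rfl
@[simp] theorem algebraMap_x (t : R) : (algebraMap R (Elt k R) t).x = 0 := rfl
@[simp] theorem algebraMap_y (t : R) : (algebraMap R (Elt k R) t).y = 0 := rfl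

theorem smul_def' (t : R) : t • p = algebraMap R (Elt k R) t * p := Algebra.smul_def t p

@[simp] theorem conj_a : (conj p).a = p.a + k.r * p.x + k.c * p.y := rfl
@[simp] theorem conj_b : (conj p).b = -p.b := rfl
@[simp] theorem conj_x : (conj p).x = -p.x := rfl
@[simp] theorem conj_y : (conj p).y = -p.y := rfl
@[simp] theorem sigma_a : (sigma p).a = p.a + k.r * p.x + k.c * p.y := rfl
@[simp] theorem sigma_b : (sigma p).b = p.b - p.y := rfl
@[simp] theorem sigma_x : (sigma p).x = -p.x := rfl
@[simp] theorem sigma_y : (sigma p).y = -p.y := rfl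

/-- Conjugation is an involution. -/
@[simp] theorem conj_conj : conj (conj p) = p := by
  ext <;> simp
  ring

theorem conj_add : conj (p + q) = conj p + conj q := by ext <;> simp <;> ring

theorem conj_sub : conj (p - q) = conj p - conj q := by ext <;> simp <;> ring

@[simp] theorem conj_zero : conj (0 : Elt k R) = 0 := by ext <;> simp

/-- Conjugation is linear. -/
theorem conj_smul (t : R) : conj (t • p) = t • conj p := by
  ext <;> simp
  ring

/-- Conjugation reverses products. -/
theorem conj_mul : conj (p * q) = conj q * conj p := by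
  ext <;> simp [mul_a, mul_b, mul_x, mul_y] <;> ring

/-- An element times its conjugate, in this order, is its norm. -/
theorem mul_conj : p * conj p = algebraMap R (Elt k R) (nrm p) := by
  ext <;> simp only [mul_a, mul_b, mul_x, mul_y, conj_a, conj_b, conj_x, conj_y, algebraMap_a,
    algebraMap_b, algebraMap_x, algebraMap_y, nrm] <;> ring

/-- An element times its conjugate is its norm. -/
theorem conj_mul_self : conj p * p = algebraMap R (Elt k R) (nrm p) := by
  ext <;> simp only [mul_a, mul_b, mul_x, mul_y, conj_a, conj_b, conj_x, conj_y, algebraMap_a,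
    algebraMap_b, algebraMap_x, algebraMap_y, nrm] <;> ring

/-- The scalars embed in the order. -/
theorem algebraMap_injective : Function.Injective (algebraMap R (Elt k R)) := fun s t h => by
  simpa using congrArg Elt.a h

/-- An element and its conjugate have the same norm. -/
theorem nrm_conj : nrm (conj p) = nrm p := by simp [nrm]; ring

/-- The norm is multiplicative. -/
theorem nrm_mul : nrm (p * q) = nrm p * nrm q := by
  apply algebraMap_injective (k := k)
  rw [← mul_conj, conj_mul, mul_assoc, ← mul_assoc q, mul_conj, Algebra.commutes, ← mul_assoc,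
    mul_conj, map_mul]

/-- The norm of `0` is `0`. -/
@[simp] theorem nrm_zero : nrm (0 : Elt k R) = 0 := by simp [nrm]

/-- The norm of `1` is `1`. -/
@[simp] theorem nrm_one : nrm (1 : Elt k R) = 1 := by simp [nrm]

@[simp] theorem nrm_algebraMap (t : R) : nrm (algebraMap R (Elt k R) t) = t ^ 2 := by simp [nrm]

/-- The norm is even. -/
@[simp] theorem nrm_neg : nrm (-p) = nrm p := by simp [nrm]

/-- The norm is homogeneous of degree two. -/
theorem nrm_smul (t : R) : nrm (t • p) = t ^ 2 * nrm p := by
  rw [smul_def', nrm_mul, nrm_algebraMap]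

/-- The trace of a product does not depend on the order. -/
theorem tr_mul_comm : tr (p * q) = tr (q * p) := by
  simp [tr, mul_a, mul_x, mul_y]; ring

/-- An element and its conjugate have the same trace. -/
theorem tr_conj : tr (conj p) = tr p := by simp [tr]; ring

/-- The trace is linear. -/
theorem tr_smul (t : R) : tr (t • p) = t * tr p := by simp [tr]; ring

theorem sigma_add : sigma (p + q) = sigma p + sigma q := by ext <;> simp <;> ring

theorem sigma_mul : sigma (p * q) = sigma p * sigma q := by
  ext <;> simp [mul_a, mul_b, mul_x, mul_y] <;> ring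

theorem sigma_sigma : sigma (sigma p) = p := by
  ext <;> simp
  ring

/-- Conjugation by `i` as a ring automorphism. -/
def sigmaEquiv : Elt k R ≃+* Elt k R where
  toFun := sigma
  invFun := sigma
  left_inv := sigma_sigma
  right_inv := sigma_sigma
  map_mul' := sigma_mul
  map_add' := sigma_add

@[simp] theorem sigmaEquiv_apply : sigmaEquiv p = sigma p := rfl

/-- Conjugation by `i` preserves the reduced norm. -/
theorem nrm_sigma : nrm (sigma p) = nrm p := by simp [nrm]; ring

theorem sigma_conj : sigma (conj p) = conj (sigma p) := by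
  ext <;> simp
  ring

theorem sigma_smul (t : R) : sigma (t • p) = t • sigma p := by ext <;> simp <;> ring

/-- The element `j = 2 w - r`. -/
def eJ : Elt k R := ⟨-(k.r : R), 0, 2, 0⟩

variable {R' : Type*} [CommRing R'] (f : R →+* R')

@[simp] theorem map_a : (map f p).a = f p.a := rfl
@[simp] theorem map_b : (map f p).b = f p.b := rfl
@[simp] theorem map_x : (map f p).x = f p.x := rfl
@[simp] theorem map_y : (map f p).y = f p.y := rfl

/-- The norm commutes with change of coefficients. -/
theorem map_nrm : nrm (map f p) = f (nrm p) := by simp [nrm, map_ofNat]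

/-- Conjugation commutes with change of coefficients. -/
theorem map_conj : map f (conj p) = conj (map f p) := by ext <;> simp

/-- The trace commutes with change of coefficients. -/
theorem map_tr : tr (map f p) = f (tr p) := by simp [tr, map_ofNat]

end Elt

namespace Params

variable (p : Params)

@[simp] theorem k_r : p.k.r = p.r := rfl
@[simp] theorem k_M : p.k.M = p.M := rfl
@[simp] theorem k_c : p.k.c = p.c := rfl
@[simp] theorem k_h : p.k.h = p.h := rfl

theorem dd_eq : (p.r : ℤ) * p.h - p.c ^ 2 = p.d := by linear_combination -p.c_sq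

theorem four' : (p.r : ℤ) + p.P = 4 * p.M := by exact_mod_cast p.four

/-- The product of the auxiliary primes is positive. -/
theorem P_pos : 0 < p.P := Finset.prod_pos fun q hq => (p.T_prime q hq).1.pos

/-- The auxiliary parameter `r` is positive. -/
theorem r_pos : 0 < p.r := p.r_prime.pos

/-- The parameter `d` is positive. -/
theorem d_pos : 0 < p.d := Nat.pos_of_ne_zero p.d_squarefree.ne_zero

/-- `4 r` times the norm as a positive combination of squares. -/
theorem four_r_nrm (z : p.O) :
    4 * (p.r : ℤ) * Elt.nrm z = p.r * (2 * z.a + p.r * z.x + p.c * z.y) ^ 2 +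
      p.r * p.d * (2 * z.b - z.y) ^ 2 + p.P * ((p.r * z.x + p.c * z.y) ^ 2 + p.d * z.y ^ 2) := by
  have h4 := p.four'
  have hd := p.dd_eq
  simp only [Elt.nrm, k_r, k_M, k_c, k_h, Int.cast_eq]
  linear_combination (4 * (p.r : ℤ) * z.b ^ 2 - 4 * p.r * z.b * z.y + 4 * p.M * z.y ^ 2) * hd -
    ((p.r * z.x + p.c * z.y) ^ 2 + (p.d : ℤ) * z.y ^ 2) * h4

/-- The norm of `j`. -/
theorem nrm_eJ : Elt.nrm (Elt.eJ : p.O) = (p.r : ℤ) * p.P := by
  have h := p.four'
  simp only [Elt.nrm, Elt.eJ, k_r, k_M, k_c, k_h, Int.cast_eq]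
  linear_combination -(p.r : ℤ) * h

/-- The norm on the order is nonnegative. -/
theorem nrm_nonneg (z : p.O) : 0 ≤ Elt.nrm z := by
  have h := p.four_r_nrm z
  have hr : (0 : ℤ) < p.r := by exact_mod_cast p.r_pos
  have h0 : (0 : ℤ) ≤ 4 * (p.r : ℤ) * Elt.nrm z := h.symm ▸ (by positivity)
  nlinarith

theorem eq_zero_of_nrm_eq_zero {z : p.O} (hz : Elt.nrm z = 0) : z = 0 := by
  have h := p.four_r_nrm z
  rw [hz, mul_zero] at h
  have hr : (0 : ℤ) < p.r := by exact_mod_cast p.r_pos
  have hP : (0 : ℤ) < p.P := by exact_mod_cast p.P_pos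
  have hd : (0 : ℤ) < p.d := by exact_mod_cast p.d_pos
  have h1 : (p.r : ℤ) * (2 * z.a + p.r * z.x + p.c * z.y) ^ 2 = 0 ∧
      (p.r : ℤ) * p.d * (2 * z.b - z.y) ^ 2 = 0 ∧
      (p.P : ℤ) * ((p.r * z.x + p.c * z.y) ^ 2 + p.d * z.y ^ 2) = 0 := by
    have e1 : (0 : ℤ) ≤ p.r * (2 * z.a + p.r * z.x + p.c * z.y) ^ 2 := by positivity
    have e2 : (0 : ℤ) ≤ p.r * p.d * (2 * z.b - z.y) ^ 2 := by positivity
    have e3 : (0 : ℤ) ≤ p.P * ((p.r * z.x + p.c * z.y) ^ 2 + p.d * z.y ^ 2) := by positivity
    refine ⟨?_, ?_, ?_⟩ <;> linarith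
  obtain ⟨ha, hb, hxy⟩ := h1
  have hxy' := (mul_eq_zero.mp hxy).resolve_left hP.ne'
  have e4 : (0 : ℤ) ≤ (p.r * z.x + p.c * z.y) ^ 2 := sq_nonneg _
  have e5 : (0 : ℤ) ≤ (p.d : ℤ) * z.y ^ 2 := by positivity
  have hy : z.y = 0 := by
    have : (p.d : ℤ) * z.y ^ 2 = 0 := by linarith
    exact (pow_eq_zero_iff two_ne_zero).mp ((mul_eq_zero.mp this).resolve_left hd.ne')
  have hx : z.x = 0 := by
    have : (p.r * z.x + p.c * z.y) ^ 2 = (0 : ℤ) := by linarith
    have := (pow_eq_zero_iff two_ne_zero).mp this
    rw [hy, mul_zero, add_zero] at this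
    exact (mul_eq_zero.mp this).resolve_left hr.ne'
  have hb' : z.b = 0 := by
    have := (pow_eq_zero_iff two_ne_zero).mp ((mul_eq_zero.mp hb).resolve_left (by positivity))
    omega
  have ha' : z.a = 0 := by
    have := (pow_eq_zero_iff two_ne_zero).mp ((mul_eq_zero.mp ha).resolve_left hr.ne')
    rw [hx, hy] at this
    omega
  ext <;> assumption

end Params

variable {p : Params}

theorem noZeroDivisors_O : NoZeroDivisors p.O := ⟨fun {z w} h => by
  have h' := congrArg Elt.nrm h
  rw [Elt.nrm_mul, Elt.nrm_zero] at h'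
  exact (mul_eq_zero.mp h').imp p.eq_zero_of_nrm_eq_zero p.eq_zero_of_nrm_eq_zero⟩

/-- The order is a domain, its norm vanishing only at `0`. -/
instance : IsDomain p.O :=
  haveI := noZeroDivisors_O (p := p)
  haveI : Nontrivial p.O := ⟨0, 1, fun h => by simpa using congrArg Elt.a h⟩
  NoZeroDivisors.to_isDomain _

end Fermat.Agent.LT.Quat
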