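import Mathlib.NumberTheory.Zsqrtd.Basic
import Mathlib.Tactic

/-!
# An explicit quaternion order, its ideals and Brandt matrices

Let `d` be squarefree, `1` or `2` mod `4`, `T` a finite set of primes inert in `ℚ(√-d)` and
`P = ∏ T`.  For a prime `r` with `r + P = 4 M`, `M` odd, and `c` even with `c² + d = r h`, the
order `ℤ ⊕ ℤ i ⊕ ℤ w ⊕ ℤ u` of `(-d, -r P)`, `w = (r + j) / 2`, `u = (c - i) w / r`, has integral
structure constants in `r, M, c, h`; it contains `ℤ[√-d]` and has reduced discriminant `d P`.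
-/

set_option autoImplicit false

namespace Fermat.Agent.LT.Quat

/-- The structure constants. -/
structure Cst where
  /-- The constant `r`, with `w ^ 2 = r w - r M`. -/
  r : ℤ
  M : ℤ
  c : ℤ
  h : ℤ

/-- The value of `d`. -/
def Cst.dd (k : Cst) : ℤ := k.r * k.h - k.c ^ 2

/-- `a + b i + x w + y u`, with coefficients in `R`. -/
@[ext] structure Elt (k : Cst) (R : Type*) where
  a : R
  b : R
  x : R
  y : R

namespace Elt

variable {k : Cst} {R : Type*} [CommRing R]

instance : Zero (Elt k R) := ⟨⟨0, 0, 0, 0⟩⟩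
instance : One (Elt k R) := ⟨⟨1, 0, 0, 0⟩⟩
instance : Neg (Elt k R) := ⟨fun p => ⟨-p.a, -p.b, -p.x, -p.y⟩⟩
instance : Add (Elt k R) := ⟨fun p q => ⟨p.a + q.a, p.b + q.b, p.x + q.x, p.y + q.y⟩⟩
instance : Sub (Elt k R) := ⟨fun p q => ⟨p.a - q.a, p.b - q.b, p.x - q.x, p.y - q.y⟩⟩

instance {S : Type*} [SMul S R] : SMul S (Elt k R) :=
  ⟨fun t p => ⟨t • p.a, t • p.b, t • p.x, t • p.y⟩⟩

instance : NatCast (Elt k R) := ⟨fun n => ⟨n, 0, 0, 0⟩⟩
instance : IntCast (Elt k R) := ⟨fun n => ⟨n, 0, 0, 0⟩⟩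

instance : Mul (Elt k R) := ⟨fun p q =>
  ⟨p.a * q.a - ((k.r : R) * k.h - (k.c : R) ^ 2) * p.b * q.b
      + ((k.r : R) * k.h - (k.c : R) ^ 2) * p.y * q.b
      - (k.r : R) * k.M * p.x * q.x - (k.M : R) * k.c * (p.x * q.y + p.y * q.x)
      - (k.h : R) * k.M * p.y * q.y,
    p.a * q.b + p.b * q.a + (k.r : R) * p.x * q.b + (k.c : R) * p.y * q.b
      - (k.M : R) * p.x * q.y + (k.M : R) * p.y * q.x,
    p.a * q.x + p.x * q.a + (k.c : R) * p.b * q.x + (k.h : R) * p.b * q.y
      - (k.c : R) * p.x * q.b - (k.h : R) * p.y * q.b + (k.r : R) * p.x * q.x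
      + (k.c : R) * p.x * q.y,
    p.a * q.y + p.y * q.a - (k.r : R) * p.b * q.x - (k.c : R) * p.b * q.y
      + (k.r : R) * p.x * q.b + (k.c : R) * p.y * q.b + (k.r : R) * p.y * q.x
      + (k.c : R) * p.y * q.y⟩⟩

/-- The scalars. -/
def ofScalar (t : R) : Elt k R := ⟨t, 0, 0, 0⟩

variable (p q : Elt k R)

/-- The first coordinate of `0`; `_b`, `_x`, `_y` below are the other three. -/
@[simp] theorem zero_a : (0 : Elt k R).a = 0 := rfl
@[simp] theorem zero_b : (0 : Elt k R).b = 0 := rfl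
@[simp] theorem zero_x : (0 : Elt k R).x = 0 := rfl
@[simp] theorem zero_y : (0 : Elt k R).y = 0 := rfl
@[simp] theorem one_a : (1 : Elt k R).a = 1 := rfl
@[simp] theorem one_b : (1 : Elt k R).b = 0 := rfl
@[simp] theorem one_x : (1 : Elt k R).x = 0 := rfl
@[simp] theorem one_y : (1 : Elt k R).y = 0 := rfl
@[simp] theorem neg_a : (-p).a = -p.a := rfl
@[simp] theorem neg_b : (-p).b = -p.b := rfl
@[simp] theorem neg_x : (-p).x = -p.x := rfl
@[simp] theorem neg_y : (-p).y = -p.y := rfl
/-- The first coordinate of a sum; `_b`, `_x`, `_y` below are the other three. -/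
@[simp] theorem add_a : (p + q).a = p.a + q.a := rfl
@[simp] theorem add_b : (p + q).b = p.b + q.b := rfl
@[simp] theorem add_x : (p + q).x = p.x + q.x := rfl
@[simp] theorem add_y : (p + q).y = p.y + q.y := rfl
@[simp] theorem sub_a : (p - q).a = p.a - q.a := rfl
@[simp] theorem sub_b : (p - q).b = p.b - q.b := rfl
@[simp] theorem sub_x : (p - q).x = p.x - q.x := rfl
@[simp] theorem sub_y : (p - q).y = p.y - q.y := rfl

/-- The first coordinate of a product in the quaternion order. -/
theorem mul_a : (p * q).a = p.a * q.a - ((k.r : R) * k.h - (k.c : R) ^ 2) * p.b * q.b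
    + ((k.r : R) * k.h - (k.c : R) ^ 2) * p.y * q.b
    - (k.r : R) * k.M * p.x * q.x - (k.M : R) * k.c * (p.x * q.y + p.y * q.x)
    - (k.h : R) * k.M * p.y * q.y := rfl

/-- The second coordinate of a product in the quaternion order. -/
theorem mul_b : (p * q).b = p.a * q.b + p.b * q.a + (k.r : R) * p.x * q.b + (k.c : R) * p.y * q.b
    - (k.M : R) * p.x * q.y + (k.M : R) * p.y * q.x := rfl

/-- The third coordinate of a product in the quaternion order. -/
theorem mul_x : (p * q).x = p.a * q.x + p.x * q.a + (k.c : R) * p.b * q.x + (k.h : R) * p.b * q.y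
    - (k.c : R) * p.x * q.b - (k.h : R) * p.y * q.b + (k.r : R) * p.x * q.x
    + (k.c : R) * p.x * q.y := rfl

/-- The fourth coordinate of a product in the quaternion order. -/
theorem mul_y : (p * q).y = p.a * q.y + p.y * q.a - (k.r : R) * p.b * q.x - (k.c : R) * p.b * q.y
    + (k.r : R) * p.x * q.b + (k.c : R) * p.y * q.b + (k.r : R) * p.y * q.x
    + (k.c : R) * p.y * q.y := rfl

omit [CommRing R] in
/-- The first coordinate of a scalar multiple. -/
@[simp] theorem smul_a {S : Type*} [SMul S R] (t : S) : (t • p).a = t • p.a := rfl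
omit [CommRing R] in
/-- The second coordinate of a scalar multiple. -/
@[simp] theorem smul_b {S : Type*} [SMul S R] (t : S) : (t • p).b = t • p.b := rfl
omit [CommRing R] in
/-- The third coordinate of a scalar multiple. -/
@[simp] theorem smul_x {S : Type*} [SMul S R] (t : S) : (t • p).x = t • p.x := rfl
omit [CommRing R] in
/-- The fourth coordinate of a scalar multiple. -/
@[simp] theorem smul_y {S : Type*} [SMul S R] (t : S) : (t • p).y = t • p.y := rfl
@[simp] theorem natCast_a (n : ℕ) : (n : Elt k R).a = n := rfl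
@[simp] theorem natCast_b (n : ℕ) : (n : Elt k R).b = 0 := rfl
@[simp] theorem natCast_x (n : ℕ) : (n : Elt k R).x = 0 := rfl
@[simp] theorem natCast_y (n : ℕ) : (n : Elt k R).y = 0 := rfl
@[simp] theorem intCast_a (n : ℤ) : (n : Elt k R).a = n := rfl
@[simp] theorem intCast_b (n : ℤ) : (n : Elt k R).b = 0 := rfl
@[simp] theorem intCast_x (n : ℤ) : (n : Elt k R).x = 0 := rfl
@[simp] theorem intCast_y (n : ℤ) : (n : Elt k R).y = 0 := rfl

instance : Ring (Elt k R) where
  add_assoc p q s := by ext <;> simp [add_assoc]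
  zero_add p := by ext <;> simp
  add_zero p := by ext <;> simp
  add_comm p q := by ext <;> simp [add_comm]
  neg_add_cancel p := by ext <;> simp
  sub_eq_add_neg p q := by ext <;> simp [sub_eq_add_neg]
  nsmul n p := n • p
  nsmul_zero p := by ext <;> simp
  nsmul_succ n p := by ext <;> simp [add_smul]
  zsmul n p := n • p
  zsmul_zero' p := by ext <;> simp
  zsmul_succ' n p := by ext <;> simp [add_smul]
  zsmul_neg' n p := by
    ext <;> simp only [smul_a, smul_b, smul_x, smul_y, neg_a, neg_b, neg_x, neg_y,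
      negSucc_zsmul, natCast_zsmul]
  natCast_zero := by ext <;> simp
  natCast_succ n := by ext <;> simp
  intCast_ofNat n := by ext <;> simp
  intCast_negSucc n := by ext <;> simp [Int.cast_negSucc]
  mul_assoc p q s := by ext <;> simp only [mul_a, mul_b, mul_x, mul_y] <;> ring
  one_mul p := by ext <;> simp [mul_a, mul_b, mul_x, mul_y]
  mul_one p := by ext <;> simp [mul_a, mul_b, mul_x, mul_y]
  zero_mul p := by ext <;> simp [mul_a, mul_b, mul_x, mul_y]
  mul_zero p := by ext <;> simp [mul_a, mul_b, mul_x, mul_y]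
  left_distrib p q s := by
    ext <;> simp only [mul_a, mul_b, mul_x, mul_y, add_a, add_b, add_x, add_y] <;> ring
  right_distrib p q s := by
    ext <;> simp only [mul_a, mul_b, mul_x, mul_y, add_a, add_b, add_x, add_y] <;> ring

/-- The scalars as a ring map. -/
def scalarHom : R →+* Elt k R where
  toFun := ofScalar
  map_one' := rfl
  map_mul' s t := by ext <;> simp [ofScalar, mul_a, mul_b, mul_x, mul_y]
  map_zero' := rfl
  map_add' s t := by ext <;> simp [ofScalar]

instance : Algebra R (Elt k R) where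
  smul t p := t • p
  algebraMap := scalarHom
  commutes' t p := by
    show ofScalar t * p = p * ofScalar t
    ext <;> simp [ofScalar, mul_a, mul_b, mul_x, mul_y] <;> ring
  smul_def' t p := by
    show t • p = ofScalar t * p
    ext <;> simp [ofScalar, mul_a, mul_b, mul_x, mul_y]

/-- Change of coefficients. -/
def map {R' : Type*} [CommRing R'] (f : R →+* R') : Elt k R →+* Elt k R' where
  toFun p := ⟨f p.a, f p.b, f p.x, f p.y⟩
  map_one' := by ext <;> simp
  map_mul' p q := by ext <;> simp [mul_a, mul_b, mul_x, mul_y]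
  map_zero' := by ext <;> simp
  map_add' p q := by ext <;> simp

/-- The conjugate. -/
def conj : Elt k R := ⟨p.a + k.r * p.x + k.c * p.y, -p.b, -p.x, -p.y⟩

/-- The reduced trace. -/
def tr : R := 2 * p.a + k.r * p.x + k.c * p.y

/-- The reduced norm. -/
def nrm : R :=
  p.a ^ 2 + ((k.r : R) * k.h - (k.c : R) ^ 2) * p.b ^ 2 + k.r * k.M * p.x ^ 2
    + k.h * k.M * p.y ^ 2 + k.r * p.a * p.x + k.c * p.a * p.y
    - ((k.r : R) * k.h - (k.c : R) ^ 2) * p.b * p.y + 2 * k.M * k.c * p.x * p.y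

/-- Conjugation by `i`. -/
def sigma : Elt k R := ⟨p.a + k.r * p.x + k.c * p.y, p.b - p.y, -p.x, -p.y⟩

end Elt

/-- The data of the quaternion module. -/
structure Params where
  /-- The squarefree number `d` of `ℚ(√-d)`. -/
  d : ℕ
  /-- Odd primes inert in `ℚ(√-d)`; their product enters the algebra `(-d, -r ∏ T)`. -/
  T : Finset ℕ
  /-- The auxiliary prime, with `r + ∏ T = 4 M`. -/
  r : ℕ
  /-- A quarter of `r + ∏ T`. -/
  M : ℕ
  /-- An even square root of `-d` modulo `r`. -/
  c : ℤ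
  /-- The cofactor in `c ^ 2 + d = r h`. -/
  h : ℤ
  /-- A prime divisor of `d` congruent to `1` modulo `12`, other than `v₀`. -/
  l₁ : ℕ
  /-- The exceptional prime: at no other odd prime `v ∣ d` is `-r ∏ T` a square. -/
  v₀ : ℕ
  /-- `d` is squarefree. -/
  d_squarefree : Squarefree d
  /-- `d` is `1` or `2` modulo `4`. -/
  d_mod : d % 4 = 1 ∨ d % 4 = 2
  /-- The primes of `T` are odd, prime to `d` and inert in `ℚ(√-d)`. -/
  T_prime : ∀ q ∈ T, q.Prime ∧ q ≠ 2 ∧ ¬ q ∣ d ∧ jacobiSym (-(d : ℤ)) q = -1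
  /-- `r` is prime. -/
  r_prime : r.Prime
  /-- `r` is odd. -/
  r_ne_two : r ≠ 2
  /-- `r` does not divide `d`. -/
  r_not_dvd : ¬ r ∣ d
  /-- `r` is not in `T`. -/
  r_notMem : r ∉ T
  /-- `r + ∏ T = 4 M`. -/
  four : r + ∏ q ∈ T, q = 4 * M
  /-- `M` is odd. -/
  M_odd : M % 2 = 1
  /-- `c` is even. -/
  c_even : Even c
  /-- `c ^ 2 + d = r h`. -/
  c_sq : c ^ 2 + d = r * h
  /-- At an odd prime `v ∣ d` the symbol of `-r ∏ T` is `1` exactly when `v = v₀`. -/
  jacobi_ramified : ∀ v : ℕ, v.Prime → v ≠ 2 → v ∣ d →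
    jacobiSym (-((r * ∏ q ∈ T, q : ℕ) : ℤ)) v = if v = v₀ then 1 else -1
  /-- `l₁` is prime. -/
  l₁_prime : l₁.Prime
  /-- `l₁` divides `d`. -/
  l₁_dvd : l₁ ∣ d
  /-- `l₁` is `1` modulo `12`. -/
  l₁_mod : l₁ % 12 = 1
  /-- `l₁` is not `v₀`. -/
  l₁_ne : l₁ ≠ v₀

namespace Params

variable (p : Params)

/-- `∏ T`. -/
def P : ℕ := ∏ q ∈ p.T, q

/-- The level `d ∏ T`. -/
def level : ℕ := p.d * p.P

/-- The constants. -/
def k : Cst := ⟨p.r, p.M, p.c, p.h⟩

/-- The order. -/
abbrev O : Type := Elt p.k ℤ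

/-- `ℤ[√-d]`. -/
abbrev OK : Type := Zsqrtd (-(p.d : ℤ))

/-- The embedding of `ℤ[√-d]`. -/
def toO : p.OK →+* p.O where
  toFun z := ⟨z.re, z.im, 0, 0⟩
  map_one' := rfl
  map_mul' z w := by
    have h := p.c_sq
    refine Elt.ext ?_ ?_ ?_ ?_
    · rw [Elt.mul_a, Zsqrtd.re_mul]
      simp only [k, Int.cast_eq]
      linear_combination -z.im * w.im * h
    · rw [Elt.mul_b, Zsqrtd.im_mul]; ring
    · rw [Elt.mul_x]; ring
    · rw [Elt.mul_y]; ring
  map_zero' := rfl
  map_add' z w := by refine Elt.ext ?_ ?_ ?_ ?_ <;> simp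

end Params

variable (p : Params)

/-- A right ideal of `O`, locally principal, with its norm. -/
structure RIdeal where
  /-- The elements of the ideal. -/
  carrier : AddSubgroup p.O
  /-- The reduced norm of the ideal. -/
  n : ℕ
  /-- The norm is positive. -/
  n_pos : 0 < n
  /-- The ideal is stable under right multiplication by `O`. -/
  mul_mem : ∀ z ∈ carrier, ∀ a : p.O, z * a ∈ carrier
  /-- The norm divides every product `z̄ z'` of two elements. -/
  dvd : ∀ z ∈ carrier, ∀ z' ∈ carrier, ∃ o : p.O, Elt.conj z * z' = (n : ℤ) • o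
  /-- For every `m > 0` some element has normalised norm prime to `m`. -/
  primitive : ∀ m : ℕ, 0 < m → ∃ z ∈ carrier, ∃ k : ℕ, Elt.nrm z = n * k ∧ k.Coprime m

namespace RIdeal

variable {p}

/-- `x` times the ideal. -/
def scaled (I : RIdeal p) (x : p.O) : AddSubgroup p.O := I.carrier.map (AddMonoidHom.mulLeft x)

/-- The equivalence of right ideals. -/
def Rel (I J : RIdeal p) : Prop :=
  ∃ z : p.O, Elt.nrm z ≠ 0 ∧ ∃ m : ℕ, 0 < m ∧ I.scaled z = J.scaled (m : p.O)

end RIdeal

/-- The ideals of norm `m n_I` inside `I`. -/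
def SubIdeal {p : Params} (I : RIdeal p) (m : ℕ) : Type :=
  {J : RIdeal p // J.carrier ≤ I.carrier ∧ J.n = m * I.n}

/-- The classes of right ideals. -/
def Cls : Type := Quot (RIdeal.Rel (p := p))

/-- The class of an ideal. -/
def cls {p : Params} (I : RIdeal p) : Cls p := Quot.mk _ I

/-- The Brandt matrix of `m`: `(y, x) ↦` the number of ideals of relative norm `m` in `y` of class
`x`. -/
noncomputable def brandt (m : ℕ) : Matrix (Cls p) (Cls p) ℤ :=
  fun y x => Nat.card {J : SubIdeal y.out m // cls J.1 = x}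

end Fermat.Agent.LT.Quat
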