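import Fermat.Agent.LT.Quat.Basic
import Mathlib.RingTheory.ClassGroup.Basic
import Mathlib.RingTheory.DedekindDomain.Factorization
import Mathlib.RingTheory.Ideal.Quotient.HasFiniteQuotients

/-!
# Ideals of `ℤ[√-d]`

Everything is stated for a ring `A` with an isomorphism `e : A ≃+* ℤ[√-d]`, so that the ring of
integers of the field can be used directly.
-/

set_option autoImplicit false

namespace Fermat.Agent.LT.Quat

variable {p : Params} {A : Type*} [CommRing A] (e : A ≃+* p.OK)

/-- The embedding in the order. -/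
def jA : A →+* p.O := p.toO.comp e.toRingHom

/-- The non-trivial automorphism. -/
def cjA : A ≃+* A := (e.trans (starRingAut : p.OK ≃+* p.OK)).trans e.symm

/-- The norm. -/
def nA (x : A) : ℤ := (e x).re ^ 2 + p.d * (e x).im ^ 2

/-- The element `√-d`. -/
def deltaA : A := e.symm ⟨0, 1⟩

theorem jA_a (x : A) : (jA e x).a = (e x).re := rfl

theorem jA_b (x : A) : (jA e x).b = (e x).im := rfl

theorem jA_x (x : A) : (jA e x).x = 0 := rfl

theorem jA_y (x : A) : (jA e x).y = 0 := rfl

theorem e_cjA (x : A) : e (cjA e x) = star (e x) := e.apply_symm_apply _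

theorem cjA_cjA (x : A) : cjA e (cjA e x) = x := e.injective (by rw [e_cjA, e_cjA, star_star])

/-- Quaternion conjugation restricts to the conjugation of the quadratic order. -/
theorem conj_jA (x : A) : Elt.conj (jA e x) = jA e (cjA e x) := by
  refine Elt.ext ?_ ?_ ?_ ?_ <;>
    simp [jA_a, jA_b, jA_x, jA_y, Elt.conj_a, Elt.conj_b, Elt.conj_x, Elt.conj_y, e_cjA]

/-- Conjugation by `i` fixes the quadratic order. -/
theorem sigma_jA (x : A) : Elt.sigma (jA e x) = jA e x := by
  refine Elt.ext ?_ ?_ ?_ ?_ <;> simp [jA_a, jA_b, jA_x, jA_y]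

/-- The reduced norm restricts to the norm of the quadratic order. -/
theorem nrm_jA (x : A) : Elt.nrm (jA e x) = nA e x := by
  have h := p.dd_eq
  simp only [Elt.nrm, jA_a, jA_b, jA_x, jA_y, Params.k_r, Params.k_h, Params.k_c, nA, Int.cast_eq]
  linear_combination (e x).im ^ 2 * h

/-- The quadratic order embeds in the quaternion order. -/
theorem jA_injective : Function.Injective (jA e) := fun x y h => e.injective <| by
  ext
  · exact congrArg Elt.a h
  · exact congrArg Elt.b h

/-- `x̄ x` is the norm of `x`. -/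
theorem cjA_mul_self (x : A) : cjA e x * x = (nA e x : A) := e.injective <| by
  rw [map_mul, e_cjA, map_intCast]
  ext <;> simp [Zsqrtd.re_mul, Zsqrtd.im_mul, nA, sq] <;> ring

theorem eq_add_deltaA (x : A) : x = ((e x).re : A) + ((e x).im : A) * deltaA e := e.injective <| by
  rw [map_add, map_mul, map_intCast, map_intCast, deltaA, e.apply_symm_apply]
  ext <;> simp

/-- The square of `√-d` is `-d`. -/
theorem deltaA_sq : deltaA e * deltaA e = ((-(p.d : ℤ) : ℤ) : A) := e.injective <| by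
  rw [map_mul, deltaA, e.apply_symm_apply, map_intCast]
  ext <;> simp

/-- The nontrivial automorphism negates `√-d`. -/
theorem cjA_deltaA : cjA e (deltaA e) = -deltaA e := e.injective <| by
  rw [e_cjA, map_neg, deltaA, e.apply_symm_apply]
  ext <;> simp

/-- The coordinates. -/
def coordsA : A ≃ₗ[ℤ] (Fin 2 → ℤ) :=
  AddEquiv.toIntLinearEquiv
    { toFun := fun x => ![(e x).re, (e x).im]
      invFun := fun v => e.symm ⟨v 0, v 1⟩
      left_inv := fun x => e.injective (by rw [e.apply_symm_apply]; ext <;> rfl)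
      right_inv := fun v => funext fun i => by fin_cases i <;> simp
      map_add' := fun x y => funext fun i => by fin_cases i <;> simp }

/-- The basis `1, √-d`. -/
noncomputable def basisA : Module.Basis (Fin 2) ℤ A := Module.Basis.ofEquivFun (coordsA e)

include e in
theorem finrank_A : Module.finrank ℤ A = 2 := by
  rw [Module.finrank_eq_card_basis (basisA e), Fintype.card_fin]

theorem norm_eq_nA (x : A) : Algebra.norm ℤ x = nA e x := by
  rw [Algebra.norm_eq_matrix_det (basisA e)]
  have h : Algebra.leftMulMatrix (basisA e) x =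
      !![(e x).re, -(p.d : ℤ) * (e x).im; (e x).im, (e x).re] := by
    ext i j
    rw [Algebra.leftMulMatrix_eq_repr_mul, basisA, Module.Basis.coe_ofEquivFun,
      Module.Basis.ofEquivFun_repr_apply]
    fin_cases i <;> fin_cases j <;> simp [coordsA, Zsqrtd.re_mul, Zsqrtd.im_mul]
  rw [h, Matrix.det_fin_two, nA]
  simp
  ring

theorem nA_nonneg (x : A) : 0 ≤ nA e x := by unfold nA; positivity

include e in
/-- The quadratic order has characteristic zero. -/
theorem natCast_ne_zero_A {n : ℕ} (hn : n ≠ 0) : (n : A) ≠ 0 := fun h => by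
  have h' := congrArg (fun z => (e z).re) h
  simp only [map_natCast, map_zero, Zsqrtd.re_natCast, Zsqrtd.re_zero] at h'
  exact hn (by exact_mod_cast h')

/-- An element with two coprime multiples in an ideal lies in it. -/
theorem mem_of_coprime_mul_mem {I : Ideal A} {m n : ℕ} (h : m.Coprime n) {y : A}
    (hm : (m : A) * y ∈ I) (hn : (n : A) * y ∈ I) : y ∈ I := by
  have h1 := I.add_mem (I.mul_mem_left ((Nat.gcdA m n : ℤ) : A) hm)
    (I.mul_mem_left ((Nat.gcdB m n : ℤ) : A) hn)
  have hg := congrArg (fun t : ℤ => (t : A)) (Nat.gcd_eq_gcd_ab m n)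
  simp only [h.gcd_eq_one] at hg
  push_cast at hg
  convert h1 using 1
  linear_combination y * hg

variable [IsDedekindDomain A] [Module.Free ℤ A] [Module.Finite ℤ A]

theorem absNorm_span (x : A) : (Ideal.absNorm (Ideal.span {x}) : ℤ) = nA e x := by
  rw [Ideal.absNorm_span_singleton, norm_eq_nA e, Int.natAbs_of_nonneg (nA_nonneg e x)]

include e in
/-- The ideal `(n)` has norm `n ^ 2`. -/
theorem absNorm_span_nat (n : ℕ) : Ideal.absNorm (Ideal.span {(n : A)}) = n ^ 2 := by
  rw [Ideal.absNorm_span_natCast, finrank_A e]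

omit [Module.Finite ℤ A] in
/-- An ideal and its conjugate have equal norms. -/
theorem absNorm_map_cjA (a : Ideal A) :
    Ideal.absNorm (a.map (cjA e : A →+* A)) = Ideal.absNorm a := by
  rw [Ideal.absNorm_apply, Ideal.absNorm_apply, Submodule.cardQuot_apply,
    Submodule.cardQuot_apply]
  exact (Nat.card_congr (Ideal.quotientEquiv a _ (cjA e) rfl).toEquiv).symm

/-- Nested ideals of equal norm are equal. -/
theorem eq_of_le_of_absNorm_eq {I J : Ideal A} (h : I ≤ J) (hJ : J ≠ ⊥)
    (hn : Ideal.absNorm I = Ideal.absNorm J) : I = J := by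
  obtain ⟨K, rfl⟩ := Ideal.dvd_iff_le.mpr h
  rw [map_mul] at hn
  have hK : Ideal.absNorm K = 1 :=
    Nat.eq_of_mul_eq_mul_left (Nat.pos_of_ne_zero fun h0 => hJ (Ideal.absNorm_eq_zero_iff.mp h0))
      (hn.trans (mul_one _).symm)
  rw [Ideal.absNorm_eq_one_iff.mp hK, Ideal.mul_top]

omit [Module.Finite ℤ A] in
/-- In a prime of prime norm every element is congruent to an integer. -/
theorem exists_root_of_absNorm_prime {P : Ideal A} {l : ℕ} (hl : l.Prime)
    (hn : Ideal.absNorm P = l) : ∃ s : ℤ, deltaA e - (s : A) ∈ P := by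
  have : Fact l.Prime := ⟨hl⟩
  have hcard : Nat.card (A ⧸ P) = l := hn
  have h1 : (1 : A ⧸ P) ≠ 0 := by
    intro h
    have : Subsingleton (A ⧸ P) := subsingleton_of_zero_eq_one h.symm
    rw [Nat.card_of_subsingleton 0] at hcard
    exact hl.one_lt.ne hcard
  obtain ⟨s, hs⟩ := AddSubgroup.mem_zmultiples_iff.mp
    ((zmultiples_eq_top_of_prime_card hcard h1).symm ▸ AddSubgroup.mem_top
      (Ideal.Quotient.mk P (deltaA e)))
  refine ⟨s, Ideal.Quotient.eq.mp ?_⟩
  rw [map_intCast, ← hs, zsmul_one]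

theorem cjA_mul_mem_prime {P : Ideal A} (hP : P.IsMaximal) {x y : A} (hx : x ∈ P) (hy : y ∈ P) :
    cjA e x * y ∈ Ideal.span {(Ideal.absNorm P : A)} := by
  obtain ⟨l, i, hi, hlP, hl, hN⟩ := Ideal.exists_prime_and_absNorm_eq_pow P
  have hle : Ideal.span {(l : A)} ≤ P := (Ideal.span_singleton_le_iff_mem P).mpr hlP
  have hdvd := Ideal.absNorm_dvd_absNorm_of_le hle
  rw [absNorm_span_nat e, hN, Nat.pow_dvd_pow_iff_le_right hl.one_lt] at hdvd
  rcases (by omega : i = 1 ∨ i = 2) with rfl | rfl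
  · -- degree one: modulo `P` the root `√-d` is an integer `s`, so `ā y` can be divided by `l`
    rw [pow_one] at hN
    obtain ⟨s, hs⟩ := exists_root_of_absNorm_prime e hl hN
    have hint : ∀ m : ℤ, (m : A) ∈ P → (l : ℤ) ∣ m := fun m hm => by
      by_contra h
      obtain ⟨u, v, huv⟩ := (Nat.prime_iff_prime_int.mp hl).coprime_iff_not_dvd.mpr h
      refine hP.ne_top (P.eq_top_iff_one.mpr ?_)
      have := P.add_mem (P.mul_mem_left (u : A) hlP) (P.mul_mem_left (v : A) hm)
      rwa [← Int.cast_natCast (R := A) l, ← Int.cast_mul, ← Int.cast_mul, ← Int.cast_add, huv,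
        Int.cast_one] at this
    have hu : ∀ z ∈ P, (l : ℤ) ∣ (e z).re + s * (e z).im := fun z hz => by
      refine hint _ ?_
      have := P.sub_mem hz (P.mul_mem_left ((e z).im : A) hs)
      push_cast
      convert this using 1
      conv_rhs => arg 1; rw [eq_add_deltaA e z]
      ring
    have hsd : (l : ℤ) ∣ s * s + p.d := by
      refine hint _ ?_
      have h' := deltaA_sq e
      push_cast at h' ⊢
      have h2 := P.mul_mem_left (-(s : A) - deltaA e) hs
      convert h2 using 1
      linear_combination h'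
    obtain ⟨t₁, h₁⟩ := hu x hx
    obtain ⟨t₂, h₂⟩ := hu y hy
    obtain ⟨t₀, h₀⟩ := hsd
    rw [hN, Ideal.mem_span_singleton]
    refine ⟨((t₁ * (e y).re - s * (e x).im * t₂ + t₀ * (e x).im * (e y).im : ℤ) : A) +
      ((t₁ * (e y).im - (e x).im * t₂ : ℤ) : A) * deltaA e, e.injective ?_⟩
    rw [map_mul, e_cjA, map_mul, map_add, map_mul, map_natCast, map_intCast, map_intCast, deltaA,
      e.apply_symm_apply]
    ext
    · simp [Zsqrtd.re_mul]
      linear_combination (e y).re * h₁ - s * (e x).im * h₂ + (e x).im * (e y).im * h₀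
    · simp [Zsqrtd.im_mul]
      linear_combination (e y).im * h₁ - (e x).im * h₂
  · -- inert: `P = (l)`
    have hPeq : Ideal.span {(l : A)} = P :=
      eq_of_le_of_absNorm_eq hle
        (fun h => absurd ((Ideal.absNorm_eq_zero_iff.mpr h).symm.trans hN).symm
          (pow_ne_zero 2 hl.ne_zero)) (by rw [absNorm_span_nat e, hN])
    rw [← hPeq, Ideal.mem_span_singleton] at hx hy
    obtain ⟨x', rfl⟩ := hx
    obtain ⟨y', rfl⟩ := hy
    rw [hN, Ideal.mem_span_singleton]
    refine ⟨cjA e x' * y', ?_⟩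
    rw [map_mul, map_natCast]
    push_cast
    ring

/-- `ā a ⊆ (N a)`. -/
theorem map_cjA_mul_le (a : Ideal A) :
    a.map (cjA e : A →+* A) * a ≤ Ideal.span {(Ideal.absNorm a : A)} := by
  induction a using UniqueFactorizationMonoid.induction_on_prime with
  | h₁ => simp
  | h₂ a ha =>
    rw [Ideal.isUnit_iff.mp ha]
    simp
  | h₃ a P ha hP ih =>
    rw [Ideal.map_mul, map_mul, Nat.cast_mul, ← Ideal.span_singleton_mul_span_singleton,
      mul_mul_mul_comm]
    refine Ideal.mul_mono ?_ ih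
    have hPm : P.IsMaximal := (Ideal.isPrime_of_prime hP).isMaximal hP.ne_zero
    rw [Ideal.mul_le]
    intro x hx y hy
    obtain ⟨x', hx', rfl⟩ := (Ideal.mem_map_iff_of_surjective _ (cjA e).surjective).mp hx
    exact cjA_mul_mem_prime e hPm hx' hy

/-- For `x, y` in `a` the product `x̄ y` is a multiple of `N a`. -/
theorem cjA_mul_mem {a : Ideal A} {x y : A} (hx : x ∈ a) (hy : y ∈ a) :
    ∃ z : A, cjA e x * y = (Ideal.absNorm a : A) * z :=
  Ideal.mem_span_singleton.mp
    (map_cjA_mul_le e a (Ideal.mul_mem_mul (Ideal.mem_map_of_mem (cjA e : A →+* A) hx) hy))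

/-- `ā a = (N a)`. -/
theorem map_cjA_mul_eq {a : Ideal A} (ha : a ≠ ⊥) :
    a.map (cjA e : A →+* A) * a = Ideal.span {(Ideal.absNorm a : A)} := by
  refine eq_of_le_of_absNorm_eq (map_cjA_mul_le e a) ?_ ?_
  · intro h
    have := congrArg Ideal.absNorm h
    rw [absNorm_span_nat e, Ideal.absNorm_bot] at this
    exact ha (Ideal.absNorm_eq_zero_iff.mp ((pow_eq_zero_iff two_ne_zero).mp this))
  · rw [map_mul, absNorm_map_cjA, absNorm_span_nat e, sq]

theorem nA_eq_mul {a : Ideal A} {x : A} (hx : x ∈ a) :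
    ∃ k : ℕ, nA e x = (Ideal.absNorm a : ℤ) * k := by
  obtain ⟨k, hk⟩ := Ideal.absNorm_dvd_absNorm_of_le ((Ideal.span_singleton_le_iff_mem a).mpr hx)
  exact ⟨k, by rw [← absNorm_span e x, hk, Nat.cast_mul]⟩

/-- An element of the ideal whose norm is `N a` times a number prime to `m`. -/
theorem exists_coprime_mem {a : Ideal A} (ha : a ≠ ⊥) {m : ℕ} (hm : 0 < m) :
    ∃ x ∈ a, ∃ k : ℕ, nA e x = (Ideal.absNorm a : ℤ) * k ∧ k.Coprime m := by
  have hNm := absNorm_span_nat e m
  have hm0 : Ideal.span {(m : A)} ≠ ⊥ := fun h => by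
    rw [h, Ideal.absNorm_bot] at hNm
    exact pow_ne_zero 2 hm.ne' hNm.symm
  obtain ⟨x, hx⟩ := IsDedekindDomain.exists_sup_span_eq
    (Ideal.mul_le_right : Ideal.span {(m : A)} * a ≤ a) (mul_ne_zero hm0 ha)
  have hxa : x ∈ a := hx ▸ Ideal.mem_sup_right (Ideal.mem_span_singleton_self x)
  obtain ⟨k, hk⟩ := nA_eq_mul e hxa
  obtain ⟨b, hb⟩ := Ideal.dvd_iff_le.mpr ((Ideal.span_singleton_le_iff_mem a).mpr hxa)
  have hsup : Ideal.span {(m : A)} ⊔ b = ⊤ := by
    rw [hb, mul_comm a b, ← Ideal.sup_mul] at hx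
    exact mul_right_cancel₀ ha (hx.trans (Ideal.top_mul a).symm)
  have hkb : k = Ideal.absNorm b := by
    have h := absNorm_span e x
    rw [hb, map_mul, hk, Nat.cast_mul] at h
    exact_mod_cast mul_left_cancel₀ (Nat.cast_ne_zero.mpr fun h0 =>
      ha (Ideal.absNorm_eq_zero_iff.mp h0)) h.symm
  -- `(x) = a b` with `b` prime to `m`, and `k = N b`
  refine ⟨x, hxa, k, hk, Nat.coprime_of_dvd fun l hl hlk hlm => ?_⟩
  rw [hkb] at hlk
  obtain ⟨P, hP, hPl, hPb⟩ := Ideal.exists_isMaximal_dvd_of_dvd_absNorm' hl b hlk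
  have hlP : (l : A) ∈ P := by
    have : (l : ℤ) ∈ P.under ℤ := hPl ▸ Ideal.mem_span_singleton_self _
    simpa using this
  refine hP.ne_top (top_le_iff.mp (hsup ▸ sup_le ((Ideal.span_singleton_le_iff_mem P).mpr ?_)
    (Ideal.dvd_iff_le.mp hPb)))
  obtain ⟨t, rfl⟩ := hlm
  rw [Nat.cast_mul]
  exact P.mul_mem_right _ hlP

/-- The class of the conjugate ideal is the inverse class. -/
theorem mk0_map_cjA (a : nonZeroDivisors (Ideal A)) (ha : (a : Ideal A).map (cjA e : A →+* A) ∈
    nonZeroDivisors (Ideal A)) :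
    ClassGroup.mk0 ⟨_, ha⟩ = (ClassGroup.mk0 a)⁻¹ := by
  have ha0 : (a : Ideal A) ≠ ⊥ := nonZeroDivisors.coe_ne_zero a
  refine (ClassGroup.mk0_eq_mk0_inv_iff).mpr ⟨_, ?_, map_cjA_mul_eq e ha0⟩
  intro h
  have h1 := absNorm_span_nat e (Ideal.absNorm (a : Ideal A))
  rw [h, Ideal.span_singleton_eq_bot.mpr rfl, Ideal.absNorm_bot] at h1
  exact ha0 (Ideal.absNorm_eq_zero_iff.mp ((pow_eq_zero_iff two_ne_zero).mp h1.symm))

end Fermat.Agent.LT.Quat
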