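import Fermat.Agent.LT.Quat.Ideal
import Mathlib.LinearAlgebra.FreeModule.Finite.CardQuotient

/-!
# The index of a right ideal and finiteness of the classes

An ideal of norm `n` has index `n²`, so by the pigeonhole principle it contains a nonzero element
of norm at most a constant times `n`, and is equivalent to an ideal of bounded norm.
-/

set_option autoImplicit false

namespace Fermat.Agent.LT.Quat

open Module

variable {p : Params}

namespace Elt

variable {k : Cst}

/-- The coordinates. -/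
def coords : Elt k ℤ ≃ₗ[ℤ] (Fin 4 → ℤ) where
  toFun z := ![z.a, z.b, z.x, z.y]
  invFun v := ⟨v 0, v 1, v 2, v 3⟩
  left_inv z := rfl
  right_inv v := funext fun i => by fin_cases i <;> rfl
  map_add' z w := funext fun i => by fin_cases i <;> rfl
  map_smul' t z := funext fun i => by fin_cases i <;> rfl

instance : Module.Free ℤ (Elt k ℤ) := Module.Free.of_equiv coords.symm

instance : Module.Finite ℤ (Elt k ℤ) := Module.Finite.equiv coords.symm

@[simp] theorem coords_apply (z : Elt k ℤ) : coords z = ![z.a, z.b, z.x, z.y] := rfl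

@[simp] theorem coords_symm_apply (v : Fin 4 → ℤ) :
    (coords (k := k)).symm v = ⟨v 0, v 1, v 2, v 3⟩ := rfl

/-- The basis `1, i, w, u`. -/
noncomputable def basis : Basis (Fin 4) ℤ (Elt k ℤ) := Basis.ofEquivFun coords

theorem det_mulLeft (z : Elt k ℤ) : LinearMap.det (LinearMap.mulLeft ℤ z) = nrm z ^ 2 := by
  rw [← LinearMap.det_toMatrix basis]
  have h : LinearMap.toMatrix basis basis (LinearMap.mulLeft ℤ z) =
      !![z.a, -(k.r * k.h - k.c ^ 2) * z.b + (k.r * k.h - k.c ^ 2) * z.y,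
          -k.r * k.M * z.x - k.M * k.c * z.y, -k.M * k.c * z.x - k.h * k.M * z.y;
        z.b, z.a + k.r * z.x + k.c * z.y, k.M * z.y, -k.M * z.x;
        z.x, -k.c * z.x - k.h * z.y, z.a + k.c * z.b + k.r * z.x, k.h * z.b + k.c * z.x;
        z.y, k.r * z.x + k.c * z.y, -k.r * z.b + k.r * z.y, z.a - k.c * z.b + k.c * z.y] := by
    ext i j
    rw [LinearMap.toMatrix_apply, LinearMap.mulLeft_apply, basis, Basis.coe_ofEquivFun,
      Basis.ofEquivFun_repr_apply]
    fin_cases i <;> fin_cases j <;> simp [mul_a, mul_b, mul_x, mul_y]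
    ring
  rw [h]
  simp [Matrix.det_succ_row_zero, Fin.sum_univ_succ, Fin.succAbove, nrm]
  ring

/-- The sum of the absolute values of the coefficients of the norm form. -/
def normBound (k : Cst) : ℕ :=
  1 + (k.r * k.h - k.c ^ 2).natAbs + (k.r * k.M).natAbs + (k.h * k.M).natAbs + k.r.natAbs
    + k.c.natAbs + (k.r * k.h - k.c ^ 2).natAbs + (2 * k.M * k.c).natAbs

theorem natAbs_nrm_le (z : Elt k ℤ) {B : ℕ} (ha : z.a.natAbs ≤ B) (hb : z.b.natAbs ≤ B)
    (hx : z.x.natAbs ≤ B) (hy : z.y.natAbs ≤ B) : (nrm z).natAbs ≤ normBound k * (B * B) := by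
  have key : ∀ (t s : ℤ) (C : ℤ), t.natAbs ≤ B → s.natAbs ≤ B →
      (C * (t * s)).natAbs ≤ C.natAbs * (B * B) := fun t s C ht hs => by
    rw [Int.natAbs_mul, Int.natAbs_mul]
    exact Nat.mul_le_mul_left _ (Nat.mul_le_mul ht hs)
  have e : nrm z = 1 * (z.a * z.a) + (k.r * k.h - k.c ^ 2) * (z.b * z.b)
      + k.r * k.M * (z.x * z.x) + k.h * k.M * (z.y * z.y) + k.r * (z.a * z.x) + k.c * (z.a * z.y)
      + -(k.r * k.h - k.c ^ 2) * (z.b * z.y) + 2 * k.M * k.c * (z.x * z.y) := by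
    simp only [nrm, Int.cast_eq]; ring
  rw [e]
  have tri : ∀ a b c d e f g i : ℤ, (a + b + c + d + e + f + g + i).natAbs ≤
      a.natAbs + b.natAbs + c.natAbs + d.natAbs + e.natAbs + f.natAbs + g.natAbs + i.natAbs := by
    intro a b c d e f g i
    have t1 := Int.natAbs_add_le a b
    have t2 := Int.natAbs_add_le (a + b) c
    have t3 := Int.natAbs_add_le (a + b + c) d
    have t4 := Int.natAbs_add_le (a + b + c + d) e
    have t5 := Int.natAbs_add_le (a + b + c + d + e) f
    have t6 := Int.natAbs_add_le (a + b + c + d + e + f) g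
    have t7 := Int.natAbs_add_le (a + b + c + d + e + f + g) i
    linarith
  refine (tri _ _ _ _ _ _ _ _).trans ?_
  have h1 := key _ _ 1 ha ha
  have h2 := key _ _ (k.r * k.h - k.c ^ 2) hb hb
  have h3 := key _ _ (k.r * k.M) hx hx
  have h4 := key _ _ (k.h * k.M) hy hy
  have h5 := key _ _ k.r ha hx
  have h6 := key _ _ k.c ha hy
  have h7 := key _ _ (-(k.r * k.h - k.c ^ 2)) hb hy
  have h8 := key _ _ (2 * k.M * k.c) hx hy
  simp only [Int.natAbs_neg, Int.natAbs_one] at h1 h7
  simp only [normBound, add_mul, one_mul]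
  omega

end Elt

theorem index_range_mulLeft {x : p.O} (hx : x ≠ 0) :
    (AddMonoidHom.mulLeft x).range.index = (Elt.nrm x).natAbs ^ 2 := by
  have hinj : Function.Injective (LinearMap.mulLeft ℤ x) := fun a b h => mul_left_cancel₀ hx h
  have h := Submodule.natAbs_det_equiv (LinearMap.range (LinearMap.mulLeft ℤ x))
    (LinearEquiv.ofInjective _ hinj)
  have he : (LinearMap.range (LinearMap.mulLeft ℤ x)).subtype ∘ₗ
      AddMonoidHom.toIntLinearMap (LinearEquiv.ofInjective _ hinj :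
        p.O →+ LinearMap.range (LinearMap.mulLeft ℤ x)) = LinearMap.mulLeft ℤ x :=
    LinearMap.ext fun z => rfl
  rw [he, Elt.det_mulLeft, Int.natAbs_pow] at h
  rw [h, AddSubgroup.index]
  rfl

theorem index_range_smul {n : ℕ} (hn : 0 < n) :
    (AddMonoidHom.mulLeft (n : p.O)).range.index = n ^ 4 := by
  rw [index_range_mulLeft (fun h => by simpa [hn.ne'] using congrArg Elt.a h), nrm_natCast,
    Int.natAbs_pow, Int.natAbs_natCast, ← pow_mul]

namespace RIdeal

variable (I : RIdeal p)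

/-- An ideal of norm `n` has index `n²`. -/
theorem index_eq : I.carrier.index = I.n ^ 2 := by
  obtain ⟨x, hx, k, hk0, hk, hcop⟩ := I.exists_pos I.n_pos
  have hx0 : x ≠ 0 := fun h => by
    rw [h, Elt.nrm_zero] at hk
    exact mul_ne_zero I.n_ne (by exact_mod_cast hk0.ne') hk.symm
  -- `x O ⊆ I` has index `n² k²`: `[I : x O]` is prime to `n` and `[O : I]`, dividing `n⁴`, to `k`
  set A := (AddMonoidHom.mulLeft x).range
  have hA : A ≤ I.carrier := by rintro _ ⟨o, rfl⟩; exact I.mul_mem x hx o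
  have hAi : A.index = I.n ^ 2 * k ^ 2 := by
    rw [index_range_mulLeft hx0, hk, Int.natAbs_mul, Int.natAbs_natCast, Int.natAbs_natCast,
      mul_pow]
  have hmul : A.relIndex I.carrier * I.carrier.index = I.n ^ 2 * k ^ 2 := by
    rw [AddSubgroup.relIndex_mul_index hA, hAi]
  have hdvd : I.carrier.index ∣ I.n ^ 4 := by
    rw [← index_range_smul (p := p) I.n_pos]
    refine AddSubgroup.index_dvd_of_le ?_
    rintro _ ⟨o, rfl⟩
    exact I.mul_mem _ I.n_mem o
  have hne : A.relIndex I.carrier * I.carrier.index ≠ 0 := by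
    rw [hmul]; exact mul_ne_zero (pow_ne_zero _ I.n_pos.ne') (pow_ne_zero _ hk0.ne')
  have hcopI : I.carrier.index.Coprime k :=
    Nat.Coprime.coprime_dvd_left hdvd (hcop.symm.pow_left 4)
  have hcopA : (A.relIndex I.carrier).Coprime I.n := by
    refine Nat.coprime_of_dvd fun l hl hlA hln => ?_
    have : Fact l.Prime := ⟨hl⟩
    have : Finite (I.carrier ⧸ A.addSubgroupOf I.carrier) :=
      Nat.finite_of_card_ne_zero (left_ne_zero_of_mul hne)
    obtain ⟨g, hg⟩ := exists_prime_addOrderOf_dvd_card' (G := I.carrier ⧸ A.addSubgroupOf I.carrier)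
      l hlA
    have hkg : k • g = 0 := by
      obtain ⟨⟨y, hy⟩, rfl⟩ := QuotientAddGroup.mk_surjective g
      rw [← QuotientAddGroup.mk_nsmul, QuotientAddGroup.eq_zero_iff, AddSubgroup.mem_addSubgroupOf]
      obtain ⟨o, ho⟩ := I.dvd x hx y hy
      refine ⟨o, ?_⟩
      have h := I.exists_smul_eq_mul hk ho
      simpa using h.symm
    rw [← addOrderOf_dvd_iff_nsmul_eq_zero, hg] at hkg
    exact hl.one_lt.ne' (Nat.dvd_one.mp (hcop ▸ Nat.dvd_gcd hkg hln))
  refine Nat.dvd_antisymm ?_ ?_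
  · exact (hcopI.pow_right 2).dvd_of_dvd_mul_right ⟨A.relIndex I.carrier, by rw [← hmul, mul_comm]⟩
  · exact (Nat.Coprime.pow_left 2 hcopA.symm).dvd_of_dvd_mul_left (Dvd.intro _ hmul.symm)

/-- An ideal contains a small element. -/
theorem exists_small : ∃ x ∈ I.carrier, x ≠ 0 ∧
    (Elt.nrm x).natAbs ≤ Elt.normBound p.k * I.n := by
  set B := Nat.sqrt I.n
  have : Finite (p.O ⧸ I.carrier) := Nat.finite_of_card_ne_zero <| by
    show I.carrier.index ≠ 0
    rw [index_eq]
    exact pow_ne_zero _ I.n_pos.ne'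
  let g : (Fin 4 → Fin (B + 1)) → p.O := fun v => ⟨v 0, v 1, v 2, v 3⟩
  have hlt : Nat.card (p.O ⧸ I.carrier) < Nat.card (Fin 4 → Fin (B + 1)) := by
    rw [Nat.card_pi, Finset.prod_const, Finset.card_univ, Fintype.card_fin, Nat.card_fin]
    show I.carrier.index < _
    rw [index_eq]
    calc I.n ^ 2 < ((B + 1) ^ 2) ^ 2 :=
          Nat.pow_lt_pow_left (Nat.lt_succ_sqrt' I.n) two_ne_zero
      _ = (B + 1) ^ 4 := by rw [← pow_mul]
  -- two small vectors agree modulo the ideal, of index less than their number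
  obtain ⟨v, w, hvw, h⟩ : ∃ v w, v ≠ w ∧ ((g v : p.O) : p.O ⧸ I.carrier) = (g w : p.O) := by
    by_contra hcon
    push Not at hcon
    exact hlt.not_ge (Nat.card_le_card_of_injective
      (fun v => ((g v : p.O) : p.O ⧸ I.carrier)) fun v w h => by_contra fun hne => hcon v w hne h)
  refine ⟨g w - g v, by rwa [← QuotientAddGroup.eq_iff_sub_mem, eq_comm], ?_, ?_⟩
  · intro h0
    refine hvw (funext fun i => ?_)
    have ha := congrArg Elt.a (sub_eq_zero.mp h0)
    have hb := congrArg Elt.b (sub_eq_zero.mp h0)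
    have hc := congrArg Elt.x (sub_eq_zero.mp h0)
    have hd := congrArg Elt.y (sub_eq_zero.mp h0)
    simp only [g, Nat.cast_inj, Fin.val_inj] at ha hb hc hd
    fin_cases i <;> simp [*]
  · have key : ∀ i j : Fin (B + 1), ((i : ℤ) - (j : ℤ)).natAbs ≤ B := fun i j => by
      have := i.isLt
      have := j.isLt
      omega
    refine (Elt.natAbs_nrm_le _ (B := B) (key _ _) (key _ _) (key _ _) (key _ _)).trans ?_
    exact Nat.mul_le_mul_left _ (Nat.sqrt_le I.n)

/-- An ideal is equivalent to one of bounded norm. -/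
theorem exists_rel_bounded : ∃ J : RIdeal p, J.n ≤ Elt.normBound p.k ∧ Rel I J := by
  obtain ⟨x, hx, hx0, hle⟩ := I.exists_small
  obtain ⟨k, hk⟩ : ∃ k : ℕ, Elt.nrm x = I.n * k :=
    ⟨(I.Q x).toNat, by rw [Int.toNat_of_nonneg (I.Q_nonneg x)]; exact I.nrm_eq hx⟩
  have hk0 : 0 < k := Nat.pos_of_ne_zero fun h => nrm_ne_zero hx0 (by rw [hk, h]; simp)
  have hn := I.n_ne
  -- the ideal `n⁻¹ x̄ I` of norm `k`
  refine ⟨{
      carrier := (I.scaled (Elt.conj x)).comap (AddMonoidHom.mulLeft (I.n : p.O))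
      n := k
      n_pos := hk0
      mul_mem := ?_
      dvd := ?_
      primitive := ?_ }, ?_, ?_⟩
  · rintro z ⟨w, hw, e⟩ a
    refine ⟨w * a, I.mul_mem w hw a, ?_⟩
    show Elt.conj x * (w * a) = (I.n : p.O) * (z * a)
    rw [← mul_assoc, ← mul_assoc]
    exact congrArg (· * a) e
  · rintro z ⟨w, hw, e⟩ z' ⟨w', hw', e'⟩
    obtain ⟨o, ho⟩ := I.dvd w hw w' hw'
    refine ⟨o, smul_injective_O (mul_ne_zero hn hn) ?_⟩
    change Elt.conj x * w = (I.n : p.O) * z at e
    change Elt.conj x * w' = (I.n : p.O) * z' at e'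
    rw [natCast_mul_eq_smul] at e e'
    calc ((I.n : ℤ) * I.n) • (Elt.conj z * z')
        = Elt.conj ((I.n : ℤ) • z) * ((I.n : ℤ) • z') := by
          rw [Elt.conj_smul, smul_mul_smul_comm]
      _ = Elt.conj (Elt.conj x * w) * (Elt.conj x * w') := by rw [e, e']
      _ = Elt.nrm x • (Elt.conj w * w') := by
          rw [Elt.conj_mul, Elt.conj_conj, mul_assoc, ← mul_assoc x, mul_conj_eq_smul,
            smul_mul_assoc, one_mul, mul_smul_comm]
      _ = _ := by rw [ho, hk, smul_smul, smul_smul]; congr 1; ring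
  · intro m hm
    obtain ⟨w, hw, j, hj, hjm⟩ := I.primitive m hm
    obtain ⟨o, ho⟩ := I.dvd x hx w hw
    refine ⟨o, ⟨w, hw, by show _ = (I.n : p.O) * o; rw [natCast_mul_eq_smul]; exact ho⟩, j, ?_,
      hjm⟩
    refine mul_left_cancel₀ (mul_ne_zero hn hn) ?_
    have := congrArg Elt.nrm ho
    rw [Elt.nrm_mul, Elt.nrm_conj, hk, hj, Elt.nrm_smul] at this
    linear_combination -this
  · have h2 : (I.n : ℤ) * k ≤ I.n * Elt.normBound p.k := by
      rw [hk, Int.natAbs_mul, Int.natAbs_natCast, Int.natAbs_natCast] at hle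
      exact_mod_cast hle.trans_eq (mul_comm _ _)
    exact_mod_cast le_of_mul_le_mul_left h2 (by exact_mod_cast I.n_pos)
  · refine ⟨Elt.conj x, by rw [Elt.nrm_conj]; exact nrm_ne_zero hx0, I.n, I.n_pos, ?_⟩
    refine le_antisymm ?_ ?_
    · rintro _ ⟨w, hw, rfl⟩
      obtain ⟨o, ho⟩ := I.dvd x hx w hw
      refine ⟨o, ⟨w, hw, ?_⟩, ?_⟩
      · show _ = (I.n : p.O) * o
        rw [natCast_mul_eq_smul]; exact ho
      · show (I.n : p.O) * o = _
        rw [natCast_mul_eq_smul]; exact ho.symm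
    · rintro _ ⟨z, hz, rfl⟩
      exact hz

theorem mem_iff_of_sub {z z' : p.O} (h : ∃ o : p.O, z - z' = (I.n : ℤ) • o) :
    z ∈ I.carrier ↔ z' ∈ I.carrier := by
  obtain ⟨o, ho⟩ := h
  constructor
  · intro hz
    have := I.carrier.sub_mem hz (I.smul_n_mem o)
    rwa [← ho, sub_sub_cancel] at this
  · intro hz
    have := I.carrier.add_mem hz (I.smul_n_mem o)
    rwa [← ho, add_sub_cancel] at this

end RIdeal

theorem finite_bounded (C : ℕ) : Finite {I : RIdeal p // I.n ≤ C} := by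
  set f := C.factorial
  have : NeZero f := ⟨C.factorial_ne_zero⟩
  have : Finite (Elt p.k (ZMod f)) := Finite.of_surjective
    (fun v : Fin 4 → ZMod f => (⟨v 0, v 1, v 2, v 3⟩ : Elt p.k (ZMod f)))
    fun z => ⟨![z.a, z.b, z.x, z.y], rfl⟩
  refine Finite.of_injective (fun I : {I : RIdeal p // I.n ≤ C} =>
    Elt.map (Int.castRingHom (ZMod f)) '' (I.1.carrier : Set p.O)) fun I J h => ?_
  have key : ∀ A B : {I : RIdeal p // I.n ≤ C},
      Elt.map (Int.castRingHom (ZMod f)) '' (A.1.carrier : Set p.O) =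
        Elt.map (Int.castRingHom (ZMod f)) '' (B.1.carrier : Set p.O) →
      A.1.carrier ≤ B.1.carrier := by
    intro A B he z hz
    obtain ⟨z', hz', e⟩ := he ▸ Set.mem_image_of_mem (Elt.map (Int.castRingHom (ZMod f))) hz
    refine (B.1.mem_iff_of_sub ?_).mpr hz'
    have hBf : (B.1.n : ℤ) ∣ f :=
      Int.natCast_dvd_natCast.mpr (Nat.dvd_factorial B.1.n_pos B.2)
    have hd : ∀ s t : ℤ, (s : ZMod f) = t → (B.1.n : ℤ) ∣ t - s := fun s t hst =>
      hBf.trans ((ZMod.intCast_eq_intCast_iff_dvd_sub s t f).mp hst)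
    obtain ⟨ea, hea⟩ := hd _ _ (congrArg Elt.a e)
    obtain ⟨eb, heb⟩ := hd _ _ (congrArg Elt.b e)
    obtain ⟨ex, hex⟩ := hd _ _ (congrArg Elt.x e)
    obtain ⟨ey, hey⟩ := hd _ _ (congrArg Elt.y e)
    refine ⟨⟨ea, eb, ex, ey⟩, ?_⟩
    ext <;> simp only [Elt.sub_a, Elt.sub_b, Elt.sub_x, Elt.sub_y, Elt.smul_a, Elt.smul_b,
      Elt.smul_x, Elt.smul_y, smul_eq_mul, hea, heb, hex, hey]
  exact Subtype.ext (RIdeal.ext (le_antisymm (key I J h) (key J I h.symm)))

/-- There are finitely many classes. -/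
instance : Finite (Cls p) := by
  have := finite_bounded (p := p) (Elt.normBound p.k)
  refine Finite.of_surjective
    (fun I : {I : RIdeal p // I.n ≤ Elt.normBound p.k} => cls I.1) fun X => ?_
  obtain ⟨J, hJ, hrel⟩ := RIdeal.exists_rel_bounded X.out
  exact ⟨⟨J, hJ⟩, (RIdeal.cls_eq_iff.mpr hrel).symm.trans (cls_out X)⟩

end Fermat.Agent.LT.Quat
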