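import Fermat.Agent.LT.Quat.Anti

/-!
# The neighbours fixed by conjugation by `i`

For an odd prime `l` not dividing `P` the subideals of relative norm `l` of `a O` fixed by the
conjugation by `i` are the `a 𝔩 O`, `𝔩` running over the primes of norm `l`.

Main result: `exists_fixedSub_eq`.
-/

set_option autoImplicit false

open scoped nonZeroDivisors

namespace Fermat.Agent.LT.Quat

variable {p : Params}

theorem RIdeal.eq_of_le_of_n_eq {I J : RIdeal p} (h : I.carrier ≤ J.carrier) (hn : I.n = J.n) :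
    I = J := by
  have h1 := AddSubgroup.relIndex_mul_index h
  rw [I.index_eq, J.index_eq, hn] at h1
  have h2 : I.carrier.relIndex J.carrier = 1 :=
    Nat.eq_of_mul_eq_mul_right (pow_pos J.n_pos 2) (h1.trans (one_mul _).symm)
  exact RIdeal.ext (le_antisymm h (AddSubgroup.relIndex_eq_one.mp h2))

variable {A : Type*} [CommRing A] (e : A ≃+* p.OK)

/-! ## The elements attached to `j` -/

/-- `2 u - c + i`. -/
def jtilde : p.O := ⟨-p.c, 1, 0, 2⟩

theorem jA_mul_eJ (x : A) :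
    jA e x * Elt.eJ = ((e x).re + (e x).im * p.c) • (Elt.eJ : p.O) -
      ((e x).im * p.r) • (jtilde : p.O) := by
  refine Elt.ext ?_ ?_ ?_ ?_ <;>
    simp [Elt.mul_a, Elt.mul_b, Elt.mul_x, Elt.mul_y, Elt.eJ, jtilde, jA_a, jA_b, jA_x, jA_y] <;>
    ring

theorem eJ_mul_eJ : (Elt.eJ : p.O) * Elt.eJ = -((p.r : ℤ) * p.P) • (1 : p.O) := by
  have h := p.four'
  refine Elt.ext ?_ ?_ ?_ ?_ <;>
    simp [Elt.mul_a, Elt.mul_b, Elt.mul_x, Elt.mul_y, Elt.eJ] <;> try ring_nf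
  linear_combination (p.r : ℤ) * h

/-- `c - √-d`. -/
def cmd : A := (p.c : A) - deltaA e

theorem smul_jtilde : (p.r : ℤ) • (jtilde : p.O) = jA e (cmd e) * Elt.eJ := by
  have h1 : (e (cmd e)).re = p.c := by simp [cmd, deltaA]
  have h2 : (e (cmd e)).im = -1 := by simp [cmd, deltaA]
  rw [jA_mul_eJ, h1, h2]
  simp

theorem cmd_mem_rbar : cmd e ∈ rbar e := by
  rw [mem_rbar]
  simp [cmd, deltaA]

theorem natCast_r_mem_rbar : (p.r : A) ∈ rbar e := by
  rw [mem_rbar]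
  simp

theorem anti_mul_eJ (x : p.O) :
    (x - Elt.sigma x) * Elt.eJ =
      (2 : ℤ) • (x * ⟨0, 0, 1, 0⟩ + Elt.sigma (x * ⟨0, 0, 1, 0⟩)) -
        (p.r : ℤ) • (x + Elt.sigma x) := by
  rw [Elt.sigma_mul]
  refine Elt.ext ?_ ?_ ?_ ?_ <;>
    simp only [Elt.mul_a, Elt.mul_b, Elt.mul_x, Elt.mul_y, Elt.sub_a, Elt.sub_b,
      Elt.sub_x, Elt.sub_y, Elt.add_a, Elt.add_b, Elt.add_x, Elt.add_y, Elt.smul_a, Elt.smul_b,
      Elt.smul_x, Elt.smul_y, smul_eq_mul, Elt.sigma_a, Elt.sigma_b, Elt.sigma_x, Elt.sigma_y,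
      Params.k_r, Params.k_M, Params.k_c, Params.k_h, Int.cast_eq, Elt.eJ] <;> ring

theorem anti_mul_jtilde (x : p.O) :
    (x - Elt.sigma x) * jtilde =
      (2 : ℤ) • (x * ⟨0, 0, 0, 1⟩ + Elt.sigma (x * ⟨0, 0, 0, 1⟩)) -
        (x + Elt.sigma x) * ⟨p.c, -1, 0, 0⟩ := by
  rw [Elt.sigma_mul]
  refine Elt.ext ?_ ?_ ?_ ?_ <;>
    simp only [Elt.mul_a, Elt.mul_b, Elt.mul_x, Elt.mul_y, Elt.sub_a, Elt.sub_b,
      Elt.sub_x, Elt.sub_y, Elt.add_a, Elt.add_b, Elt.add_x, Elt.add_y, Elt.smul_a, Elt.smul_b,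
      Elt.smul_x, Elt.smul_y, smul_eq_mul, Elt.sigma_a, Elt.sigma_b, Elt.sigma_x, Elt.sigma_y,
      Params.k_r, Params.k_M, Params.k_c, Params.k_h, Int.cast_eq, jtilde] <;> ring

theorem jA_cmd : jA e (cmd e) = ⟨p.c, -1, 0, 0⟩ := by
  refine Elt.ext ?_ ?_ ?_ ?_ <;> simp [jA_a, jA_b, jA_x, jA_y, cmd, deltaA]

/-- Cancelling a coefficient prime to the generator. -/
theorem mem_span_mul_of_coprime {a : Ideal A} {m n : ℕ} (hcop : n.Coprime m) {g : A}
    (hga : g ∈ a) (h : (n : A) * g ∈ Ideal.span {(m : A)} * a) :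
    g ∈ Ideal.span {(m : A)} * a := by
  exact mem_of_coprime_mul_mem hcop h (Ideal.mul_mem_mul (Ideal.mem_span_singleton_self _) hga)

/-- An element of `a` whose product with `c + √-d` is in `r a` lies in `a (r, c - √-d)`. -/
private theorem mem_mul_rbar_of_mul_cjA_cmd {a : Ideal A} {γ : A} (hγ : γ ∈ a)
    (h : γ * cjA e (cmd e) ∈ Ideal.span {(p.r : A)} * a) : γ ∈ a * rbar e := by
  -- `γ` is a combination of `r γ`, `(c - √-d) γ` and `(c + √-d) γ`, as `r` is prime to `2 c`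
  have hrc : Nat.Coprime p.r (2 * p.c).natAbs := by
    rw [Nat.Prime.coprime_iff_not_dvd p.r_prime, ← Int.natCast_dvd]
    intro h
    rcases (Nat.prime_iff_prime_int.mp p.r_prime).dvd_or_dvd h with h | h
    · exact p.r_ne_two ((Nat.prime_dvd_prime_iff_eq p.r_prime Nat.prime_two).mp
        (Int.natCast_dvd_natCast.mp h))
    · refine p.r_not_dvd (Int.natCast_dvd_natCast.mp ?_)
      rw [show (p.d : ℤ) = p.r * p.h - p.c ^ 2 by linarith [p.c_sq]]
      exact dvd_sub (dvd_mul_right _ _) (dvd_pow h two_ne_zero)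
  obtain ⟨u, v, huv⟩ : IsCoprime (p.r : ℤ) (2 * p.c) := by
    rw [Int.isCoprime_iff_nat_coprime]; simpa using hrc
  have hle : Ideal.span {(p.r : A)} * a ≤ a * rbar e := by
    rw [mul_comm]
    exact Ideal.mul_mono_right ((Ideal.span_singleton_le_iff_mem _).mpr (natCast_r_mem_rbar e))
  have hsum : cmd e + cjA e (cmd e) = ((2 * p.c : ℤ) : A) := by
    rw [cmd, map_sub, map_intCast, cjA_deltaA]
    push_cast
    ring
  have hone : γ = (u : A) * (γ * (p.r : A)) + (v : A) * (γ * cmd e) +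
      (v : A) * (γ * cjA e (cmd e)) := by
    have hc := congrArg (fun t : ℤ => (t : A)) huv
    push_cast at hc hsum
    linear_combination -γ * hc - (v : A) * γ * hsum
  rw [hone]
  exact add_mem (add_mem
    (Ideal.mul_mem_left _ _ (Ideal.mul_mem_mul hγ (natCast_r_mem_rbar e)))
    (Ideal.mul_mem_left _ _ (Ideal.mul_mem_mul hγ (cmd_mem_rbar e))))
    (Ideal.mul_mem_left _ _ (hle h))

variable [IsDedekindDomain A] [Module.Free ℤ A] [Module.Finite ℤ A]

/-- Elements of `a (r, c - √-d)` give elements of `r a O` by right multiplication by `j`. -/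
theorem exists_smul_of_mem_mul_rbar {a : (Ideal A)⁰} {y : A}
    (hy : y ∈ (a : Ideal A) * rbar e) :
    ∃ o ∈ (iota e a).carrier, jA e y * Elt.eJ = (p.r : ℤ) • o := by
  induction hy using Submodule.mul_induction_on' with
  | mem_mul_mem α hα ρ hρ =>
    obtain ⟨t, ht⟩ := (mem_rbar e).mp hρ
    refine ⟨jA e α * (t • (Elt.eJ : p.O) - (e ρ).im • (jtilde : p.O)),
      RIdeal.mul_mem _ _ (jA_mem_iota hα) _, ?_⟩
    rw [map_mul, mul_assoc, jA_mul_eJ, ht, ← mul_smul_comm, smul_sub, smul_smul, smul_smul,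
      mul_comm (e ρ).im]
  | add u _ v _ hu hv =>
    obtain ⟨o₁, ho₁, h₁⟩ := hu
    obtain ⟨o₂, ho₂, h₂⟩ := hv
    exact ⟨o₁ + o₂, add_mem ho₁ ho₂, by rw [map_add, add_mul, h₁, h₂, smul_add]⟩

variable {e}

theorem l_smul_mem {I : RIdeal p} {l : ℕ} (J : SubIdeal I l) {x : p.O} (hx : x ∈ I.carrier) :
    (l : ℤ) • x ∈ J.1.carrier := by
  obtain ⟨z, hz, k, hk, hcop⟩ := J.1.primitive J.1.n J.1.n_pos
  refine (J.1.mem_iff hz hk hcop _).mpr ?_
  obtain ⟨o, ho⟩ := I.dvd z (J.2.1 hz) x hx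
  exact ⟨o, by rw [mul_smul_comm, ho, smul_smul, J.2.2, Nat.cast_mul]⟩

/-! ## A fixed subideal meets the field -/

/-- `P` is prime to `r`. -/
private theorem coprime_P_r : Nat.Coprime p.P p.r := by
  refine (p.r_prime.coprime_iff_not_dvd.mpr fun h => ?_).symm
  obtain ⟨q, hq, hrq⟩ := (p.r_prime.prime.dvd_finsetProd_iff _).mp h
  exact p.r_notMem ((Nat.prime_dvd_prime_iff_eq p.r_prime (p.T_prime q hq).1).mp hrq ▸ hq)

/-- An element with a double in `l M`, `l` odd, is in `l M`. -/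
private theorem exists_eq_smul_of_two_smul {M : Type*} [AddCommGroup M] {l : ℕ} (hl : Odd l)
    {x w : M} (h : (2 : ℤ) • x = (l : ℤ) • w) :
    ∃ j : ℕ, x = (l : ℤ) • (x - (j : ℤ) • w) := by
  obtain ⟨j, hj⟩ := hl
  refine ⟨j, ?_⟩
  rw [smul_sub, smul_comm (l : ℤ) (j : ℤ), ← h, smul_smul, ← sub_smul, hj]
  conv_lhs => rw [← one_smul ℤ x]
  congr 1
  push_cast
  ring

/-- A fixed subideal meets the field in more than `l a`. -/
theorem exists_jA_mem {a : (Ideal A)⁰} {l : ℕ} (hl : l.Prime) (hl2 : l ≠ 2) (hlP : ¬ l ∣ p.P)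
    (J : SubIdeal (iota e a) l) (hJ : J.1.sigma = J.1) :
    ∃ t : A, jA e t ∈ J.1.carrier ∧ t ∉ Ideal.span {(l : A)} * (a : Ideal A) := by
  -- otherwise `x + σ x` is in `l a`, and `z = x - σ x` is seen to be in `l a O`: so `x` is in `l`
  -- times `a O`, which contradicts primitivity
  by_contra hcon
  push Not at hcon
  have hsig : ∀ x ∈ J.1.carrier, Elt.sigma x ∈ J.1.carrier := fun x hx => by
    rw [← RIdeal.mem_sigma, hJ]; exact hx
  have hS : ∀ x ∈ J.1.carrier,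
      ∃ t ∈ Ideal.span {(l : A)} * (a : Ideal A), jA e t = x + Elt.sigma x := by
    intro x hx
    obtain ⟨t, ht⟩ := exists_jA_eq e (z := x + Elt.sigma x) (by simp) (by simp)
    exact ⟨t, hcon t (ht ▸ add_mem hx (hsig x hx)), ht⟩
  -- `x` has norm `k N J` with `k` prime to `l`; `z = x - σ x` anticommutes, so `r z = γ j`
  obtain ⟨x, hx, k, hk, hcop⟩ := J.1.primitive l hl.pos
  set z := x - Elt.sigma x with hz
  have hzanti : Elt.sigma z = -z := by
    rw [hz, ← Elt.sigmaEquiv_apply, map_sub, Elt.sigmaEquiv_apply, Elt.sigmaEquiv_apply,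
      Elt.sigma_sigma, neg_sub]
  obtain ⟨γ, hγr, hγ⟩ := exists_sigma_neg e hzanti
  have hzI : z ∈ (iota e a).carrier := J.2.1 (sub_mem hx (hsig x hx))
  have hγa : γ ∈ (a : Ideal A) := Ideal.mul_le_left (mem_mul_rbar_of_anti e hzI hzanti hγr hγ)
  -- the sums `x' + σ x'` for `x' = x` and its multiples by the last two basis vectors
  obtain ⟨ts, hts, hts'⟩ := hS x hx
  obtain ⟨tw, htw, htw'⟩ := hS _ (J.1.mul_mem x hx ⟨0, 0, 1, 0⟩)
  obtain ⟨tu, htu, htu'⟩ := hS _ (J.1.mul_mem x hx ⟨0, 0, 0, 1⟩)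
  have hr0 : (p.r : ℤ) ≠ 0 := Nat.cast_ne_zero.mpr p.r_pos.ne'
  -- the two products `z j` and `z (2 u - c + i)` lie in the field
  have hzw : z * Elt.eJ = jA e (2 * tw - (p.r : A) * ts) := by
    rw [hz, anti_mul_eJ, ← htw', ← hts', map_sub, map_mul, map_mul, map_ofNat, map_natCast,
      natCast_mul_eq_smul, ← Nat.cast_ofNat (R := p.O) (n := 2), natCast_mul_eq_smul]
    rfl
  have hzu : z * jtilde = jA e (2 * tu - cmd e * ts) := by
    rw [hz, anti_mul_jtilde, ← htu', ← hts', mul_comm (cmd e), map_sub, map_mul, map_mul,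
      map_ofNat, jA_cmd, ← Nat.cast_ofNat (R := p.O) (n := 2), natCast_mul_eq_smul]
    rfl
  -- as `j ^ 2 = -r P`, the first gives `P γ` in `l a`
  have hτ : (p.P : A) * γ ∈ Ideal.span {(l : A)} * (a : Ideal A) := by
    have h1 : jA e (-((p.P : A) * γ)) = jA e (2 * tw - (p.r : A) * ts) := by
      refine smul_injective_O hr0 ?_
      rw [← hzw, ← smul_mul_assoc, hγ, mul_assoc, eJ_mul_eJ, mul_smul_comm, mul_one, map_neg,
        map_mul, map_natCast, natCast_mul_eq_smul, smul_neg, smul_smul, neg_smul]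
    rw [← neg_mem_iff, jA_injective e h1]
    exact sub_mem (Ideal.mul_mem_left _ _ htw) (Ideal.mul_mem_left _ _ hts)
  have hlP' : Nat.Coprime p.P l := (hl.coprime_iff_not_dvd.mpr hlP).symm
  -- so `γ` is `l γ₁`
  obtain ⟨γ₁, hγ₁, rfl⟩ : ∃ γ₁ ∈ (a : Ideal A), (l : A) * γ₁ = γ := by
    exact Ideal.mem_span_singleton_mul.mp (mem_span_mul_of_coprime hlP' hγa hτ)
  -- as `r (2 u - c + i) = (c - √-d) j`, the second gives `P γ₁ (c + √-d)` in `r a`
  have hρ : (p.P : A) * (γ₁ * cjA e (cmd e)) ∈ Ideal.span {(p.r : A)} * (a : Ideal A) := by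
    have h1 : jA e (-((p.P : A) * ((l : A) * γ₁ * cjA e (cmd e)))) =
        jA e ((p.r : A) * (2 * tu - cmd e * ts)) := by
      refine smul_injective_O hr0 ?_
      rw [map_mul _ ((p.r : A)), map_natCast, natCast_mul_eq_smul, ← hzu, ← mul_smul_comm,
        smul_jtilde e, ← smul_mul_assoc, hγ,
        mul_assoc (jA e ((l : A) * γ₁)) (Elt.eJ : p.O) (jA e (cmd e) * Elt.eJ),
        ← mul_assoc (Elt.eJ : p.O), eJ_mul_jA,
        mul_assoc _ (Elt.eJ : p.O), eJ_mul_eJ, mul_smul_comm, mul_one, mul_smul_comm, map_neg,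
        map_mul, map_natCast, natCast_mul_eq_smul, smul_neg, smul_smul, neg_smul, ← map_mul]
    have h2 := jA_injective e h1
    obtain ⟨w, hw, hw'⟩ := Ideal.mem_span_singleton_mul.mp
      (sub_mem (Ideal.mul_mem_left _ 2 htu) (Ideal.mul_mem_left _ (cmd e) hts) :
        2 * tu - cmd e * ts ∈ Ideal.span {(l : A)} * (a : Ideal A))
    have hlA : (l : A) ≠ 0 := natCast_ne_zero_A e hl.ne_zero
    refine Ideal.mem_span_singleton_mul.mpr ⟨-w, neg_mem hw, ?_⟩
    refine mul_left_cancel₀ hlA ?_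
    rw [← hw'] at h2
    linear_combination h2
  have hγ₁r : γ₁ ∈ (a : Ideal A) * rbar e := by
    exact mem_mul_rbar_of_mul_cjA_cmd e hγ₁
      (mem_span_mul_of_coprime coprime_P_r (Ideal.mul_mem_right _ _ hγ₁) hρ)
  -- so `γ₁ j` is in `r a O` and `z` in `l a O`
  obtain ⟨o, ho, ho'⟩ := exists_smul_of_mem_mul_rbar e hγ₁r
  have hz' : z = (l : ℤ) • o := by
    refine smul_injective_O hr0 ?_
    rw [hγ, map_mul, map_natCast, mul_assoc, ho', natCast_mul_eq_smul, smul_comm]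
  obtain ⟨w, hw, hw'⟩ := Ideal.mem_span_singleton_mul.mp hts
  have hs' : x + Elt.sigma x = (l : ℤ) • jA e w := by
    rw [← hts', ← hw', map_mul, map_natCast, natCast_mul_eq_smul]
  -- `2 x` is in `l a O` and `l` is odd
  obtain ⟨j, hxy⟩ := exists_eq_smul_of_two_smul (hl.odd_of_ne_two hl2) (x := x) (w := jA e w + o)
    (by rw [smul_add, ← hs', ← hz', hz, two_smul]; abel)
  set y := x - (j : ℤ) • (jA e w + o)
  have hyI : y ∈ (iota e a).carrier :=
    sub_mem (J.2.1 hx) ((iota e a).zsmul_mem (add_mem (jA_mem_iota hw) ho) _)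
  obtain ⟨q, hq⟩ := (iota e a).nrm_dvd hyI
  have hlk : (l : ℤ) ∣ k := ⟨q, by
    refine mul_left_cancel₀ (J.1.n_ne) ?_
    rw [← hk, hxy, Elt.nrm_smul, hq, J.2.2]
    push_cast
    ring⟩
  exact hl.one_lt.ne' (Nat.eq_one_of_dvd_coprimes hcop (Int.natCast_dvd_natCast.mp hlk) dvd_rfl)

/-! ## The fixed subideals -/

/-- A prime of norm `l` as a nonzero ideal. -/
noncomputable def normPrime {l : ℕ} (P : {P : Ideal A // Ideal.absNorm P = l}) (hl : l ≠ 0) :
    (Ideal A)⁰ :=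
  ⟨P.1, mem_nonZeroDivisors_of_absNorm_ne_zero (P.2.symm ▸ hl)⟩

omit [Module.Finite ℤ A] in
theorem coe_mul_normPrime (a : (Ideal A)⁰) {l : ℕ} (P : {P : Ideal A // Ideal.absNorm P = l})
    (hl : l ≠ 0) : ((a * normPrime P hl : (Ideal A)⁰) : Ideal A) = (a : Ideal A) * P.1 :=
  Submonoid.coe_mul _ _ _

/-- The ideal `a 𝔩 O` as a subideal. -/
noncomputable def fixedSub (a : (Ideal A)⁰) {l : ℕ} (P : {P : Ideal A // Ideal.absNorm P = l})
    (hl : l ≠ 0) : SubIdeal (iota e a) l :=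
  ⟨iota e (a * normPrime P hl),
    iota_mono (e := e) ((coe_mul_normPrime a P hl).trans_le Ideal.mul_le_left), by
      rw [iota_n, iota_n, coe_mul_normPrime, map_mul, P.2, mul_comm]⟩

theorem fixedSub_val (a : (Ideal A)⁰) {l : ℕ} (P : {P : Ideal A // Ideal.absNorm P = l})
    (hl : l ≠ 0) : (fixedSub (e := e) a P hl).1 = iota e (a * normPrime P hl) := rfl

theorem sigma_fixedSub (a : (Ideal A)⁰) {l : ℕ} (P : {P : Ideal A // Ideal.absNorm P = l})
    (hl : l ≠ 0) : (fixedSub (e := e) a P hl).1.sigma = (fixedSub (e := e) a P hl).1 :=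
  (congrArg RIdeal.sigma (fixedSub_val (e := e) a P hl)).trans
    ((sigma_iota (e := e) (a * normPrime P hl)).trans (fixedSub_val (e := e) a P hl).symm)

theorem fixedSub_injective (a : (Ideal A)⁰) {l : ℕ} (hl : l ≠ 0) :
    Function.Injective fun P : {P : Ideal A // Ideal.absNorm P = l} =>
      fixedSub (e := e) a P hl := by
  intro P Q h
  have h0 := congrArg (fun J : SubIdeal (iota e a) l => J.1.carrier) h
  simp only [fixedSub_val] at h0
  have h1 := congrArg Subtype.val (iota_injective (e := e) h0)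
  rw [coe_mul_normPrime, coe_mul_normPrime] at h1
  exact Subtype.ext (mul_left_cancel₀ (nonZeroDivisors.coe_ne_zero a) h1)

/-- **The fixed neighbours.** -/
theorem exists_fixedSub_eq {a : (Ideal A)⁰} {l : ℕ} (hl : l.Prime) (hl2 : l ≠ 2)
    (hlP : ¬ l ∣ p.P) (J : SubIdeal (iota e a) l) (hJ : J.1.sigma = J.1) :
    ∃ P, fixedSub (e := e) a P hl.ne_zero = J := by
  let b : Ideal A :=
    { carrier := {x | jA e x ∈ J.1.carrier}
      add_mem' := fun {x y} hx hy => by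
        show jA e (x + y) ∈ J.1.carrier
        rw [map_add]; exact add_mem hx hy
      zero_mem' := by
        show jA e 0 ∈ J.1.carrier
        rw [map_zero]; exact zero_mem _
      smul_mem' := fun r x hx => by
        show jA e (r * x) ∈ J.1.carrier
        rw [mul_comm r x, map_mul]; exact J.1.mul_mem _ hx _ }
  have hba : b ≤ a := fun x hx => jA_mem_iota_iff.mp (J.2.1 hx)
  have hlb : Ideal.span {(l : A)} * (a : Ideal A) ≤ b := by
    intro x hx
    obtain ⟨w, hw, rfl⟩ := Ideal.mem_span_singleton_mul.mp hx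
    show jA e ((l : A) * w) ∈ J.1.carrier
    rw [map_mul, map_natCast, natCast_mul_eq_smul]
    exact l_smul_mem J (jA_mem_iota hw)
  obtain ⟨t, htJ, htnot⟩ := exists_jA_mem hl hl2 hlP J hJ
  -- `b`, the elements of the field in `J`, is strictly between `l a` and `a`: it is `a` times a
  -- prime of norm `l`
  have hb_ne : b ≠ Ideal.span {(l : A)} * (a : Ideal A) := fun h => htnot (h ▸ htJ)
  have hb_ne' : b ≠ a := by
    intro h
    have hle : (iota e a).carrier ≤ J.1.carrier := iota_le_carrier fun x hx => h.symm.le hx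
    obtain ⟨z, hz, k, hk, hcop⟩ := (iota e a).primitive l hl.pos
    have := J.1.nrm_dvd (hle hz)
    rw [hk, J.2.2, Nat.cast_mul, mul_comm] at this
    exact hl.one_lt.ne' (Nat.eq_one_of_dvd_coprimes hcop (Int.natCast_dvd_natCast.mp
      ((mul_dvd_mul_iff_left (RIdeal.n_ne _)).mp this)) dvd_rfl)
  obtain ⟨c, hc⟩ := Ideal.dvd_iff_le.mpr hba
  have ha0 := nonZeroDivisors.coe_ne_zero a
  have hlc : Ideal.span {(l : A)} ≤ c := by
    rw [← Ideal.dvd_iff_le, ← mul_dvd_mul_iff_left ha0, ← hc, Ideal.dvd_iff_le, mul_comm]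
    exact hlb
  have hNc := Ideal.absNorm_dvd_absNorm_of_le hlc
  rw [absNorm_span_nat e] at hNc
  obtain ⟨i, hi, hNi⟩ := (Nat.dvd_prime_pow hl).mp hNc
  have hi1 : i = 1 := by
    by_contra hne
    rcases (by omega : i = 0 ∨ i = 2) with rfl | rfl
    · rw [pow_zero, Ideal.absNorm_eq_one_iff] at hNi
      exact hb_ne' (by rw [hc, hNi, Ideal.mul_top])
    · refine hb_ne ?_
      rw [hc, ← eq_of_le_of_absNorm_eq hlc ?_ (by rw [absNorm_span_nat e, hNi]), mul_comm]
      intro h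
      rw [h, Ideal.absNorm_bot] at hNi
      exact pow_ne_zero 2 hl.ne_zero hNi.symm
  rw [hi1, pow_one] at hNi
  refine ⟨⟨c, hNi⟩, Subtype.ext (RIdeal.eq_of_le_of_n_eq
    (I := (fixedSub (e := e) a ⟨c, hNi⟩ hl.ne_zero).1) ?_ ?_)⟩
  · rw [fixedSub_val]
    refine iota_le_carrier fun x hx => ?_
    rw [coe_mul_normPrime] at hx
    rw [← hc] at hx
    exact hx
  · rw [(fixedSub (e := e) a ⟨c, hNi⟩ hl.ne_zero).2.2, J.2.2]

end Fermat.Agent.LT.Quat
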