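import Fermat.Agent.LT.Quat.Basic

/-!
# Right ideals: elementary properties, equivalence
-/

set_option autoImplicit false

namespace Fermat.Agent.LT.Quat

variable {p : Params}

theorem natCast_eq_algebraMap (n : ℕ) : (n : p.O) = algebraMap ℤ p.O n := rfl

/-- Multiplication by a natural number is the scalar multiple. -/
theorem natCast_mul_eq_smul (n : ℕ) (z : p.O) : (n : p.O) * z = (n : ℤ) • z := by
  rw [natCast_eq_algebraMap, ← Algebra.smul_def]

theorem nrm_natCast (n : ℕ) : Elt.nrm (n : p.O) = (n : ℤ) ^ 2 := by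
  rw [natCast_eq_algebraMap, Elt.nrm_algebraMap]

/-- Multiplication by a nonzero integer is injective on the order. -/
theorem smul_injective_O {n : ℤ} (hn : n ≠ 0) {z z' : p.O} (h : n • z = n • z') : z = z' := by
  have h' := congrArg (fun w : p.O => (w.a, w.b, w.x, w.y)) h
  simp only [Elt.smul_a, Elt.smul_b, Elt.smul_x, Elt.smul_y, smul_eq_mul, Prod.mk.injEq,
    mul_eq_mul_left_iff, hn, or_false] at h'
  exact Elt.ext h'.1 h'.2.1 h'.2.2.1 h'.2.2.2

/-- The conjugate times an element is the norm times one. -/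
theorem conj_mul_eq_smul (z : p.O) : Elt.conj z * z = Elt.nrm z • (1 : p.O) := by
  rw [Elt.conj_mul_self, Algebra.algebraMap_eq_smul_one]

/-- An element times its conjugate is the norm times one. -/
theorem mul_conj_eq_smul (z : p.O) : z * Elt.conj z = Elt.nrm z • (1 : p.O) := by
  rw [Elt.mul_conj, Algebra.algebraMap_eq_smul_one]

/-- The reduced norm vanishes only at zero. -/
theorem nrm_ne_zero {z : p.O} (hz : z ≠ 0) : Elt.nrm z ≠ 0 :=
  fun h => hz (p.eq_zero_of_nrm_eq_zero h)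

namespace RIdeal

variable (I J : RIdeal p)

/-- An ideal is stable under integer multiples. -/
theorem zsmul_mem {z : p.O} (hz : z ∈ I.carrier) (t : ℤ) : t • z ∈ I.carrier :=
  I.carrier.zsmul_mem hz t

/-- The norm of an ideal is nonzero. -/
theorem n_ne : (I.n : ℤ) ≠ 0 := by exact_mod_cast I.n_pos.ne'

/-- The norm of an ideal divides the norms of its elements. -/
theorem nrm_dvd {z : p.O} (hz : z ∈ I.carrier) : (I.n : ℤ) ∣ Elt.nrm z := by
  obtain ⟨o, ho⟩ := I.dvd z hz z hz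
  refine ⟨o.a, ?_⟩
  have h := congrArg Elt.a ho
  rwa [Elt.conj_mul_self, Elt.algebraMap_a, Elt.smul_a, smul_eq_mul] at h

/-- The normalised norm. -/
def Q (z : p.O) : ℤ := Elt.nrm z / I.n

/-- The norm of an element is the norm of the ideal times its normalised norm. -/
theorem nrm_eq {z : p.O} (hz : z ∈ I.carrier) : Elt.nrm z = I.n * I.Q z :=
  (Int.mul_ediv_cancel' (I.nrm_dvd hz)).symm

/-- The normalised norm is determined by the norm. -/
theorem Q_eq_of_nrm_eq {z : p.O} {t : ℤ} (h : Elt.nrm z = I.n * t) : I.Q z = t := by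
  rw [Q, h, Int.mul_ediv_cancel_left _ I.n_ne]

theorem Q_nonneg (z : p.O) : 0 ≤ I.Q z := Int.ediv_nonneg (p.nrm_nonneg z) (Int.natCast_nonneg _)

theorem exists_pos {m : ℕ} (hm : 0 < m) :
    ∃ z ∈ I.carrier, ∃ k : ℕ, 0 < k ∧ Elt.nrm z = I.n * k ∧ k.Coprime m := by
  obtain ⟨z, hz, k, hk, hkm⟩ := I.primitive (2 * m) (by omega)
  refine ⟨z, hz, k, Nat.pos_of_ne_zero fun h => ?_, hk, Nat.Coprime.coprime_mul_left_right hkm⟩
  rw [h, Nat.coprime_zero_left] at hkm
  omega

theorem n_mem : (I.n : p.O) ∈ I.carrier := by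
  obtain ⟨z, hz, k, hk0, hk, -⟩ := I.exists_pos one_pos
  obtain ⟨z', hz', k', -, hk', hcop⟩ := I.exists_pos hk0
  have h1 : ∀ (w : p.O) (t : ℕ), w ∈ I.carrier → Elt.nrm w = I.n * t →
      (t : ℤ) • (I.n : p.O) ∈ I.carrier := fun w t hw ht => by
    have := I.mul_mem w hw (Elt.conj w)
    rw [mul_conj_eq_smul, ht, mul_comm, mul_smul] at this
    rwa [natCast_eq_algebraMap, Algebra.algebraMap_eq_smul_one]
  have e1 := I.zsmul_mem (h1 z k hz hk) (Nat.gcdA k k')
  have e2 := I.zsmul_mem (h1 z' k' hz' hk') (Nat.gcdB k k')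
  have h := I.carrier.add_mem e1 e2
  rw [smul_smul, smul_smul, ← add_smul, mul_comm (Nat.gcdA k k'), mul_comm (Nat.gcdB k k'),
    ← Nat.gcd_eq_gcd_ab, Nat.Coprime.gcd_eq_one (Nat.Coprime.symm hcop), Nat.cast_one,
    one_smul] at h
  exact h

theorem smul_n_mem (o : p.O) : (I.n : ℤ) • o ∈ I.carrier :=
  natCast_mul_eq_smul I.n o ▸ I.mul_mem _ I.n_mem o

/-- A multiple of every element by the normalised norm of `z` is a multiple of `z`. -/
theorem exists_smul_eq_mul {z y : p.O} {k : ℤ} (hk : Elt.nrm z = I.n * k) {o : p.O}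
    (ho : Elt.conj z * y = (I.n : ℤ) • o) : k • y = z * o := by
  apply smul_injective_O I.n_ne
  rw [smul_smul, ← hk, ← mul_smul_comm, ← ho, ← mul_assoc, mul_conj_eq_smul, smul_mul_assoc,
    one_mul]

/-- The criterion of membership. -/
theorem mem_iff {z : p.O} {k : ℕ} (hz : z ∈ I.carrier) (hk : Elt.nrm z = I.n * k)
    (hcop : k.Coprime I.n) (y : p.O) :
    y ∈ I.carrier ↔ ∃ o : p.O, Elt.conj z * y = (I.n : ℤ) • o := by
  refine ⟨fun hy => I.dvd z hz y hy, fun ⟨o, ho⟩ => ?_⟩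
  have h1 : (k : ℤ) • y ∈ I.carrier := by
    rw [I.exists_smul_eq_mul hk ho]
    exact I.mul_mem z hz o
  have h := I.carrier.add_mem (I.zsmul_mem h1 (Nat.gcdA k I.n))
    (I.zsmul_mem (I.smul_n_mem y) (Nat.gcdB k I.n))
  rw [smul_smul, smul_smul, ← add_smul, mul_comm (Nat.gcdA k I.n), mul_comm (Nat.gcdB k I.n),
    ← Nat.gcd_eq_gcd_ab, hcop.gcd_eq_one, Nat.cast_one, one_smul] at h
  exact h

variable {I J}

theorem n_dvd_of_forall {A : AddSubgroup p.O} {n : ℕ}
    (h : ∀ m : ℕ, 0 < m → ∃ z ∈ A, ∃ k : ℕ, Elt.nrm z = n * k ∧ k.Coprime m) {n' : ℕ}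
    (hn' : 0 < n') (hd : ∀ z ∈ A, (n' : ℤ) ∣ Elt.nrm z) : n' ∣ n := by
  obtain ⟨z, hz, k, hk, hcop⟩ := h n' hn'
  have := hd z hz
  rw [hk, ← Nat.cast_mul, Int.natCast_dvd_natCast] at this
  exact hcop.symm.dvd_of_dvd_mul_right this

/-- An ideal is determined by its elements. -/
theorem ext (h : I.carrier = J.carrier) : I = J := by
  have h1 : J.n ∣ I.n := n_dvd_of_forall I.primitive J.n_pos fun z hz => J.nrm_dvd (h ▸ hz)
  have h2 : I.n ∣ J.n := n_dvd_of_forall J.primitive I.n_pos fun z hz => I.nrm_dvd (h ▸ hz)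
  obtain ⟨A, n, _, _, _, _⟩ := I
  obtain ⟨A', n', _, _, _, _⟩ := J
  obtain rfl : A = A' := h
  obtain rfl : n = n' := Nat.dvd_antisymm h2 h1
  rfl

variable (I)

/-- `x I` consists of the `x w` with `w ∈ I`. -/
theorem mem_scaled {x z : p.O} : z ∈ I.scaled x ↔ ∃ w ∈ I.carrier, x * w = z := by
  simp [scaled]

/-- `x I`, for `x` nonzero. -/
def mulLeft (x : p.O) (hx : x ≠ 0) : RIdeal p where
  carrier := I.scaled x
  n := (Elt.nrm x).natAbs * I.n
  n_pos := Nat.mul_pos (Int.natAbs_pos.mpr (nrm_ne_zero hx)) I.n_pos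
  mul_mem := by
    rintro _ ⟨w, hw, rfl⟩ a
    exact ⟨w * a, I.mul_mem w hw a, (mul_assoc _ _ _).symm⟩
  dvd := by
    rintro _ ⟨w, hw, rfl⟩ _ ⟨w', hw', rfl⟩
    obtain ⟨o, ho⟩ := I.dvd w hw w' hw'
    refine ⟨o, ?_⟩
    rw [Nat.cast_mul, Int.natAbs_of_nonneg (p.nrm_nonneg x), mul_smul, ← ho]
    show Elt.conj (x * w) * (x * w') = _
    rw [Elt.conj_mul, mul_assoc, ← mul_assoc (Elt.conj x), conj_mul_eq_smul, smul_mul_assoc,
      one_mul, mul_smul_comm]
  primitive m hm := by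
    obtain ⟨w, hw, k, hk, hcop⟩ := I.primitive m hm
    refine ⟨x * w, ⟨w, hw, rfl⟩, k, ?_, hcop⟩
    rw [Elt.nrm_mul, hk, Nat.cast_mul, Int.natAbs_of_nonneg (p.nrm_nonneg x), mul_assoc]

@[simp] theorem mulLeft_carrier (x : p.O) (hx : x ≠ 0) :
    (I.mulLeft x hx).carrier = I.scaled x := rfl

/-- The norm of `x I` is the norm of `x` times that of `I`. -/
@[simp] theorem mulLeft_n (x : p.O) (hx : x ≠ 0) :
    ((I.mulLeft x hx).n : ℤ) = Elt.nrm x * I.n := by
  show (((Elt.nrm x).natAbs * I.n : ℕ) : ℤ) = _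
  rw [Nat.cast_mul, Int.natAbs_of_nonneg (p.nrm_nonneg x)]

theorem scaled_mul (x y : p.O) : I.scaled (x * y) = (I.scaled y).map (AddMonoidHom.mulLeft x) := by
  rw [scaled, scaled, AddSubgroup.map_map]
  congr 1
  exact AddMonoidHom.ext fun w => mul_assoc x y w

variable {I}

/-- Equal scaled ideals have equal scaled norms. -/
theorem nrm_mul_n_eq {x y : p.O} (hx : x ≠ 0) (hy : y ≠ 0) (h : I.scaled x = J.scaled y) :
    Elt.nrm x * I.n = Elt.nrm y * J.n := by
  have e : I.mulLeft x hx = J.mulLeft y hy := RIdeal.ext h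
  rw [← I.mulLeft_n x hx, ← J.mulLeft_n y hy, e]

/-- Ideals are equivalent exactly when nonzero multiples of them have the same elements. -/
theorem rel_iff_exists {I J : RIdeal p} :
    Rel I J ↔ ∃ x y : p.O, x ≠ 0 ∧ y ≠ 0 ∧ I.scaled x = J.scaled y := by
  constructor
  · rintro ⟨z, hz, m, hm, h⟩
    exact ⟨z, m, fun e => hz (e ▸ Elt.nrm_zero), fun e => by
      have := congrArg Elt.a e
      simp at this
      omega, h⟩
  · rintro ⟨x, y, hx, hy, h⟩
    refine ⟨Elt.conj y * x, ?_, (Elt.nrm y).natAbs, Int.natAbs_pos.mpr (nrm_ne_zero hy), ?_⟩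
    · rw [Elt.nrm_mul, Elt.nrm_conj]
      exact mul_ne_zero (nrm_ne_zero hy) (nrm_ne_zero hx)
    · rw [scaled_mul, h, ← scaled_mul, natCast_eq_algebraMap,
        Int.natAbs_of_nonneg (p.nrm_nonneg y), ← Elt.conj_mul_self]

theorem rel_equivalence : Equivalence (Rel (p := p)) where
  refl I := ⟨1, by simp, 1, one_pos, by simp⟩
  symm {I J} h := by
    obtain ⟨x, y, hx, hy, e⟩ := rel_iff_exists.mp h
    exact rel_iff_exists.mpr ⟨y, x, hy, hx, e.symm⟩
  trans {I J L} h h' := by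
    obtain ⟨z, hz, m, hm, e⟩ := h
    obtain ⟨z', hz', m', hm', e'⟩ := h'
    refine ⟨z' * z, ?_, m * m', Nat.mul_pos hm hm', ?_⟩
    · rw [Elt.nrm_mul]
      exact mul_ne_zero hz' hz
    · rw [scaled_mul, e, ← scaled_mul, ← Nat.cast_comm m z', scaled_mul, e', ← scaled_mul,
        ← Nat.cast_mul]

/-- Two ideals have the same class exactly when they are equivalent. -/
theorem cls_eq_iff {I J : RIdeal p} : cls I = cls J ↔ Rel I J := by
  show Quot.mk _ I = Quot.mk _ J ↔ _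
  exact Quot.eq.trans rel_equivalence.eqvGen_iff

/-- `x I` has the class of `I`. -/
theorem cls_mulLeft (I : RIdeal p) (x : p.O) (hx : x ≠ 0) : cls (I.mulLeft x hx) = cls I := by
  refine cls_eq_iff.mpr (rel_iff_exists.mpr ⟨1, x, one_ne_zero, hx, ?_⟩)
  ext z
  simp [mem_scaled]

end RIdeal

/-- The class of a chosen representative. -/
@[simp] theorem cls_out (X : Cls p) : cls X.out = X := Quot.out_eq X

end Fermat.Agent.LT.Quat
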