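import Fermat.Agent.LT.Quat.Transport

/-!
# Conjugation by `i` on ideals and classes
-/

set_option autoImplicit false

namespace Fermat.Agent.LT.Quat

open Matrix

variable {p : Params}

theorem sigma_natCast (n : ℕ) : Elt.sigma (n : p.O) = n := map_natCast Elt.sigmaEquiv n

namespace RIdeal

variable (I : RIdeal p)

/-- The conjugate of an ideal by `i`. -/
def sigma : RIdeal p where
  carrier := I.carrier.comap (Elt.sigmaEquiv (k := p.k) (R := ℤ) : p.O →+* p.O).toAddMonoidHom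
  n := I.n
  n_pos := I.n_pos
  mul_mem z hz a := by
    show Elt.sigma (z * a) ∈ I.carrier
    rw [Elt.sigma_mul]
    exact I.mul_mem _ hz _
  dvd z hz z' hz' := by
    obtain ⟨o, ho⟩ := I.dvd _ hz _ hz'
    refine ⟨Elt.sigma o, ?_⟩
    have h := congrArg Elt.sigma ho
    change Elt.sigma (Elt.conj (Elt.sigma z) * Elt.sigma z') = _ at h
    rwa [Elt.sigma_mul, Elt.sigma_conj, Elt.sigma_sigma, Elt.sigma_sigma, Elt.sigma_smul] at h
  primitive m hm := by
    obtain ⟨z, hz, k, hk, hcop⟩ := I.primitive m hm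
    refine ⟨Elt.sigma z, ?_, k, by rw [Elt.nrm_sigma, hk], hcop⟩
    show Elt.sigma (Elt.sigma z) ∈ I.carrier
    rwa [Elt.sigma_sigma]

theorem mem_sigma {x : p.O} : x ∈ I.sigma.carrier ↔ Elt.sigma x ∈ I.carrier := Iff.rfl

@[simp] theorem sigma_n : I.sigma.n = I.n := rfl

@[simp] theorem sigma_sigma : I.sigma.sigma = I := by
  refine RIdeal.ext (AddSubgroup.ext fun x => ?_)
  rw [mem_sigma, mem_sigma, Elt.sigma_sigma]

theorem mem_scaled_sigma {z x : p.O} :
    x ∈ I.sigma.scaled (Elt.sigma z) ↔ Elt.sigma x ∈ I.scaled z := by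
  rw [mem_scaled, mem_scaled]
  constructor
  · rintro ⟨w, hw, rfl⟩
    exact ⟨Elt.sigma w, hw, by rw [Elt.sigma_mul, Elt.sigma_sigma]⟩
  · rintro ⟨w, hw, e⟩
    refine ⟨Elt.sigma w, by rwa [mem_sigma, Elt.sigma_sigma], ?_⟩
    rw [← Elt.sigma_mul, e, Elt.sigma_sigma]

theorem rel_sigma {I J : RIdeal p} (h : Rel I J) : Rel I.sigma J.sigma := by
  obtain ⟨z, hz, m, hm, e⟩ := h
  refine ⟨Elt.sigma z, by rwa [Elt.nrm_sigma], m, hm, AddSubgroup.ext fun x => ?_⟩
  rw [mem_scaled_sigma, e, ← sigma_natCast m, mem_scaled_sigma]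
  rw [sigma_natCast]

end RIdeal

/-- Conjugation by `i` on the classes. -/
def sigmaC : Cls p → Cls p := Quot.map RIdeal.sigma fun _ _ h => RIdeal.rel_sigma h

theorem sigmaC_cls (I : RIdeal p) : sigmaC (cls I) = cls I.sigma := rfl

@[simp] theorem sigmaC_sigmaC (X : Cls p) : sigmaC (sigmaC X) = X := by
  induction X using Quot.ind with | mk I => ?_
  show cls I.sigma.sigma = cls I
  rw [RIdeal.sigma_sigma]

/-- Conjugation of subideals. -/
def SubIdeal.sigmaEquiv (I : RIdeal p) (l : ℕ) : SubIdeal I l ≃ SubIdeal I.sigma l where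
  toFun J := ⟨J.1.sigma, fun _ hx => J.2.1 hx, J.2.2⟩
  invFun J := ⟨J.1.sigma, fun x hx => by
    have := RIdeal.mem_sigma I |>.mp (J.2.1 hx)
    change Elt.sigma (Elt.sigma x) ∈ I.carrier at this
    rwa [Elt.sigma_sigma] at this, J.2.2⟩
  left_inv J := Subtype.ext (RIdeal.sigma_sigma _)
  right_inv J := Subtype.ext (RIdeal.sigma_sigma _)

/-- The Brandt matrices commute with conjugation by `i`. -/
theorem brandt_mulVec_sigma {R : Type*} [CommRing R] (l : ℕ) (f : Cls p → R) :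
    (brandt p l).map (Int.cast : ℤ → R) *ᵥ (f ∘ sigmaC) =
      ((brandt p l).map (Int.cast : ℤ → R) *ᵥ f) ∘ sigmaC := by
  funext X
  induction X using Quot.ind with | mk I => ?_
  show _ = ((brandt p l).map (Int.cast : ℤ → R) *ᵥ f) (cls I.sigma)
  rw [show Quot.mk _ I = cls I from rfl, brandt_mulVec, brandt_mulVec,
    ← (SubIdeal.sigmaEquiv I l).sum_comp]
  rfl

end Fermat.Agent.LT.Quat
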