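import Fermat.Agent.LT.Quat.Field
import Fermat.Agent.LT.Quat.Sigma

/-!
# The ideals `a O` and their classes

For an ideal `a` of `ℤ[√-d]` the right ideal `a O` has norm `N a` and meets the field in `a`.
-/

set_option autoImplicit false

open scoped nonZeroDivisors

namespace Fermat.Agent.LT.Quat

variable {p : Params} {A : Type*} [CommRing A] [IsDedekindDomain A] [Module.Free ℤ A]
  [Module.Finite ℤ A] (e : A ≃+* p.OK)

/-- The products generating `a O`. -/
def iotaGen (a : Ideal A) : Set p.O := {z | ∃ x ∈ a, ∃ o : p.O, z = jA e x * o}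

theorem iotaGen_dvd (a : Ideal A) {z z' : p.O} (hz : z ∈ AddSubgroup.closure (iotaGen e a))
    (hz' : z' ∈ AddSubgroup.closure (iotaGen e a)) :
    ∃ o : p.O, Elt.conj z * z' = (Ideal.absNorm a : ℤ) • o := by
  induction hz using AddSubgroup.closure_induction with
  | mem z hz =>
    obtain ⟨x, hx, o, rfl⟩ := hz
    induction hz' using AddSubgroup.closure_induction with
    | mem z' hz' =>
      obtain ⟨x', hx', o', rfl⟩ := hz'
      obtain ⟨t, ht⟩ := cjA_mul_mem e hx hx'
      refine ⟨Elt.conj o * jA e t * o', ?_⟩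
      rw [Elt.conj_mul, conj_jA, mul_assoc, ← mul_assoc (jA e (cjA e x)), ← map_mul, ht, map_mul,
        map_natCast, natCast_mul_eq_smul, smul_mul_assoc, mul_smul_comm, mul_assoc]
    | zero => exact ⟨0, by simp⟩
    | add u v _ _ hu hv =>
      obtain ⟨o₁, h₁⟩ := hu
      obtain ⟨o₂, h₂⟩ := hv
      exact ⟨o₁ + o₂, by rw [mul_add, h₁, h₂, smul_add]⟩
    | neg u _ hu =>
      obtain ⟨o₁, h₁⟩ := hu
      exact ⟨-o₁, by rw [mul_neg, h₁, smul_neg]⟩
  | zero => exact ⟨0, by simp⟩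
  | add u v _ _ hu hv =>
    obtain ⟨o₁, h₁⟩ := hu
    obtain ⟨o₂, h₂⟩ := hv
    exact ⟨o₁ + o₂, by rw [Elt.conj_add, add_mul, h₁, h₂, smul_add]⟩
  | neg u _ hu =>
    obtain ⟨o₁, h₁⟩ := hu
    exact ⟨-o₁, by rw [← zero_sub, Elt.conj_sub, Elt.conj_zero, zero_sub, neg_mul, h₁, smul_neg]⟩

/-- `a O`. -/
noncomputable def iota (a : (Ideal A)⁰) : RIdeal p where
  carrier := AddSubgroup.closure (iotaGen e (a : Ideal A))
  n := Ideal.absNorm (a : Ideal A)
  n_pos := Ideal.absNorm_pos_of_nonZeroDivisors a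
  mul_mem z hz o := by
    induction hz using AddSubgroup.closure_induction with
    | mem z hz =>
      obtain ⟨x, hx, o', rfl⟩ := hz
      exact AddSubgroup.subset_closure ⟨x, hx, o' * o, mul_assoc _ _ _⟩
    | zero => rw [zero_mul]; exact zero_mem _
    | add u v _ _ hu hv => rw [add_mul]; exact add_mem hu hv
    | neg u _ hu => rw [neg_mul]; exact neg_mem hu
  dvd z hz z' hz' := iotaGen_dvd e _ hz hz'
  primitive m hm := by
    obtain ⟨x, hx, k, hk, hcop⟩ := exists_coprime_mem e (nonZeroDivisors.coe_ne_zero a) hm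
    exact ⟨jA e x, AddSubgroup.subset_closure ⟨x, hx, 1, (mul_one _).symm⟩, k,
      by rw [nrm_jA, hk], hcop⟩

variable {e}

@[simp] theorem iota_n (a : (Ideal A)⁰) : (iota e a).n = Ideal.absNorm (a : Ideal A) := rfl

/-- Elements of `a` lie in the right ideal `a O`. -/
theorem jA_mem_iota {a : (Ideal A)⁰} {x : A} (hx : x ∈ (a : Ideal A)) :
    jA e x ∈ (iota e a).carrier :=
  AddSubgroup.subset_closure ⟨x, hx, 1, (mul_one _).symm⟩

theorem iota_le_of {a : (Ideal A)⁰} {B : AddSubgroup p.O}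
    (h : ∀ x ∈ (a : Ideal A), ∀ o : p.O, jA e x * o ∈ B) : (iota e a).carrier ≤ B :=
  (AddSubgroup.closure_le _).mpr fun _z ⟨x, hx, o, e'⟩ => e' ▸ h x hx o

theorem iota_le_carrier {a : (Ideal A)⁰} {I : RIdeal p}
    (h : ∀ x ∈ (a : Ideal A), jA e x ∈ I.carrier) : (iota e a).carrier ≤ I.carrier :=
  iota_le_of fun x hx o => I.mul_mem _ (h x hx) o

omit [IsDedekindDomain A] [Module.Free ℤ A] [Module.Finite ℤ A] in
theorem exists_natCast_mul_of_dvd {n : ℕ} {y : A} (ha : (n : ℤ) ∣ (e y).re)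
    (hb : (n : ℤ) ∣ (e y).im) : ∃ t : A, y = (n : A) * t := by
  obtain ⟨u, hu⟩ := ha
  obtain ⟨v, hv⟩ := hb
  refine ⟨e.symm ⟨u, v⟩, e.injective ?_⟩
  rw [map_mul, map_natCast, e.apply_symm_apply]
  ext <;> simp [hu, hv]

/-- `a O` meets the field in `a`. -/
theorem jA_mem_iota_iff {a : (Ideal A)⁰} {y : A} :
    jA e y ∈ (iota e a).carrier ↔ y ∈ (a : Ideal A) := by
  refine ⟨fun h => ?_, jA_mem_iota⟩
  obtain ⟨x, hx, k, hk, hcop⟩ := exists_coprime_mem e (nonZeroDivisors.coe_ne_zero a)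
    (Ideal.absNorm_pos_of_nonZeroDivisors a)
  obtain ⟨o, ho⟩ := (iota e a).dvd _ (jA_mem_iota hx) _ h
  rw [conj_jA, ← map_mul] at ho
  obtain ⟨t, ht⟩ : ∃ t : A, cjA e x * y = (Ideal.absNorm (a : Ideal A) : A) * t :=
    exists_natCast_mul_of_dvd (e := e)
      ⟨o.a, by rw [← jA_a e, ho, Elt.smul_a, smul_eq_mul]; rfl⟩
      ⟨o.b, by rw [← jA_b e, ho, Elt.smul_b, smul_eq_mul]; rfl⟩
  have hky : (k : A) * y ∈ (a : Ideal A) := by
    have hn : (Ideal.absNorm (a : Ideal A) : A) ≠ 0 := fun h0 => by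
      have h' := congrArg (fun z => (e z).re) h0
      simp at h'
      exact (Ideal.absNorm_pos_of_nonZeroDivisors a).ne' h'
    have e1 : (k : A) * y = x * t := by
      refine mul_left_cancel₀ hn ?_
      have h2 : x * (cjA e x * y) = x * ((Ideal.absNorm (a : Ideal A) : A) * t) := by rw [ht]
      rw [← mul_assoc, mul_comm x (cjA e x), cjA_mul_self, hk] at h2
      push_cast at h2
      linear_combination h2
    rw [e1]
    exact Ideal.mul_mem_right _ _ hx
  have h1 := Ideal.add_mem _ (Ideal.mul_mem_left _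
    ((Nat.gcdA k (Ideal.absNorm (a : Ideal A)) : ℤ) : A) hky)
    (Ideal.mul_mem_left _ ((Nat.gcdB k (Ideal.absNorm (a : Ideal A)) : ℤ) : A)
      (Ideal.mul_mem_right y _ (Ideal.absNorm_mem (a : Ideal A))))
  have hg := congrArg (fun t : ℤ => (t : A)) (Nat.gcd_eq_gcd_ab k (Ideal.absNorm (a : Ideal A)))
  simp only [hcop.gcd_eq_one] at hg
  push_cast at hg
  convert h1 using 1
  linear_combination y * hg

theorem iota_injective {a b : (Ideal A)⁰} (h : (iota e a).carrier = (iota e b).carrier) : a = b :=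
  Subtype.ext (Ideal.ext fun y => by rw [← jA_mem_iota_iff (e := e), h, jA_mem_iota_iff])

theorem iota_mono {a b : (Ideal A)⁰} (h : (a : Ideal A) ≤ b) :
    (iota e a).carrier ≤ (iota e b).carrier :=
  iota_le_carrier fun _ hx => jA_mem_iota (h hx)

/-- Conjugation by `i` fixes the right ideals coming from the quadratic order. -/
theorem sigma_iota (a : (Ideal A)⁰) : (iota e a).sigma = iota e a := by
  have h : ∀ z ∈ (iota e a).carrier, Elt.sigma z ∈ (iota e a).carrier := by
    intro z hz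
    induction hz using AddSubgroup.closure_induction with
    | mem z hz =>
      obtain ⟨x, hx, o, rfl⟩ := hz
      rw [Elt.sigma_mul, sigma_jA]
      exact RIdeal.mul_mem _ _ (jA_mem_iota hx) _
    | zero => rw [← Nat.cast_zero, sigma_natCast, Nat.cast_zero]; exact zero_mem _
    | add u v _ _ hu hv => rw [Elt.sigma_add]; exact add_mem hu hv
    | neg u _ hu =>
      rw [← Elt.sigmaEquiv_apply, map_neg, Elt.sigmaEquiv_apply]
      exact neg_mem hu
  refine RIdeal.ext (AddSubgroup.ext fun z => ⟨fun hz => ?_, fun hz => h z hz⟩)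
  have := h _ ((RIdeal.mem_sigma _).mp hz)
  rwa [Elt.sigma_sigma] at this

theorem iota_span_mul (x : A) (a : (Ideal A)⁰) (b : (Ideal A)⁰)
    (hb : (b : Ideal A) = Ideal.span {x} * (a : Ideal A)) :
    (iota e b).carrier = (iota e a).scaled (jA e x) := by
  refine le_antisymm (iota_le_of fun y hy o => ?_) ?_
  · rw [hb] at hy
    obtain ⟨z, hz, rfl⟩ := Ideal.mem_span_singleton_mul.mp hy
    exact ⟨jA e z * o, RIdeal.mul_mem _ _ (jA_mem_iota hz) _, by
      show jA e x * (jA e z * o) = _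
      rw [map_mul, mul_assoc]⟩
  · rintro _ ⟨z, hz, rfl⟩
    show jA e x * z ∈ (iota e b).carrier
    induction hz using AddSubgroup.closure_induction with
    | mem z hz =>
      obtain ⟨y, hy, o, rfl⟩ := hz
      rw [← mul_assoc, ← map_mul]
      refine RIdeal.mul_mem _ _ (jA_mem_iota ?_) _
      rw [hb]
      exact Ideal.mul_mem_mul (Ideal.mem_span_singleton_self x) hy
    | zero => rw [mul_zero]; exact zero_mem _
    | add u v _ _ hu hv => rw [mul_add]; exact add_mem hu hv
    | neg u _ hu => rw [mul_neg]; exact neg_mem hu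

theorem cls_iota_eq {a b : (Ideal A)⁰} (h : ClassGroup.mk0 a = ClassGroup.mk0 b) :
    cls (iota e a) = cls (iota e b) := by
  obtain ⟨x, y, hx, hy, hxy⟩ := ClassGroup.mk0_eq_mk0_iff.mp h
  have hx' : Ideal.span {x} ∈ (Ideal A)⁰ :=
    mem_nonZeroDivisors_of_ne_zero (by simpa using hx)
  refine RIdeal.cls_eq_iff.mpr (RIdeal.rel_iff_exists.mpr ⟨jA e x, jA e y,
    fun h0 => hx (jA_injective e (h0.trans (map_zero _).symm)),
    fun h0 => hy (jA_injective e (h0.trans (map_zero _).symm)), ?_⟩)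
  obtain ⟨c, hc⟩ : ∃ c : (Ideal A)⁰, (c : Ideal A) = Ideal.span {x} * (a : Ideal A) :=
    ⟨⟨Ideal.span {x} * (a : Ideal A), mul_mem hx' a.2⟩, rfl⟩
  rw [← iota_span_mul x a c hc, ← iota_span_mul y b c (hc.trans hxy)]

variable (e)

/-- The map on classes. -/
noncomputable def iotaC (C : ClassGroup A) : Cls p :=
  cls (iota e (Function.surjInv ClassGroup.mk0_surjective C))

theorem iotaC_mk0 (a : (Ideal A)⁰) : iotaC e (ClassGroup.mk0 a) = cls (iota e a) :=
  cls_iota_eq (Function.surjInv_eq ClassGroup.mk0_surjective _)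

theorem sigmaC_iotaC (C : ClassGroup A) : sigmaC (iotaC e C) = iotaC e C := by
  rw [iotaC, sigmaC_cls, sigma_iota]

end Fermat.Agent.LT.Quat
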