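import Fermat.Agent.LT.Quat.Shift
import Fermat.Agent.LT.Theta.Bridge.Commute

/-!
# Orbits of the translations
-/

set_option autoImplicit false

namespace Fermat.Agent.LT.Quat

variable {p : Params}

theorem RIdeal.isShift_shift (I : RIdeal p) {q : ℕ} (hq : q ∈ p.T) :
    I.IsShift q (I.shift hq) := by
  refine ⟨I.shift_n hq, fun x => ?_⟩
  rw [I.mem_shift hq]
  refine and_congr_right fun hx => ?_
  rw [I.nrm_eq hx, mul_comm q, Nat.cast_mul, mul_dvd_mul_iff_left I.n_ne]

theorem RIdeal.sigma_shift (I : RIdeal p) {q : ℕ} (hq : q ∈ p.T) :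
    (I.shift hq).sigma = I.sigma.shift hq :=
  (I.isShift_shift hq).sigma.unique (I.sigma.isShift_shift hq)

theorem sigmaC_shiftPerm (q : ℕ) (X : Cls p) :
    sigmaC (p.shiftPerm q X) = p.shiftPerm q (sigmaC X) := by
  by_cases hq : q ∈ p.T
  · obtain ⟨I, rfl⟩ : ∃ I, cls I = X := ⟨X.out, cls_out X⟩
    rw [p.shiftPerm_cls hq, sigmaC_cls, sigmaC_cls, p.shiftPerm_cls hq, RIdeal.sigma_shift]
  · simp [Params.shiftPerm, hq]

theorem commute_shiftPerm (q s : ℕ) : Commute (p.shiftPerm q) (p.shiftPerm s) :=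
  Equiv.ext fun X => p.shiftPerm_comm q s X

/-- The composite of the translations at the primes of a finite set. -/
noncomputable def shiftProd (p : Params) (S : Finset ℕ) : Equiv.Perm (Cls p) :=
  S.noncommProd p.shiftPerm fun q _ s _ _ => commute_shiftPerm q s

theorem shiftProd_insert {S : Finset ℕ} {q : ℕ} (h : q ∉ S) (X : Cls p) :
    shiftProd p (insert q S) X = p.shiftPerm q (shiftProd p S X) := by
  rw [shiftProd, Finset.noncommProd_insert_of_notMem _ _ _ _ h]
  rfl

theorem shiftProd_empty (X : Cls p) : shiftProd p ∅ X = X := by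
  rw [shiftProd, Finset.noncommProd_empty]
  rfl

/-- A composite of translations is given by a translate. -/
theorem exists_isShift (I : RIdeal p) {S : Finset ℕ} (hS : S ⊆ p.T) :
    ∃ J, I.IsShift (∏ q ∈ S, q) J ∧ cls J = shiftProd p S (cls I) := by
  induction S using Finset.induction_on with
  | empty => exact ⟨I, by rw [Finset.prod_empty]; exact RIdeal.isShift_one I,
      (shiftProd_empty _).symm⟩
  | @insert q S hq ih =>
    obtain ⟨hqT, hST⟩ := Finset.insert_subset_iff.mp hS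
    obtain ⟨J, hJ, hcls⟩ := ih hST
    refine ⟨J.shift hqT, ?_, ?_⟩
    · rw [Finset.prod_insert hq, mul_comm]
      exact hJ.trans (J.isShift_shift hqT)
    · rw [shiftProd_insert hq, ← hcls, p.shiftPerm_cls hqT]

theorem sigmaC_shiftProd (S : Finset ℕ) (X : Cls p) :
    sigmaC (shiftProd p S X) = shiftProd p S (sigmaC X) := by
  induction S using Finset.induction_on with
  | empty => rw [shiftProd_empty, shiftProd_empty]
  | @insert q S hq ih => rw [shiftProd_insert hq, shiftProd_insert hq, sigmaC_shiftPerm, ih]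

/-- The orbit of a class under the translations. -/
def shiftOrbit (X₀ : Cls p) : Set (Cls p) := {X | ∃ S ⊆ p.T, shiftProd p S X₀ = X}

theorem mem_shiftOrbit_self (X₀ : Cls p) : X₀ ∈ shiftOrbit X₀ :=
  ⟨∅, Finset.empty_subset _, shiftProd_empty _⟩

theorem shiftPerm_mem_shiftOrbit {X₀ X : Cls p} (h : X ∈ shiftOrbit X₀) {q : ℕ} (hq : q ∈ p.T) :
    p.shiftPerm q X ∈ shiftOrbit X₀ := by
  obtain ⟨S, hS, rfl⟩ := h
  by_cases hqS : q ∈ S
  · refine ⟨S.erase q, (Finset.erase_subset _ _).trans hS, ?_⟩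
    conv_rhs => rw [← Finset.insert_erase hqS, shiftProd_insert (Finset.notMem_erase q S)]
    exact (p.shiftPerm_involutive q _).symm
  · exact ⟨insert q S, Finset.insert_subset hq hS, shiftProd_insert hqS _⟩

theorem shiftPerm_mem_shiftOrbit_iff {X₀ X : Cls p} {q : ℕ} (hq : q ∈ p.T) :
    p.shiftPerm q X ∈ shiftOrbit X₀ ↔ X ∈ shiftOrbit X₀ := by
  refine ⟨fun h => ?_, fun h => shiftPerm_mem_shiftOrbit h hq⟩
  have := shiftPerm_mem_shiftOrbit h hq
  rwa [p.shiftPerm_involutive q X] at this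

theorem sigmaC_mem_shiftOrbit_iff {X₀ X : Cls p} (h₀ : sigmaC X₀ = X₀) :
    sigmaC X ∈ shiftOrbit X₀ ↔ X ∈ shiftOrbit X₀ := by
  have key : ∀ Y ∈ shiftOrbit X₀, sigmaC Y ∈ shiftOrbit X₀ := by
    rintro _ ⟨S, hS, rfl⟩
    exact ⟨S, hS, by rw [sigmaC_shiftProd, h₀]⟩
  exact ⟨fun h => sigmaC_sigmaC X ▸ key _ h, key X⟩

end Fermat.Agent.LT.Quat
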