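import Fermat.Agent.LT.Quat.Sigma
import Fermat.Agent.LT.Theta.Bridge.Units

/-!
# Translates of ideals; elements with equal images of an ideal
-/

set_option autoImplicit false

namespace Fermat.Agent.LT.Quat

variable {p : Params}

namespace RIdeal

/-- `J` is the translate of `I` by `D`: its elements are those of `I` of norm divisible by
`D n_I`. -/
structure IsShift (I : RIdeal p) (D : ℕ) (J : RIdeal p) : Prop where
  n_eq : J.n = D * I.n
  mem_iff : ∀ x, x ∈ J.carrier ↔ x ∈ I.carrier ∧ ((D * I.n : ℕ) : ℤ) ∣ Elt.nrm x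

/-- A translate is contained in the ideal. -/
theorem IsShift.le {I J : RIdeal p} {D : ℕ} (h : IsShift I D J) : J.carrier ≤ I.carrier :=
  fun x hx => ((h.mem_iff x).mp hx).1

theorem isShift_one (I : RIdeal p) : IsShift I 1 I :=
  ⟨(one_mul _).symm, fun x => ⟨fun hx => ⟨hx, by rw [one_mul]; exact I.nrm_dvd hx⟩, And.left⟩⟩

theorem IsShift.unique {I J J' : RIdeal p} {D : ℕ} (h : IsShift I D J) (h' : IsShift I D J') :
    J = J' :=
  RIdeal.ext (AddSubgroup.ext fun x => (h.mem_iff x).trans (h'.mem_iff x).symm)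

/-- Translates compose, multiplying their degrees. -/
theorem IsShift.trans {I J K : RIdeal p} {D E : ℕ} (h : IsShift I D J) (h' : IsShift J E K) :
    IsShift I (D * E) K := by
  refine ⟨by rw [h'.n_eq, h.n_eq]; ring, fun x => ?_⟩
  rw [h'.mem_iff, h.mem_iff, h.n_eq, show E * (D * I.n) = D * E * I.n by ring]
  refine ⟨fun ⟨⟨hx, _⟩, hE⟩ => ⟨hx, hE⟩, fun ⟨hx, hDE⟩ => ⟨⟨hx, ?_⟩, hDE⟩⟩
  exact (Int.natCast_dvd_natCast.mpr ⟨E, by ring⟩).trans hDE

theorem IsShift.sigma {I J : RIdeal p} {D : ℕ} (h : IsShift I D J) :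
    IsShift I.sigma D J.sigma :=
  ⟨h.n_eq, fun x => by
    rw [RIdeal.mem_sigma, h.mem_iff, RIdeal.mem_sigma, sigma_n, Elt.nrm_sigma]⟩

/-- Two elements with the same image of an ideal differ by a sign: the units are `±1`. -/
theorem eq_or_eq_neg_of_scaled_eq {I : RIdeal p} {z z' : p.O} (hz : z ≠ 0) (hz' : z' ≠ 0)
    (h : I.scaled z = I.scaled z') : z' = z ∨ z' = -z := by
  have hN : Elt.nrm z = Elt.nrm z' := mul_right_cancel₀ I.n_ne (nrm_mul_n_eq hz hz' h)
  have hN0 : ((Elt.nrm z : ℤ) : ℚ) ≠ 0 := Int.cast_ne_zero.mpr (nrm_ne_zero hz)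
  set δ : p.H := ((Elt.nrm z : ℤ) : ℚ)⁻¹ • p.toH (Elt.conj z * z') with hδ
  have hmem : δ ∈ Theta.homSet p.normOrder.nrmHom (I.toIdl.lat : Set p.H)
      (I.toIdl.lat : Set p.H) 1 := by
    constructor
    · rintro _ ⟨w, hw, rfl⟩
      obtain ⟨w', hw', e⟩ : z' * w ∈ I.scaled z := h.symm ▸ ⟨w, hw, rfl⟩
      change z * w' = z' * w at e
      refine ⟨w', hw', ?_⟩
      show p.toH w' = δ * p.toH w
      rw [hδ, smul_mul_assoc, ← map_mul, mul_assoc, ← e, ← mul_assoc, conj_mul_eq_smul,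
        smul_mul_assoc, one_mul, p.toH_zsmul, inv_smul_smul₀ hN0]
    · show Elt.nrm δ = 1
      rw [hδ, Elt.nrm_smul, p.nrm_toH, Elt.nrm_mul, Elt.nrm_conj, ← hN]
      push_cast
      field_simp
  rw [homSet_self_eq] at hmem
  have hkey : ∀ s : ℤ, δ = (s : ℚ) • (1 : p.H) → z' = s • z := fun s hs => by
    have h1 : Elt.conj z * z' = Elt.nrm z • (s • (1 : p.O)) := p.toH_injective <| by
      rw [p.toH_zsmul, p.toH_zsmul, map_one, ← hs, hδ, smul_inv_smul₀ hN0]
    have h2 := congrArg (fun w => z * w) h1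
    simp only [← mul_assoc, mul_conj_eq_smul, smul_mul_assoc, one_mul, mul_smul_comm,
      mul_one] at h2
    exact smul_injective_O (nrm_ne_zero hz) h2
  rcases hmem with h1 | h1
  · exact Or.inl (by simpa using hkey 1 (by simpa using h1))
  · exact Or.inr (by simpa using hkey (-1) (by simpa using h1))

end RIdeal

end Fermat.Agent.LT.Quat
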