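import Fermat.Agent.LT.Quat.Anti
import Fermat.Agent.LT.Quat.Shift

/-!
# The classes of the field meeting an orbit of translations

If a translate of `b O` is equivalent to `a O`, the class of `b` is that of `a` or that of
`a⁻¹ 𝔯`: the equivalence is given by an element commuting or anticommuting with `√-d`, as the
units are `±1`.
-/

set_option autoImplicit false

open scoped nonZeroDivisors

namespace Fermat.Agent.LT.Quat

variable {p : Params} {A : Type*} [CommRing A] [IsDedekindDomain A] [Module.Free ℤ A]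
  [Module.Finite ℤ A] {e : A ≃+* p.OK}

theorem dvd_P_sqrt {D : ℕ} (hD : D ∣ p.P) {u v : ℤ} (h : (D : ℤ) ∣ u ^ 2 + p.d * v ^ 2) :
    (D : ℤ) ∣ u ∧ (D : ℤ) ∣ v := by
  have hsq : Squarefree D := by
    refine Squarefree.squarefree_of_dvd hD ?_
    rw [Params.P]
    exact Finset.squarefree_prod_of_pairwise_isCoprime
      (fun q hq q' hq' hne => Nat.coprime_iff_isRelPrime.mp
        ((Nat.coprime_primes (p.T_prime q hq).1 (p.T_prime q' hq').1).mpr hne))
      fun q hq => (p.T_prime q hq).1.squarefree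
  have hq : ∀ q ∈ D.primeFactors, (q : ℤ) ∣ u ∧ (q : ℤ) ∣ v := by
    intro q hq
    obtain ⟨hqp, hqD, -⟩ := Nat.mem_primeFactors.mp hq
    have : Fact q.Prime := ⟨hqp⟩
    obtain ⟨q', hq'T, hqq'⟩ := (hqp.prime.dvd_finsetProd_iff _).mp (hqD.trans hD)
    obtain rfl : q = q' := (Nat.prime_dvd_prime_iff_eq hqp (p.T_prime q' hq'T).1).mp hqq'
    refine jacobiSym.prime_dvd_of_eq_neg_one (p.T_prime q hq'T).2.2.2 ?_
    rw [neg_mul, sub_neg_eq_add]
    exact (Int.natCast_dvd_natCast.mpr hqD).trans h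
  have hprod : (D : ℤ) = ((∏ q ∈ D.primeFactors, q : ℕ) : ℤ) := by
    rw [Nat.prod_primeFactors_of_squarefree hsq]
  rw [hprod, Int.natCast_dvd, Int.natCast_dvd]
  constructor <;>
  · refine Finset.prod_primes_dvd _ (fun q hq' => (Nat.prime_of_mem_primeFactors hq').prime)
      fun q hq' => ?_
    first
      | exact Int.natCast_dvd.mp (hq q hq').1
      | exact Int.natCast_dvd.mp (hq q hq').2

/-- The elements of `b` of norm divisible by `D N b` are those of `D b`. -/
theorem mem_span_mul_of_dvd {D : ℕ} (hD : D ∣ p.P) {b : (Ideal A)⁰} {y : A}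
    (hy : y ∈ (b : Ideal A))
    (hdvd : ((D * Ideal.absNorm (b : Ideal A) : ℕ) : ℤ) ∣ nA e y) :
    y ∈ Ideal.span {(D : A)} * (b : Ideal A) := by
  set n := Ideal.absNorm (b : Ideal A)
  have hn0 : 0 < n := Ideal.absNorm_pos_of_nonZeroDivisors b
  have hD0 : 0 < D := Nat.pos_of_ne_zero fun h => by simp [h, p.P_pos.ne'] at hD
  obtain ⟨x, hx, k, hk, hcop⟩ := exists_coprime_mem e (nonZeroDivisors.coe_ne_zero b) hD0
  obtain ⟨t, ht⟩ := cjA_mul_mem e hx hy
  obtain ⟨s, hs⟩ := hdvd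
  have hn : (n : ℤ) ≠ 0 := by exact_mod_cast hn0.ne'
  have hNt : nA e t = k * D * s := by
    have h := congrArg (fun z => Elt.nrm (jA e z)) ht
    simp only [map_mul, Elt.nrm_mul, ← conj_jA, Elt.nrm_conj, nrm_jA, map_natCast, nrm_natCast,
      hk, hs] at h
    push_cast at h
    refine mul_left_cancel₀ (pow_ne_zero 2 hn) ?_
    linear_combination -h
  obtain ⟨h1, h2⟩ := dvd_P_sqrt hD (u := (e t).re) (v := (e t).im) (by
    have : nA e t = (e t).re ^ 2 + p.d * (e t).im ^ 2 := rfl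
    rw [← this, hNt]
    exact ⟨k * s, by ring⟩)
  obtain ⟨t', rfl⟩ := exists_natCast_mul_of_dvd h1 h2
  -- `k y = D x t'` and `D y` lie in `D b`, and `k` is prime to `D`
  have hky : (k : A) * y ∈ Ideal.span {(D : A)} * (b : Ideal A) := by
    have e1 : (k : A) * y = (D : A) * (x * t') := by
      refine mul_left_cancel₀ (natCast_ne_zero_A e (by exact_mod_cast hn)) ?_
      have h2 : x * (cjA e x * y) = x * ((n : A) * ((D : A) * t')) := by rw [ht]
      rw [← mul_assoc, mul_comm x (cjA e x), cjA_mul_self, hk] at h2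
      push_cast at h2
      linear_combination h2
    rw [e1]
    exact Ideal.mul_mem_mul (Ideal.mem_span_singleton_self _) (Ideal.mul_mem_right _ _ hx)
  exact mem_of_coprime_mul_mem hcop hky (Ideal.mul_mem_mul (Ideal.mem_span_singleton_self _) hy)

/-- A translate of `b O` equivalent to `a O` by an element commuting with `√-d`: the classes of `a`
and `b` agree. -/
private theorem mk0_eq_of_commute {a b : (Ideal A)⁰} {D m : ℕ} (hD : D ∣ p.P) {J : RIdeal p}
    (hJ : (iota e b).IsShift D J) {β : A} (hm : 0 < m) (hz : jA e β ≠ 0)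
    (he : (iota e a).scaled (jA e β) = J.scaled (m : p.O))
    (key : Elt.nrm (jA e β) * Ideal.absNorm (a : Ideal A) =
      (m : ℤ) ^ 2 * (D * Ideal.absNorm (b : Ideal A))) :
    ClassGroup.mk0 b = ClassGroup.mk0 a := by
  set nb := Ideal.absNorm (b : Ideal A)
  have hnb : (nb : ℤ) ≠ 0 := by exact_mod_cast (Ideal.absNorm_pos_of_nonZeroDivisors b).ne'
  have hm0 : (m : ℤ) ≠ 0 := by exact_mod_cast hm.ne'
  have hD0 : 0 < D := Nat.pos_of_ne_zero fun h0 => by simp [h0, p.P_pos.ne'] at hD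
  -- `β a ⊆ m D b`: the norms then force `D = 1` and equality
  have hincl : Ideal.span {β} * (a : Ideal A) ≤
      Ideal.span {((m * D : ℕ) : A)} * (b : Ideal A) := by
    intro y hy
    obtain ⟨α, hα, rfl⟩ := Ideal.mem_span_singleton_mul.mp hy
    obtain ⟨w, hw, hwe⟩ := SubIdeal.exists_lift he (jA_mem_iota (e := e) hα)
    rw [← map_mul] at hwe
    have hwx : w.x = 0 := by
      have := congrArg Elt.x hwe
      rw [natCast_mul_eq_smul, Elt.smul_x, smul_eq_mul, jA_x] at this
      exact (mul_eq_zero.mp this).resolve_left hm0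
    have hwy : w.y = 0 := by
      have := congrArg Elt.y hwe
      rw [natCast_mul_eq_smul, Elt.smul_y, smul_eq_mul, jA_y] at this
      exact (mul_eq_zero.mp this).resolve_left hm0
    obtain ⟨t, rfl⟩ := exists_jA_eq e hwx hwy
    obtain ⟨htb, htd⟩ := (hJ.mem_iff _).mp hw
    rw [iota_n, nrm_jA] at htd
    have ht := mem_span_mul_of_dvd hD (jA_mem_iota_iff.mp htb) htd
    rw [← map_natCast (jA e), ← map_mul] at hwe
    rw [← jA_injective e hwe, Nat.cast_mul, ← Ideal.span_singleton_mul_span_singleton, mul_assoc]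
    exact Ideal.mul_mem_mul (Ideal.mem_span_singleton_self _) ht
  have hN : (Ideal.absNorm (Ideal.span {β} * (a : Ideal A)) : ℤ) = (m : ℤ) ^ 2 * (D * nb) := by
    rw [map_mul, Nat.cast_mul, absNorm_span, ← nrm_jA, key]
  have hN' : (Ideal.absNorm (Ideal.span {((m * D : ℕ) : A)} * (b : Ideal A)) : ℤ) =
      (m : ℤ) ^ 2 * (D ^ 2 * nb) := by
    rw [map_mul, absNorm_span_nat e]
    push_cast
    ring
  have hdvd : (Ideal.absNorm (Ideal.span {((m * D : ℕ) : A)} * (b : Ideal A)) : ℤ) ∣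
      Ideal.absNorm (Ideal.span {β} * (a : Ideal A)) :=
    Int.natCast_dvd_natCast.mpr (Ideal.absNorm_dvd_absNorm_of_le hincl)
  rw [hN, hN', mul_dvd_mul_iff_left (pow_ne_zero 2 hm0), mul_dvd_mul_iff_right hnb] at hdvd
  have hD1 : D = 1 := by
    have := Nat.le_of_dvd hD0 (Int.natCast_dvd_natCast.mp (by exact_mod_cast hdvd) : D ^ 2 ∣ D)
    nlinarith
  subst hD1
  have hβ : β ≠ 0 := fun h0 => hz (by rw [h0, map_zero])
  have hmA : ((m * 1 : ℕ) : A) ≠ 0 := natCast_ne_zero_A e (by omega)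
  refine (ClassGroup.mk0_eq_mk0_iff.mpr ⟨β, _, hβ, hmA, ?_⟩).symm
  refine eq_of_le_of_absNorm_eq hincl ?_ ?_
  · exact mul_ne_zero (by simpa using hmA) (nonZeroDivisors.coe_ne_zero b)
  · exact_mod_cast hN.trans ((by ring : (m : ℤ) ^ 2 * ((1 : ℕ) * nb) = _).trans hN'.symm)

/-- A translate of `b O` equivalent to `a O` by an element anticommuting with `√-d`: the class of
`b` is that of `a⁻¹ 𝔯`. -/
private theorem mk0_eq_of_anti {a b : (Ideal A)⁰} {D m : ℕ} (hD : D ∣ p.P) {J : RIdeal p}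
    (hJ : (iota e b).IsShift D J) {z : p.O} (hm : 0 < m) (hz : z ≠ 0)
    (he : (iota e a).scaled z = J.scaled (m : p.O)) (hneg : Elt.sigma z = -z)
    (key : Elt.nrm z * Ideal.absNorm (a : Ideal A) =
      (m : ℤ) ^ 2 * (D * Ideal.absNorm (b : Ideal A))) :
    ClassGroup.mk0 b = (ClassGroup.mk0 a)⁻¹ * frakrClass e := by
  set na := Ideal.absNorm (a : Ideal A)
  set nb := Ideal.absNorm (b : Ideal A)
  have hnb : (nb : ℤ) ≠ 0 := by exact_mod_cast (Ideal.absNorm_pos_of_nonZeroDivisors b).ne'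
  have hm0 : (m : ℤ) ≠ 0 := by exact_mod_cast hm.ne'
  have hD0 : 0 < D := Nat.pos_of_ne_zero fun h0 => by simp [h0, p.P_pos.ne'] at hD
  obtain ⟨β, -, hrz⟩ := exists_sigma_neg e hneg
  -- `β ā ⊆ m b (r, c - √-d)`: the norms then force equality
  have hincl : Ideal.span {β} * (a : Ideal A).map (cjA e : A →+* A) ≤
      Ideal.span {(m : A)} * ((b : Ideal A) * rbar e) := by
    intro y hy
    obtain ⟨α', hα', rfl⟩ := Ideal.mem_span_singleton_mul.mp hy
    obtain ⟨α, hα, rfl⟩ := (Ideal.mem_map_iff_of_surjective _ (cjA e).surjective).mp hα'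
    -- `z α = m w` with `w` in `J`; then `σ w = -w`, so `r w = γ j` and `β ᾱ = m γ`
    obtain ⟨w, hw, hwe⟩ := SubIdeal.exists_lift he (jA_mem_iota (e := e) hα)
    have hws : Elt.sigma w = -w := by
      refine mul_left_cancel₀ (natCast_ne_zero_O hm) ?_
      rw [mul_neg, hwe, ← sigma_natCast m, ← Elt.sigma_mul, hwe, Elt.sigma_mul, hneg, sigma_jA,
        neg_mul]
    obtain ⟨γ, hγr, hγ⟩ := exists_sigma_neg e hws
    have hγb := mem_mul_rbar_of_anti e (hJ.le hw) hws hγr hγ
    have heqn : β * cjA e α = (m : A) * γ := by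
      refine jA_injective e (mul_right_cancel₀ eJ_ne_zero ?_)
      rw [map_mul, mul_assoc, ← eJ_mul_jA, ← mul_assoc, ← hrz, map_mul, map_natCast, mul_assoc,
        ← hγ, mul_smul_comm, hwe, smul_mul_assoc]
    show β * cjA e α ∈ _
    rw [heqn]
    exact Ideal.mul_mem_mul (Ideal.mem_span_singleton_self _) hγb
  -- the norm of `z = β j / r`
  have hβN : nA e β * p.P = p.r * Elt.nrm z := by
    have h1 := congrArg Elt.nrm hrz
    rw [Elt.nrm_smul, Elt.nrm_mul, nrm_jA, Params.nrm_eJ] at h1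
    refine mul_left_cancel₀ (Nat.cast_ne_zero.mpr p.r_pos.ne' : (p.r : ℤ) ≠ 0) ?_
    linear_combination -h1
  set L := Ideal.absNorm (Ideal.span {β} * (a : Ideal A).map (cjA e : A →+* A))
  set R := Ideal.absNorm (Ideal.span {(m : A)} * ((b : Ideal A) * rbar e))
  have hL : (L : ℤ) * p.P = (p.r * (m : ℤ) ^ 2 * nb) * D := by
    simp only [L, map_mul, absNorm_map_cjA, Nat.cast_mul, absNorm_span e]
    linear_combination (na : ℤ) * hβN + (p.r : ℤ) * key
  have hR : (R : ℤ) = p.r * (m : ℤ) ^ 2 * nb := by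
    simp only [R, map_mul, absNorm_span_nat e, absNorm_rbar]
    push_cast
    ring
  obtain ⟨t, ht⟩ := Ideal.absNorm_dvd_absNorm_of_le hincl
  change L = R * t at ht
  have hR0 : R ≠ 0 := fun h0 => by
    rw [h0, Nat.cast_zero] at hR
    have : (p.r : ℤ) * (m : ℤ) ^ 2 * (nb : ℤ) ≠ 0 :=
      mul_ne_zero (mul_ne_zero (Nat.cast_ne_zero.mpr p.r_pos.ne') (pow_ne_zero 2 hm0)) hnb
    exact this hR.symm
  -- comparing the norms, `P t = D`, while `D` divides `P`: so `D = P` and `t = 1`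
  have hPD : p.P * t = D := by
    have : (R * (p.P * t) : ℤ) = R * D := by
      rw [ht, Nat.cast_mul] at hL
      nth_rewrite 2 [hR]
      linear_combination hL
    exact_mod_cast mul_left_cancel₀ (by exact_mod_cast hR0) this
  have ht1 : t = 1 := by
    have h1 := Nat.le_of_dvd p.P_pos hD
    have h0 : t ≠ 0 := fun h0 => by rw [h0, mul_zero] at hPD; omega
    rw [← hPD] at h1
    nlinarith
  rw [ht1, mul_one] at ht
  have hne : Ideal.span {(m : A)} * ((b : Ideal A) * rbar e) ≠ ⊥ := fun h0 => by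
    apply hR0
    show Ideal.absNorm _ = 0
    rw [h0, Ideal.absNorm_bot]
  -- equality of ideals: the class of `ā = a⁻¹` is that of `b (r, c - √-d)`
  have heq' := eq_of_le_of_absNorm_eq hincl hne ht
  have hβ : β ≠ 0 := fun h0 => hz (smul_injective_O (Nat.cast_ne_zero.mpr p.r_pos.ne')
    (by rw [hrz, h0, map_zero, zero_mul, smul_zero]))
  have hmA : (m : A) ≠ 0 := natCast_ne_zero_A e hm.ne'
  have hca : (a : Ideal A).map (cjA e : A →+* A) ∈ (Ideal A)⁰ :=
    mem_nonZeroDivisors_of_absNorm_ne_zero (by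
      rw [absNorm_map_cjA]
      exact (Ideal.absNorm_pos_of_nonZeroDivisors a).ne')
  have hcl : ClassGroup.mk0 ⟨_, hca⟩ = ClassGroup.mk0 (b * ⟨rbar e, rbar_mem e⟩) :=
    ClassGroup.mk0_eq_mk0_iff.mpr ⟨β, (m : A), hβ, hmA, heq'⟩
  rw [mk0_map_cjA, map_mul, mk0_rbar] at hcl
  rw [hcl, inv_mul_cancel_right]

/-- **The preimages of a translate.** -/
theorem mk0_of_isShift {a b : (Ideal A)⁰} {D : ℕ} (hD : D ∣ p.P) {J : RIdeal p}
    (hJ : (iota e b).IsShift D J) (h : cls (iota e a) = cls J) :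
    ClassGroup.mk0 b = ClassGroup.mk0 a ∨
      ClassGroup.mk0 b = (ClassGroup.mk0 a)⁻¹ * frakrClass e := by
  obtain ⟨z, hz', m, hm, he⟩ := RIdeal.cls_eq_iff.mp h
  have hz : z ≠ 0 := fun e' => hz' (e' ▸ Elt.nrm_zero)
  have hJs : J.sigma = J := by
    have := hJ.sigma
    rw [sigma_iota] at this
    exact this.unique hJ
  have key := SubIdeal.transport_key hz hm he
  rw [hJ.n_eq] at key
  simp only [iota_n, Nat.cast_mul] at key
  have hσz : Elt.sigma z ≠ 0 := fun h0 => hz' (by rw [← Elt.nrm_sigma, h0, Elt.nrm_zero])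
  have heq : (iota e a).scaled z = (iota e a).scaled (Elt.sigma z) := by
    conv_rhs => rw [← sigma_iota a]
    refine AddSubgroup.ext fun x => ?_
    rw [RIdeal.mem_scaled_sigma, he, ← RIdeal.mem_scaled_sigma J, sigma_natCast, hJs]
  -- `σ z` has the same image, so is `± z`: `z` is in the field or anticommutes with it
  rcases RIdeal.eq_or_eq_neg_of_scaled_eq hz hσz heq with hpos | hneg
  · left
    have hy0 : z.y = 0 := by
      have := congrArg Elt.b hpos
      simpa using this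
    have hx0 : z.x = 0 := by
      have := congrArg Elt.x hpos
      simp at this
      omega
    obtain ⟨β, rfl⟩ := exists_jA_eq e hx0 hy0
    exact mk0_eq_of_commute hD hJ hm hz he key
  · exact Or.inr (mk0_eq_of_anti hD hJ hm hz he hneg key)

end Fermat.Agent.LT.Quat
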