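import Fermat.Agent.LT.Quat.Fixed
import Fermat.Agent.LT.Quat.Preimage
import Fermat.Agent.LT.Quat.Orbit
import Fermat.Agent.LT.Quat.HeckeAlg

/-!
# Smith theory for the conjugation by `i`

Modulo `2` the neighbours of `a O` not fixed by the conjugation cancel, so on invariant functions
the Brandt matrices act on the classes of the field as sums over primes of given norm.  For even
`d` this gives a homomorphism from the algebra of Brandt matrices to any ring of characteristic `2`
with a character of the class group separating enough.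
-/

set_option autoImplicit false

open scoped nonZeroDivisors

namespace Fermat.Agent.LT.Quat

open Matrix

theorem sum_eq_sum_fixed {α R : Type*} [Fintype α] [DecidableEq α] [CommRing R] (h2 : (2 : R) = 0)
    (s : α → α) (hs : Function.Involutive s) (g : α → R) (hg : ∀ a, g (s a) = g a) :
    ∑ a, g a = ∑ a ∈ Finset.univ.filter (fun a => s a = a), g a := by
  rw [← Finset.sum_filter_add_sum_filter_not Finset.univ (fun a => s a = a), add_eq_left]
  refine Finset.sum_involution (fun a _ => s a) (fun a _ => ?_) (fun a ha _ => ?_)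
    (fun a ha => ?_) (fun a _ => hs a)
  · rw [hg, ← two_mul, h2, zero_mul]
  · exact (Finset.mem_filter.mp ha).2
  · simp only [Finset.mem_filter, Finset.mem_univ, true_and] at ha ⊢
    rw [hs]
    exact fun h => ha h.symm

variable {p : Params} {A : Type*} [CommRing A] [IsDedekindDomain A] [Module.Free ℤ A]
  [Module.Finite ℤ A] (e : A ≃+* p.OK) {R : Type*} [CommRing R]

variable [∀ l, Fintype {P : Ideal A // Ideal.absNorm P = l}]

/-- The neighbour sum at a class of the field, modulo `2`. -/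
theorem brandt_mulVec_iota (h2 : (2 : R) = 0) {l : ℕ} (hl : l.Prime) (hl2 : l ≠ 2)
    (hlP : ¬ l ∣ p.P) (f : Cls p → R) (hf : f ∘ sigmaC = f) (a : (Ideal A)⁰) :
    ((brandt p l).map (Int.cast : ℤ → R) *ᵥ f) (iotaC e (ClassGroup.mk0 a)) =
      ∑ P : {P : Ideal A // Ideal.absNorm P = l},
        f (iotaC e (ClassGroup.mk0 a * ClassGroup.mk0 (normPrime P hl.ne_zero))) := by
  classical
  rw [iotaC_mk0, brandt_mulVec]
  let s : SubIdeal (iota e a) l → SubIdeal (iota e a) l := fun J =>
    ⟨J.1.sigma, fun x hx => by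
      have := J.2.1 ((RIdeal.mem_sigma _).mp hx)
      rw [← sigma_iota a]
      exact (RIdeal.mem_sigma _).mpr this, J.2.2⟩
  have hs : Function.Involutive s := fun J => Subtype.ext (RIdeal.sigma_sigma _)
  -- the neighbours moved by `σ` cancel in pairs
  rw [sum_eq_sum_fixed h2 s hs _ fun J => by
    show f (sigmaC (cls J.1)) = f (cls J.1)
    exact congrFun hf _]
  symm
  refine Finset.sum_bij (fun P _ => fixedSub (e := e) a P hl.ne_zero) (fun P _ => ?_)
    (fun P _ Q _ h => fixedSub_injective a hl.ne_zero h) (fun J hJ => ?_) (fun P _ => ?_)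
  · exact Finset.mem_filter.mpr ⟨Finset.mem_univ _, Subtype.ext (sigma_fixedSub a P hl.ne_zero)⟩
  · obtain ⟨P, hP⟩ := exists_fixedSub_eq hl hl2 hlP J
      (congrArg Subtype.val (Finset.mem_filter.mp hJ).2)
    exact ⟨P, Finset.mem_univ _, hP⟩
  · rw [fixedSub_val, ← iotaC_mk0, map_mul]

variable [Fintype (ClassGroup A)] (χ : ClassGroup A →* R)

/-- The functional of the character. -/
noncomputable def Psi (f : Cls p → R) : R := ∑ C, f (iotaC e C) * χ C

omit [∀ l, Fintype {P : Ideal A // Ideal.absNorm P = l}] in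
theorem Psi_add (f g : Cls p → R) : Psi e χ (f + g) = Psi e χ f + Psi e χ g := by
  simp only [Psi, Pi.add_apply, add_mul, Finset.sum_add_distrib]

omit [∀ l, Fintype {P : Ideal A // Ideal.absNorm P = l}] in
theorem Psi_smul (t : R) (f : Cls p → R) : Psi e χ (t • f) = t * Psi e χ f := by
  simp only [Psi, Pi.smul_apply, smul_eq_mul, Finset.mul_sum, mul_assoc]

/-- The sum of the character over the primes of norm `l`. -/
noncomputable def chiSum {l : ℕ} (hl : l ≠ 0) : R :=
  ∑ P : {P : Ideal A // Ideal.absNorm P = l}, χ (ClassGroup.mk0 (normPrime P hl))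

include e in
theorem Psi_brandt (h2 : (2 : R) = 0) {l : ℕ} (hl : l.Prime) (hl2 : l ≠ 2) (hlP : ¬ l ∣ p.P)
    (f : Cls p → R) (hf : f ∘ sigmaC = f) :
    Psi e χ ((brandt p l).map (Int.cast : ℤ → R) *ᵥ f) = chiSum χ hl.ne_zero * Psi e χ f := by
  classical
  let cj : {P : Ideal A // Ideal.absNorm P = l} ≃ {P : Ideal A // Ideal.absNorm P = l} :=
    Function.Involutive.toPerm
      (fun P => ⟨P.1.map (cjA e : A →+* A), (absNorm_map_cjA e P.1).trans P.2⟩) fun P => by
        refine Subtype.ext ?_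
        show (P.1.map (cjA e : A →+* A)).map (cjA e : A →+* A) = P.1
        rw [Ideal.map_map]
        convert Ideal.map_id P.1
        exact RingHom.ext (cjA_cjA e)
  have hinv : ∀ P, ClassGroup.mk0 (normPrime (cj P) hl.ne_zero) =
      (ClassGroup.mk0 (normPrime P hl.ne_zero))⁻¹ := fun P =>
    mk0_map_cjA e (normPrime P hl.ne_zero) (normPrime (cj P) hl.ne_zero).2
  have hrow : ∀ C, ((brandt p l).map (Int.cast : ℤ → R) *ᵥ f) (iotaC e C) =
      ∑ P : {P : Ideal A // Ideal.absNorm P = l},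
        f (iotaC e (C * ClassGroup.mk0 (normPrime P hl.ne_zero))) := fun C => by
    obtain ⟨a, rfl⟩ := ClassGroup.mk0_surjective C
    exact brandt_mulVec_iota e h2 hl hl2 hlP f hf a
  simp only [Psi, hrow, Finset.sum_mul]
  rw [Finset.sum_comm, chiSum, Finset.sum_mul, ← cj.sum_comp]
  refine Finset.sum_congr rfl fun P _ => ?_
  rw [hinv, Finset.mul_sum,
    ← Equiv.sum_comp (Equiv.mulRight (ClassGroup.mk0 (normPrime P hl.ne_zero)))]
  refine Finset.sum_congr rfl fun C _ => ?_
  rw [Equiv.coe_mulRight, mul_inv_cancel_right, map_mul]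
  ring

/-- The indicator of the translation orbit of a class of the field. -/
noncomputable def orbitInd (C₀ : ClassGroup A) : Cls p → ℤ :=
  Set.indicator (shiftOrbit (iotaC e C₀)) 1

omit [∀ l, Fintype {P : Ideal A // Ideal.absNorm P = l}] [Fintype (ClassGroup A)] in
theorem orbitInd_shiftPerm (C₀ : ClassGroup A) {q : ℕ} (hq : q ∈ p.T) :
    orbitInd e C₀ ∘ p.shiftPerm q = orbitInd e C₀ := by
  classical
  funext X
  simp only [Function.comp_apply, orbitInd, Set.indicator_apply, shiftPerm_mem_shiftOrbit_iff hq,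
    Pi.one_apply]

omit [∀ l, Fintype {P : Ideal A // Ideal.absNorm P = l}] [Fintype (ClassGroup A)] in
theorem orbitInd_sigmaC (C₀ : ClassGroup A) : orbitInd e C₀ ∘ sigmaC = orbitInd e C₀ := by
  classical
  funext X
  simp only [Function.comp_apply, orbitInd, Set.indicator_apply,
    sigmaC_mem_shiftOrbit_iff (sigmaC_iotaC e C₀), Pi.one_apply]

omit [∀ l, Fintype {P : Ideal A // Ideal.absNorm P = l}] [Fintype (ClassGroup A)] in
theorem eq_or_eq_of_mem_shiftOrbit {C₀ C : ClassGroup A}
    (h : iotaC e C ∈ shiftOrbit (iotaC e C₀)) : C = C₀ ∨ C = C₀⁻¹ * frakrClass e := by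
  obtain ⟨a, rfl⟩ := ClassGroup.mk0_surjective C
  obtain ⟨b, rfl⟩ := ClassGroup.mk0_surjective C₀
  obtain ⟨S, hS, hX⟩ := h
  rw [iotaC_mk0, iotaC_mk0] at hX
  obtain ⟨J, hJ, hcls⟩ := exists_isShift (iota e b) hS
  rcases mk0_of_isShift (a := a) (Finset.prod_dvd_prod_of_subset S p.T _ hS) hJ
    (hX.symm.trans hcls.symm) with h1 | h1
  · exact Or.inl h1.symm
  · right
    rw [h1, _root_.mul_inv_rev, inv_inv, mul_right_comm, inv_mul_cancel, one_mul]

omit [∀ l, Fintype {P : Ideal A // Ideal.absNorm P = l}] in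
theorem isUnit_Psi_orbitInd (C₀ : ClassGroup A)
    (hu : C₀⁻¹ * frakrClass e ≠ C₀ → IsUnit (χ C₀ + χ (C₀⁻¹ * frakrClass e))) :
    IsUnit (Psi e χ fun X => (orbitInd e C₀ X : R)) := by
  classical
  have hunit : IsUnit (χ C₀) := ((Group.isUnit C₀).map χ)
  have h : Psi e χ (fun X => (orbitInd e C₀ X : R)) =
      ∑ C ∈ Finset.univ.filter (fun C => iotaC e C ∈ shiftOrbit (iotaC e C₀)), χ C := by
    rw [Psi, Finset.sum_filter]
    refine Finset.sum_congr rfl fun C _ => ?_
    simp only [orbitInd, Set.indicator_apply, Pi.one_apply]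
    split_ifs <;> simp
  rw [h]
  by_cases h1 : iotaC e (C₀⁻¹ * frakrClass e) ∈ shiftOrbit (iotaC e C₀) ∧
      C₀⁻¹ * frakrClass e ≠ C₀
  · have : Finset.univ.filter (fun C => iotaC e C ∈ shiftOrbit (iotaC e C₀)) =
        {C₀, C₀⁻¹ * frakrClass e} := by
      ext C
      simp only [Finset.mem_filter, Finset.mem_univ, true_and, Finset.mem_insert,
        Finset.mem_singleton]
      exact ⟨eq_or_eq_of_mem_shiftOrbit e,
        fun h => h.elim (fun h => h ▸ mem_shiftOrbit_self _) fun h => h ▸ h1.1⟩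
    rw [this, Finset.sum_pair (Ne.symm h1.2)]
    exact hu h1.2
  · have : Finset.univ.filter (fun C => iotaC e C ∈ shiftOrbit (iotaC e C₀)) = {C₀} := by
      ext C
      simp only [Finset.mem_filter, Finset.mem_univ, true_and, Finset.mem_singleton]
      refine ⟨fun h => ?_, fun h => h ▸ mem_shiftOrbit_self _⟩
      rcases eq_or_eq_of_mem_shiftOrbit e h with rfl | rfl
      · rfl
      · by_contra hne
        exact h1 ⟨h, hne⟩
    rw [this, Finset.sum_singleton]
    exact hunit

theorem mulVec_cast (x : Matrix (Cls p) (Cls p) ℤ) (f : Cls p → ℤ) :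
    x.map (Int.cast : ℤ → R) *ᵥ (fun X => (f X : R)) = fun X => (((x *ᵥ f) X : ℤ) : R) := by
  funext X
  simp [Matrix.mulVec, dotProduct]

/-- An element acts on the invariant functions of the character through a scalar. -/
def IsEigen (x : Matrix (Cls p) (Cls p) ℤ) (t : R) : Prop :=
  ∀ f : Cls p → R, f ∘ sigmaC = f →
    (x.map (Int.cast : ℤ → R) *ᵥ f) ∘ sigmaC = x.map (Int.cast : ℤ → R) *ᵥ f ∧
      Psi e χ (x.map (Int.cast : ℤ → R) *ᵥ f) = t * Psi e χ f

/-- Reduction of integer matrices. -/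
private noncomputable def castM : Matrix (Cls p) (Cls p) ℤ →+* Matrix (Cls p) (Cls p) R :=
  (Int.castRingHom R).mapMatrix

omit [∀ l, Fintype {P : Ideal A // Ideal.absNorm P = l}] in
private theorem IsEigen.intCast (n : ℤ) :
    IsEigen e χ (algebraMap ℤ (Matrix (Cls p) (Cls p) ℤ) n) (n : R) := fun f hf => by
  have : (algebraMap ℤ (Matrix (Cls p) (Cls p) ℤ) n).map (Int.cast : ℤ → R) *ᵥ f =
      (n : R) • f := by
    show castM _ *ᵥ f = _
    rw [eq_intCast, map_intCast, ← Matrix.diagonal_intCast]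
    funext X
    simp [Matrix.mulVec_diagonal]
  rw [this]
  refine ⟨?_, Psi_smul e χ _ _⟩
  conv_rhs => rw [← hf]
  rfl

omit [∀ l, Fintype {P : Ideal A // Ideal.absNorm P = l}] in
private theorem IsEigen.add {x y : Matrix (Cls p) (Cls p) ℤ} {t t' : R} (hx : IsEigen e χ x t)
    (hy : IsEigen e χ y t') : IsEigen e χ (x + y) (t + t') := fun f hf => by
  rw [show (x + y).map (Int.cast : ℤ → R) = x.map Int.cast + y.map Int.cast from
    map_add castM x y, Matrix.add_mulVec, Psi_add, (hx f hf).2, (hy f hf).2, add_mul]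
  refine ⟨?_, rfl⟩
  conv_rhs => rw [← (hx f hf).1, ← (hy f hf).1]
  rfl

omit [∀ l, Fintype {P : Ideal A // Ideal.absNorm P = l}] in
private theorem IsEigen.mul {x y : Matrix (Cls p) (Cls p) ℤ} {t t' : R} (hx : IsEigen e χ x t)
    (hy : IsEigen e χ y t') : IsEigen e χ (x * y) (t * t') := fun f hf => by
  rw [show (x * y).map (Int.cast : ℤ → R) = x.map Int.cast * y.map Int.cast from
    map_mul castM x y, ← Matrix.mulVec_mulVec, (hx _ (hy f hf).1).2, (hy f hf).2, mul_assoc]
  exact ⟨(hx _ (hy f hf).1).1, rfl⟩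

/-- **The homomorphism to a ring of characteristic two.** -/
theorem exists_pi (hd : 2 ∣ p.d) (h2 : (2 : R) = 0) (C₀ : ClassGroup A)
    (hu : C₀⁻¹ * frakrClass e ≠ C₀ → IsUnit (χ C₀ + χ (C₀⁻¹ * frakrClass e))) :
    ∃ π : heckeAlg p →+* R,
      (∀ (l : ℕ) (hl : l.Prime) (hlv : ¬ l ∣ p.level),
        π (heckeAlg.t p hl hlv) = chiSum χ hl.ne_zero) ∧
      ∀ x : heckeAlg p, (∀ f : Cls p → ℤ, (∀ q ∈ p.T, f ∘ p.shiftPerm q = f) →
        x.1 *ᵥ f = 0) → π x = 0 := by
  classical
  set δ : Cls p → R := fun X => (orbitInd e C₀ X : R) with hδ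
  have hδs : δ ∘ sigmaC = δ := funext fun X => by
    show (orbitInd e C₀ (sigmaC X) : R) = orbitInd e C₀ X
    rw [show orbitInd e C₀ (sigmaC X) = orbitInd e C₀ X from congrFun (orbitInd_sigmaC e C₀) X]
  have hgen : ∀ (l : ℕ) (hl : l.Prime), ¬ l ∣ p.level →
      IsEigen e χ (brandt p l) (chiSum χ hl.ne_zero) := fun l hl hlv f hf => by
    have hl2 : l ≠ 2 := fun h => hlv (h ▸ dvd_mul_of_dvd_left hd p.P)
    exact ⟨by rw [← brandt_mulVec_sigma, hf],
      Psi_brandt e χ h2 hl hl2 (fun h => hlv (dvd_mul_of_dvd_right h p.d)) f hf⟩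
  have hscal : ∀ x ∈ heckeAlg p, ∃ t, IsEigen e χ x t := by
    intro x hx
    induction hx using Algebra.adjoin_induction with
    | mem x hx =>
      obtain ⟨l, hl, hlv, rfl⟩ := hx
      exact ⟨_, hgen l hl hlv⟩
    | algebraMap n => exact ⟨_, IsEigen.intCast e χ n⟩
    | add x y _ _ hx hy =>
      obtain ⟨t, ht⟩ := hx
      obtain ⟨t', ht'⟩ := hy
      exact ⟨_, IsEigen.add e χ ht ht'⟩
    | mul x y _ _ hx hy =>
      obtain ⟨t, ht⟩ := hx
      obtain ⟨t', ht'⟩ := hy
      exact ⟨_, IsEigen.mul e χ ht ht'⟩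
  choose t ht using hscal
  -- the scalar is determined by its value on `δ`, whose functional is a unit
  obtain ⟨u, hu'⟩ := isUnit_Psi_orbitInd e χ C₀ hu
  have hval : ∀ (x : Matrix (Cls p) (Cls p) ℤ) (hx : x ∈ heckeAlg p) (s : R),
      IsEigen e χ x s → t x hx = s := fun x hx s hs => by
    have h1 := (ht x hx δ hδs).2.symm.trans (hs δ hδs).2
    rw [show Psi e χ δ = u from hu'.symm] at h1
    exact (Units.mul_left_inj u).mp h1
  refine ⟨{
    toFun := fun x => t x.1 x.2
    map_one' := hval _ _ _ (by simpa using IsEigen.intCast e χ 1)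
    map_mul' := fun x y => hval _ _ _ (IsEigen.mul e χ (ht x.1 x.2) (ht y.1 y.2))
    map_zero' := hval _ _ _ (by simpa using IsEigen.intCast e χ 0)
    map_add' := fun x y => hval _ _ _ (IsEigen.add e χ (ht x.1 x.2) (ht y.1 y.2)) },
    fun l hl hlv => hval _ _ _ (hgen l hl hlv), fun x hx => ?_⟩
  show t x.1 x.2 = 0
  have h1 := (ht x.1 x.2 δ hδs).2
  rw [hδ, mulVec_cast, hx (orbitInd e C₀) fun q hq => orbitInd_shiftPerm e C₀ hq] at h1
  have h0 : Psi e χ (fun _ : Cls p => (((0 : ℤ)) : R)) = 0 :=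
    Finset.sum_eq_zero fun C _ => by simp
  rw [show (fun X : Cls p => ((((0 : Cls p → ℤ) X : ℤ)) : R)) = fun _ => (((0 : ℤ)) : R) from rfl,
    h0, ← hu'] at h1
  exact (Units.mul_left_eq_zero u).mp h1.symm

omit [∀ l, Fintype {P : Ideal A // Ideal.absNorm P = l}] [Fintype (ClassGroup A)]
    [Module.Finite ℤ A] in
/-- Over a local ring a character that is not residually trivial separates some pair. -/
theorem exists_separating [IsLocalRing R] (h2 : (2 : R) = 0)
    (hχ : ∃ g, IsUnit (χ g - 1)) :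
    ∃ C₀ : ClassGroup A, IsUnit (χ C₀ + χ (C₀⁻¹ * frakrClass e)) := by
  -- otherwise `χ² = χ(𝔯)` residually, so `χ = 1` residually, the characteristic being two
  by_contra! hcon
  obtain ⟨g, hg⟩ := hχ
  have hm : ∀ C, χ C + χ (C⁻¹ * frakrClass e) ∈ IsLocalRing.maximalIdeal R := fun C =>
    (IsLocalRing.mem_maximalIdeal _).mpr (hcon C)
  set red := IsLocalRing.residue R
  have h0 : ∀ C, red (χ C) * red (χ C) = red (χ (frakrClass e)) := fun C => by
    have h := (IsLocalRing.residue_eq_zero_iff _).mpr (hm C)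
    have h' : χ C * (χ C + χ (C⁻¹ * frakrClass e)) = χ C * χ C + χ (frakrClass e) := by
      rw [mul_add, ← map_mul χ C (C⁻¹ * frakrClass e), mul_inv_cancel_left]
    have h'' := congrArg red h'
    rw [map_mul, h, mul_zero, map_add, map_mul] at h''
    have h2' : red (χ (frakrClass e)) * 2 = 0 := by
      rw [← map_ofNat red 2, h2, map_zero, mul_zero]
    linear_combination -h'' - h2'
  have h1 := h0 1
  rw [map_one, map_one, one_mul] at h1
  have h3 : red (χ g - 1) * red (χ g - 1) = 0 := by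
    have h4 := h0 g
    rw [← h1] at h4
    have h2' : (2 : IsLocalRing.ResidueField R) = 0 := by rw [← map_ofNat red 2, h2, map_zero]
    rw [map_sub, map_one]
    linear_combination h4 + (1 - red (χ g)) * h2'
  exact (hg.map red).ne_zero (mul_self_eq_zero.mp h3)

end Fermat.Agent.LT.Quat
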