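import Fermat.Agent.LT.Quat.Finite

/-!
# Subideals of equivalent ideals; rows of the Brandt matrices
-/

set_option autoImplicit false

namespace Fermat.Agent.LT.Quat

open Matrix

variable {p : Params}

noncomputable instance : Fintype (Cls p) := Fintype.ofFinite _

noncomputable instance : DecidableEq (Cls p) := Classical.decEq _

instance (I : RIdeal p) (m : ℕ) : Finite (SubIdeal I m) := by
  have := finite_bounded (p := p) (m * I.n)
  exact Finite.of_injective
    (fun J : SubIdeal I m => (⟨J.1, J.2.2.le⟩ : {J : RIdeal p // J.n ≤ m * I.n}))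
    fun J J' h => Subtype.ext (congrArg (fun K => K.1) h)

noncomputable instance (I : RIdeal p) (m : ℕ) : Fintype (SubIdeal I m) := Fintype.ofFinite _

theorem natCast_ne_zero_O {m : ℕ} (hm : 0 < m) : (m : p.O) ≠ 0 := fun h => by
  simpa [hm.ne'] using congrArg Elt.a h

namespace SubIdeal

variable {I I' : RIdeal p} {z : p.O} {m : ℕ} {l : ℕ}

theorem transport_key (hz : z ≠ 0) (hm : 0 < m) (h : I.scaled z = I'.scaled (m : p.O)) :
    Elt.nrm z * (I.n : ℤ) = (m : ℤ) ^ 2 * I'.n := by
  rw [RIdeal.nrm_mul_n_eq hz (natCast_ne_zero_O hm) h, nrm_natCast]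

theorem exists_lift (h : I.scaled z = I'.scaled (m : p.O)) {w : p.O} (hw : w ∈ I.carrier) :
    ∃ x ∈ I'.carrier, (m : p.O) * x = z * w := by
  have hmem : z * w ∈ I.scaled z := ⟨w, hw, rfl⟩
  rw [h] at hmem
  obtain ⟨x, hx, e⟩ := hmem
  exact ⟨x, hx, e⟩

/-- The subideal of an equivalent ideal. -/
def transport (hz : z ≠ 0) (hm : 0 < m) (h : I.scaled z = I'.scaled (m : p.O)) (J : SubIdeal I l) :
    SubIdeal I' l :=
  ⟨{  carrier := (J.1.scaled z).comap (AddMonoidHom.mulLeft (m : p.O))
      n := l * I'.n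
      n_pos := Nat.mul_pos (Nat.pos_of_mul_pos_right (J.2.2 ▸ J.1.n_pos)) I'.n_pos
      mul_mem := fun x ⟨w, hw, e⟩ a => ⟨w * a, J.1.mul_mem w hw a, by
        show z * (w * a) = (m : p.O) * (x * a)
        rw [← mul_assoc, ← mul_assoc]
        exact congrArg (· * a) e⟩
      dvd := fun x ⟨w, hw, e⟩ x' ⟨w', hw', e'⟩ => by
        obtain ⟨o, ho⟩ := J.1.dvd w hw w' hw'
        have key := transport_key hz hm h
        have hm0 : (m : ℤ) ≠ 0 := by exact_mod_cast hm.ne'
        refine ⟨o, smul_injective_O (mul_ne_zero hm0 hm0) ?_⟩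
        change z * w = (m : p.O) * x at e
        change z * w' = (m : p.O) * x' at e'
        rw [natCast_mul_eq_smul] at e e'
        calc ((m : ℤ) * m) • (Elt.conj x * x')
            = Elt.conj ((m : ℤ) • x) * ((m : ℤ) • x') := by
              rw [Elt.conj_smul, smul_mul_smul_comm]
          _ = Elt.conj (z * w) * (z * w') := by rw [e, e']
          _ = Elt.nrm z • (Elt.conj w * w') := by
              rw [Elt.conj_mul, mul_assoc, ← mul_assoc (Elt.conj z), conj_mul_eq_smul,
                smul_mul_assoc, one_mul, mul_smul_comm]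
          _ = _ := by
              rw [ho, smul_smul, smul_smul, J.2.2, Nat.cast_mul, Nat.cast_mul,
                mul_left_comm (Elt.nrm z), key]
              ring_nf
      primitive := fun c hc => by
        obtain ⟨w, hw, k, hk, hcop⟩ := J.1.primitive c hc
        obtain ⟨x, -, e⟩ := exists_lift h (J.2.1 hw)
        have key := transport_key hz hm h
        have hm0 : (m : ℤ) ≠ 0 := by exact_mod_cast hm.ne'
        refine ⟨x, ⟨w, hw, e.symm⟩, k, mul_left_cancel₀ (pow_ne_zero 2 hm0) ?_, hcop⟩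
        change (m : p.O) * x = z * w at e
        have e' := congrArg Elt.nrm e
        rw [Elt.nrm_mul, Elt.nrm_mul, nrm_natCast, hk, J.2.2] at e'
        push_cast at e' ⊢
        linear_combination e' + (l * k : ℤ) * key },
    fun x ⟨w, hw, e⟩ => by
      obtain ⟨x', hx', e'⟩ := exists_lift h (J.2.1 hw)
      rwa [← mul_left_cancel₀ (natCast_ne_zero_O hm) (e'.trans e)],
    rfl⟩

variable (hz : z ≠ 0) (hm : 0 < m) (h : I.scaled z = I'.scaled (m : p.O))

theorem mem_transport {J : SubIdeal I l} {x : p.O} :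
    x ∈ (transport hz hm h J).1.carrier ↔ ∃ w ∈ J.1.carrier, z * w = (m : p.O) * x :=
  Iff.rfl

theorem exists_mem_transport (J : SubIdeal I l) {w : p.O} (hw : w ∈ J.1.carrier) :
    ∃ x ∈ (transport hz hm h J).1.carrier, z * w = (m : p.O) * x := by
  obtain ⟨x, -, e⟩ := exists_lift h (J.2.1 hw)
  exact ⟨x, ⟨w, hw, e.symm⟩, e.symm⟩

theorem cls_transport (J : SubIdeal I l) : cls (transport hz hm h J).1 = cls J.1 := by
  refine (RIdeal.cls_eq_iff.mpr ⟨z, nrm_ne_zero hz, m, hm, le_antisymm ?_ ?_⟩).symm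
  · rintro _ ⟨w, hw, rfl⟩
    obtain ⟨x, hx, e⟩ := exists_mem_transport hz hm h J hw
    exact ⟨x, hx, e.symm⟩
  · rintro _ ⟨x, hx, rfl⟩
    obtain ⟨w, hw, e⟩ := (mem_transport hz hm h).mp hx
    exact ⟨w, hw, e⟩

/-- Transport there and back is the identity. -/
private theorem transport_transport {z' : p.O} {m' : ℕ} (hz' : z' ≠ 0) (hm' : 0 < m')
    (h' : I'.scaled z' = I.scaled (m' : p.O)) (hzz : z' * z = (m' : p.O) * m) (J : SubIdeal I l) :
    transport hz' hm' h' (transport hz hm h J) = J := by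
  refine Subtype.ext (RIdeal.ext (le_antisymm (fun x hx => ?_) fun x hx => ?_))
  · obtain ⟨y, hy, e'⟩ := (mem_transport hz' hm' h').mp hx
    obtain ⟨w, hw, e⟩ := (mem_transport hz hm h).mp hy
    have h1 : ((m' : p.O) * m) * w = ((m' : p.O) * m) * x := by
      rw [← hzz, mul_assoc, e, ← mul_assoc, ← Nat.cast_comm m z', mul_assoc, e', ← mul_assoc,
        Nat.cast_comm m (m' : p.O), hzz]
    rwa [← mul_left_cancel₀ (mul_ne_zero (natCast_ne_zero_O hm') (natCast_ne_zero_O hm)) h1]
  · obtain ⟨y, hy, e⟩ := exists_mem_transport hz hm h J hx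
    refine ⟨y, hy, mul_left_cancel₀ (natCast_ne_zero_O hm) ?_⟩
    show (m : p.O) * (z' * y) = (m : p.O) * ((m' : p.O) * x)
    rw [← mul_assoc, Nat.cast_comm m z', mul_assoc, ← e, ← mul_assoc, hzz,
      ← Nat.cast_comm m (m' : p.O), mul_assoc]

end SubIdeal

/-- Subideals of equivalent ideals correspond, with their classes. -/
theorem exists_subIdeal_equiv {I I' : RIdeal p} (hr : RIdeal.Rel I I') (l : ℕ) :
    ∃ e : SubIdeal I l ≃ SubIdeal I' l, ∀ J, cls (e J).1 = cls J.1 := by
  obtain ⟨z, hz', m, hm, h⟩ := hr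
  have hz : z ≠ 0 := fun e => hz' (e ▸ Elt.nrm_zero)
  set N := (Elt.nrm z).natAbs
  have hN : 0 < N := Int.natAbs_pos.mpr hz'
  have hNz : (N : p.O) = Elt.conj z * z := by
    rw [natCast_eq_algebraMap, Int.natAbs_of_nonneg (p.nrm_nonneg z), Elt.conj_mul_self]
  have hzc : Elt.conj z * (m : p.O) ≠ 0 :=
    mul_ne_zero (fun e => hz (by simpa using congrArg Elt.conj e)) (natCast_ne_zero_O hm)
  have h' : I'.scaled (Elt.conj z * (m : p.O)) = I.scaled (N : p.O) := by
    rw [RIdeal.scaled_mul, ← h, ← RIdeal.scaled_mul, hNz]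
  have hzN : z * Elt.conj z = (N : p.O) := by
    rw [natCast_eq_algebraMap, Int.natAbs_of_nonneg (p.nrm_nonneg z), Elt.mul_conj]
  exact ⟨{
    toFun := SubIdeal.transport hz hm h
    invFun := SubIdeal.transport hzc hN h'
    left_inv := fun J => SubIdeal.transport_transport hz hm h hzc hN h'
      (by rw [mul_assoc, Nat.cast_comm, ← mul_assoc, hNz]) J
    right_inv := fun J => SubIdeal.transport_transport hzc hN h' hz hm h
      (by rw [← mul_assoc, hzN, Nat.cast_comm]) J },
    SubIdeal.cls_transport hz hm h⟩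

/-- **A row of a Brandt matrix**, through any ideal of its class. -/
theorem brandt_mulVec {R : Type*} [CommRing R] (I : RIdeal p) (l : ℕ) (f : Cls p → R) :
    ((brandt p l).map (Int.cast : ℤ → R) *ᵥ f) (cls I) = ∑ J : SubIdeal I l, f (cls J.1) := by
  classical
  obtain ⟨e, he⟩ := exists_subIdeal_equiv
    (RIdeal.cls_eq_iff.mp (cls_out (cls I))) l
  rw [← e.sum_comp fun J => f (cls J.1)]
  simp only [he, Matrix.mulVec, dotProduct, Matrix.map_apply, brandt]
  rw [← Finset.sum_fiberwise Finset.univ (fun J : SubIdeal (cls I).out l => cls J.1)]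
  refine Finset.sum_congr rfl fun X _ => ?_
  rw [Finset.sum_congr rfl (fun J hJ => by rw [(Finset.mem_filter.mp hJ).2] : ∀ J ∈ _, _ = f X),
    Finset.sum_const, nsmul_eq_mul, Nat.card_eq_fintype_card, Fintype.card_subtype]
  push_cast
  rfl

end Fermat.Agent.LT.Quat
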